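import Mathlib
import Fermat.Prelude.Def_GaloisRep_CompletionBridge
import Fermat.Prelude.Def_ExtEndgame_ProductionDatum
import Fermat.Agent.Lib.GalQbar

/-!
# The local Galois groups surject onto decomposition groups at finite level

Let `q` be a prime, `ι = padicEmbedding q : ℚ̄ → ℚ̄_q`, `A = padicPlace q` the induced valuation
subring of `ℚ̄` and `r = localGaloisToGlobal q : Gal(ℚ̄_q/ℚ_q) → Gal(ℚ̄/ℚ)`.

* `norm_padicEmbedding_apply_of_mem_decompositionSubgroup`: elements of the decomposition group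
  of `A` are isometries for the `q`-adic norm.
* `apply_eq_of_mem_decompositionSubgroup`: they fix the decomposition field
  `{x | ι x ∈ ℚ_q}` pointwise.
* `exists_local_apply_eq`: for every finite normal `F/ℚ` inside `ℚ̄` and every `σ` in the
  decomposition group of `A` there is a local automorphism `τ` with `r τ = σ` on `F`.

No completion theory (Krasner's lemma) is used: only the density of `ℚ` in `ℚ_q` and finite
Galois theory.
-/

set_option autoImplicit false
set_option linter.style.haveILetI false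

namespace Fermat.Agent.PT.LocDec

open scoped NNReal Pointwise

local notation "Qb" => AlgebraicClosure ℚ
local notation "GQ" => (AlgebraicClosure ℚ ≃ₐ[ℚ] AlgebraicClosure ℚ)

variable (q : ℕ) [Fact q.Prime]

/-- The `q`-adic norm on `ℚ̄` induced by `padicEmbedding q`. -/
noncomputable def nq (x : Qb) : ℝ := ‖padicEmbedding q x‖

theorem nq_mul (x y : Qb) : nq q (x * y) = nq q x * nq q y := by
  unfold nq; rw [map_mul, norm_mul]

theorem nq_pow (x : Qb) (n : ℕ) : nq q (x ^ n) = nq q x ^ n := by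
  unfold nq; rw [map_pow, norm_pow]

theorem nq_zpow (x : Qb) (n : ℤ) : nq q (x ^ n) = nq q x ^ n := by
  unfold nq; rw [map_zpow₀, norm_zpow]

theorem nq_natCast_self : nq q (q : Qb) = (q : ℝ)⁻¹ := by
  unfold nq
  rw [map_natCast]
  have h : algebraMap ℚ_[q] (PadicAlgCl q) (q : ℚ_[q]) = (q : PadicAlgCl q) := map_natCast _ _
  have h2 := PadicAlgCl.norm_extends q (q : ℚ_[q])
  rw [← h]
  exact h2.trans Padic.norm_p

theorem nq_eq_zero_iff (x : Qb) : nq q x = 0 ↔ x = 0 := by
  unfold nq
  rw [norm_eq_zero]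
  exact map_eq_zero_iff _ (padicEmbedding q).toRingHom.injective

theorem mem_padicPlace_iff_nq (x : Qb) : x ∈ padicPlace q ↔ nq q x ≤ 1 := by
  rw [mem_padicPlace_iff]
  unfold nq
  rw [← NNReal.coe_le_coe, coe_nnnorm, NNReal.coe_one]

theorem mem_iff_apply_mem {σ : GQ} (hσ : σ ∈ (padicPlace q).decompositionSubgroup ℚ) (x : Qb) :
    σ x ∈ padicPlace q ↔ x ∈ padicPlace q := by
  have hσ' : σ⁻¹ ∈ (padicPlace q).decompositionSubgroup ℚ := inv_mem hσ
  rw [ValuationSubring.decompositionSubgroup, MulAction.mem_stabilizer_iff] at hσ'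
  have h := ValuationSubring.mem_pointwise_smul_iff_inv_smul_mem (g := σ⁻¹) (S := padicPlace q)
    (x := x)
  rw [hσ', inv_inv] at h
  exact h.symm

/-- One half of the isometry property. -/
theorem nq_apply_le {σ : GQ} (hσ : σ ∈ (padicPlace q).decompositionSubgroup ℚ) (x : Qb) :
    nq q x ≤ nq q (σ x) := by
  by_contra hlt
  rw [not_le] at hlt
  have hq1 : (1 : ℝ) < q := by exact_mod_cast (Fact.out : q.Prime).one_lt
  have hq0 : (0 : ℝ) < q := by linarith
  have hb : 0 < nq q x := lt_of_le_of_lt (norm_nonneg _) hlt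
  have hx0 : x ≠ 0 := fun h => by rw [h] at hb; simp [nq] at hb
  have ha : 0 < nq q (σ x) := by
    rcases (norm_nonneg (padicEmbedding q (σ x))).lt_or_eq with h | h
    · exact h
    · exfalso
      have : σ x = 0 := (nq_eq_zero_iff q _).mp h.symm
      exact hx0 ((map_eq_zero_iff σ σ.injective).mp this)
  -- choose `m` with `(b / a) ^ m > q`
  have hρ : 1 < nq q x / nq q (σ x) := by rw [one_lt_div ha]; exact hlt
  obtain ⟨m, hm⟩ := pow_unbounded_of_one_lt (q : ℝ) hρ
  rw [div_pow, lt_div_iff₀ (pow_pos ha m)] at hm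
  -- choose `j` with `q ^ j < a ^ m ≤ q ^ (j + 1)`
  obtain ⟨j, hj1, hj2⟩ := exists_mem_Ioc_zpow (pow_pos ha m) hq1
  -- the element `z = x ^ m * q ^ (j + 1)`
  set z : Qb := x ^ m * (q : Qb) ^ (j + 1) with hz
  have hqj : (0 : ℝ) < (q : ℝ) ^ (j + 1) := zpow_pos hq0 _
  have hnz : nq q z = nq q x ^ m * ((q : ℝ) ^ (j + 1))⁻¹ := by
    rw [hz, nq_mul, nq_pow, nq_zpow, nq_natCast_self, inv_zpow]
  have hnσz : nq q (σ z) = nq q (σ x) ^ m * ((q : ℝ) ^ (j + 1))⁻¹ := by
    rw [hz, map_mul, map_pow, map_zpow₀, map_natCast, nq_mul, nq_pow, nq_zpow, nq_natCast_self,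
      inv_zpow]
  have h1 : nq q (σ z) ≤ 1 := by
    rw [hnσz, ← div_eq_mul_inv, div_le_one hqj]
    exact hj2
  have h2 : 1 < nq q z := by
    rw [hnz, ← div_eq_mul_inv, one_lt_div hqj]
    calc (q : ℝ) ^ (j + 1) = q * (q : ℝ) ^ j := by rw [zpow_add_one₀ hq0.ne', mul_comm]
      _ < q * nq q (σ x) ^ m := by exact mul_lt_mul_of_pos_left hj1 hq0
      _ < nq q x ^ m := hm
  have h3 : σ z ∈ padicPlace q := (mem_padicPlace_iff_nq q _).mpr h1
  have h4 : z ∈ padicPlace q := (mem_iff_apply_mem q hσ z).mp h3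
  exact absurd ((mem_padicPlace_iff_nq q _).mp h4) (not_le.mpr h2)

/-- Elements of the decomposition group of `padicPlace q` are isometries of the `q`-adic norm. -/
theorem nq_apply {σ : GQ} (hσ : σ ∈ (padicPlace q).decompositionSubgroup ℚ) (x : Qb) :
    nq q (σ x) = nq q x := by
  apply le_antisymm
  · have h := nq_apply_le q (inv_mem hσ) (σ x)
    have e : σ⁻¹ (σ x) = x := by
      show (σ⁻¹ * σ) x = x
      rw [inv_mul_cancel]; rfl
    rwa [e] at h
  · exact nq_apply_le q hσ x

theorem norm_padicEmbedding_apply_of_mem_decompositionSubgroup {σ : GQ}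
    (hσ : σ ∈ (padicPlace q).decompositionSubgroup ℚ) (x : Qb) :
    ‖padicEmbedding q (σ x)‖ = ‖padicEmbedding q x‖ :=
  nq_apply q hσ x

/-- Elements of the decomposition group fix the decomposition field pointwise. -/
theorem apply_eq_of_mem_decompositionSubgroup {σ : GQ}
    (hσ : σ ∈ (padicPlace q).decompositionSubgroup ℚ) {x : Qb}
    (hx : padicEmbedding q x ∈ Set.range (algebraMap ℚ_[q] (PadicAlgCl q))) : σ x = x := by
  obtain ⟨y, hy⟩ := hx
  have key : ∀ ε : ℝ, 0 < ε → nq q (σ x - x) < 2 * ε := by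
    intro ε hε
    obtain ⟨r, hr⟩ := Padic.rat_dense q y hε
    have h1 : nq q (x - (r : Qb)) < ε := by
      unfold nq
      rw [map_sub, map_ratCast, ← hy]
      have e : (algebraMap ℚ_[q] (PadicAlgCl q) y - (r : PadicAlgCl q))
          = algebraMap ℚ_[q] (PadicAlgCl q) (y - (r : ℚ_[q])) := by
        rw [map_sub, map_ratCast]
      rw [e]
      have := PadicAlgCl.norm_extends q (y - (r : ℚ_[q]))
      exact this.trans_lt hr
    have h2 : nq q (σ x - (r : Qb)) < ε := by
      have e : σ x - (r : Qb) = σ (x - (r : Qb)) := by rw [map_sub, map_ratCast]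
      rw [e, nq_apply q hσ]
      exact h1
    have e : σ x - x = (σ x - (r : Qb)) - (x - (r : Qb)) := by ring
    rw [e]
    unfold nq at h1 h2 ⊢
    rw [map_sub]
    calc ‖padicEmbedding q (σ x - (r : Qb)) - padicEmbedding q (x - (r : Qb))‖
        ≤ ‖padicEmbedding q (σ x - (r : Qb))‖ + ‖padicEmbedding q (x - (r : Qb))‖ := norm_sub_le _ _
      _ < 2 * ε := by linarith
  have h0 : nq q (σ x - x) = 0 := by
    by_contra hne
    have hpos : 0 < nq q (σ x - x) := lt_of_le_of_ne (norm_nonneg _) (Ne.symm hne)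
    have := key (nq q (σ x - x) / 2) (by positivity)
    linarith
  exact sub_eq_zero.mp ((nq_eq_zero_iff q _).mp h0)

/-- **Finite-level surjectivity onto the decomposition group.** For a finite normal extension
`F/ℚ` inside `ℚ̄`, every element of the decomposition group of `padicPlace q` agrees on `F` with
the image of a local automorphism. -/
theorem exists_local_apply_eq (F : IntermediateField ℚ Qb) [FiniteDimensional ℚ F] [Normal ℚ F]
    {σ : GQ} (hσ : σ ∈ (padicPlace q).decompositionSubgroup ℚ) :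
    ∃ τ : PadicAlgCl q ≃ₐ[ℚ_[q]] PadicAlgCl q, ∀ x ∈ F, localGaloisToGlobal q τ x = σ x := by
  haveI : IsGalois ℚ_[q] (PadicAlgCl q) := IsAlgClosure.isGalois ℚ_[q] (PadicAlgCl q)
  let φ : (PadicAlgCl q ≃ₐ[ℚ_[q]] PadicAlgCl q) →* (F ≃ₐ[ℚ] F) :=
    (AlgEquiv.restrictNormalHom F).comp (localGaloisToGlobal q)
  have hφ : ∀ (τ : PadicAlgCl q ≃ₐ[ℚ_[q]] PadicAlgCl q) (x : F),
      ((φ τ x : F) : Qb) = localGaloisToGlobal q τ (x : Qb) := by
    intro τ x
    exact AlgEquiv.restrictNormal_commutes (localGaloisToGlobal q τ) F x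
  have hσF : ∀ x : F, ((AlgEquiv.restrictNormalHom F σ x : F) : Qb) = σ (x : Qb) := by
    intro x
    exact AlgEquiv.restrictNormal_commutes σ F x
  have hfix : AlgEquiv.restrictNormalHom F σ
      ∈ IntermediateField.fixingSubgroup (IntermediateField.fixedField φ.range) := by
    rw [IntermediateField.mem_fixingSubgroup_iff]
    intro x hx
    rw [IntermediateField.mem_fixedField_iff] at hx
    have hx' : ∀ τ : PadicAlgCl q ≃ₐ[ℚ_[q]] PadicAlgCl q,
        τ (padicEmbedding q (x : Qb)) = padicEmbedding q (x : Qb) := by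
      intro τ
      have h1 := hx (φ τ) ⟨τ, rfl⟩
      have h2 := hφ τ x
      rw [h1] at h2
      rw [← padicEmbedding_localGaloisToGlobal, ← h2]
    have hmem : padicEmbedding q (x : Qb) ∈ Set.range (algebraMap ℚ_[q] (PadicAlgCl q)) :=
      (InfiniteGalois.mem_range_algebraMap_iff_fixed _).mpr hx'
    have h3 := apply_eq_of_mem_decompositionSubgroup q hσ hmem
    apply Subtype.ext
    rw [hσF x, h3]
  rw [IntermediateField.fixingSubgroup_fixedField] at hfix
  obtain ⟨τ, hτ⟩ := hfix
  refine ⟨τ, fun x hx => ?_⟩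
  have h1 := hφ τ ⟨x, hx⟩
  rw [hτ, hσF ⟨x, hx⟩] at h1
  exact h1.symm

/-- The same statement for finitely many elements of `ℚ̄` (no normality assumption): every
element of the decomposition group agrees with a local automorphism on a given finite-dimensional
intermediate field. -/
theorem exists_local_apply_eq' (F : IntermediateField ℚ Qb) [FiniteDimensional ℚ F]
    {σ : GQ} (hσ : σ ∈ (padicPlace q).decompositionSubgroup ℚ) :
    ∃ τ : PadicAlgCl q ≃ₐ[ℚ_[q]] PadicAlgCl q, ∀ x ∈ F, localGaloisToGlobal q τ x = σ x := by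
  haveI : Normal ℚ Qb := Fermat.Agent.Lib.GalQbar.normal_rat
  haveI : FiniteDimensional ℚ (IntermediateField.normalClosure ℚ F Qb) :=
    normalClosure.is_finiteDimensional ℚ F Qb
  haveI : Normal ℚ (IntermediateField.normalClosure ℚ F Qb) :=
    normalClosure.normal ℚ F Qb
  obtain ⟨τ, hτ⟩ := exists_local_apply_eq q (IntermediateField.normalClosure ℚ F Qb) hσ
  exact ⟨τ, fun x hx => hτ x (IntermediateField.le_normalClosure F hx)⟩

/-- Coset form: every element of the decomposition group is congruent, modulo the fixing subgroup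
of any finite-dimensional `F`, to the image of a local automorphism. -/
theorem exists_local_inv_mul_mem_fixingSubgroup (F : IntermediateField ℚ Qb)
    [FiniteDimensional ℚ F] {σ : GQ} (hσ : σ ∈ (padicPlace q).decompositionSubgroup ℚ) :
    ∃ τ : PadicAlgCl q ≃ₐ[ℚ_[q]] PadicAlgCl q,
      σ⁻¹ * localGaloisToGlobal q τ ∈ F.fixingSubgroup := by
  obtain ⟨τ, hτ⟩ := exists_local_apply_eq' q F hσ
  refine ⟨τ, ?_⟩
  rw [IntermediateField.mem_fixingSubgroup_iff]
  intro x hx
  show σ⁻¹ (localGaloisToGlobal q τ x) = x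
  rw [hτ x hx]
  show (σ⁻¹ * σ) x = x
  rw [inv_mul_cancel]
  rfl

/-- The image of the local Galois group is contained in the decomposition group (restatement of
the prelude lemma) and is dense in it in the sense of `exists_local_inv_mul_mem_fixingSubgroup`.
In terms of sets of cosets: the images of the local group and of the decomposition group in
`Gal(ℚ̄/ℚ) ⧸ Gal(ℚ̄/F)` coincide. -/
theorem exists_local_iff_exists_decomposition (F : IntermediateField ℚ Qb)
    [FiniteDimensional ℚ F] (g : GQ) :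
    (∃ τ : PadicAlgCl q ≃ₐ[ℚ_[q]] PadicAlgCl q, g⁻¹ * localGaloisToGlobal q τ ∈ F.fixingSubgroup)
      ↔ ∃ σ ∈ (padicPlace q).decompositionSubgroup ℚ, g⁻¹ * σ ∈ F.fixingSubgroup := by
  constructor
  · rintro ⟨τ, hτ⟩
    exact ⟨_, localGaloisToGlobal_mem_decompositionSubgroup q τ, hτ⟩
  · rintro ⟨σ, hσ, hg⟩
    obtain ⟨τ, hτ⟩ := exists_local_inv_mul_mem_fixingSubgroup q F hσ
    refine ⟨τ, ?_⟩
    have : g⁻¹ * localGaloisToGlobal q τ = (g⁻¹ * σ) * (σ⁻¹ * localGaloisToGlobal q τ) := by
      group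
    rw [this]
    exact mul_mem hg hτ

end Fermat.Agent.PT.LocDec

namespace Fermat.Agent.PT.LocDec

open ExtCitation

local notation "Qb" => AlgebraicClosure ℚ
local notation "GQ" => (AlgebraicClosure ℚ ≃ₐ[ℚ] AlgebraicClosure ℚ)

/-- The image of `primeLocalToGlobal q` lies in the decomposition group of `primeLocalPlace q`. -/
theorem primeLocalToGlobal_mem (q : Nat.Primes) (τ : primeLocalGaloisGroup q) :
    primeLocalToGlobal q τ ∈ (primeLocalPlace q).decompositionSubgroup ℚ :=
  letI : Fact (q : ℕ).Prime := ⟨q.2⟩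
  localGaloisToGlobal_mem_decompositionSubgroup (q : ℕ) τ

/-- **Finite-level surjectivity** in the notation of the prelude's arithmetic local groups. -/
theorem exists_primeLocal_apply_eq (q : Nat.Primes) (F : IntermediateField ℚ Qb)
    [FiniteDimensional ℚ F] {σ : GQ} (hσ : σ ∈ (primeLocalPlace q).decompositionSubgroup ℚ) :
    ∃ τ : primeLocalGaloisGroup q, ∀ x ∈ F, primeLocalToGlobal q τ x = σ x :=
  letI : Fact (q : ℕ).Prime := ⟨q.2⟩
  exists_local_apply_eq' (q : ℕ) F hσ

theorem exists_primeLocal_inv_mul_mem_fixingSubgroup (q : Nat.Primes)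
    (F : IntermediateField ℚ Qb) [FiniteDimensional ℚ F] {σ : GQ}
    (hσ : σ ∈ (primeLocalPlace q).decompositionSubgroup ℚ) :
    ∃ τ : primeLocalGaloisGroup q, σ⁻¹ * primeLocalToGlobal q τ ∈ F.fixingSubgroup :=
  letI : Fact (q : ℕ).Prime := ⟨q.2⟩
  exists_local_inv_mul_mem_fixingSubgroup (q : ℕ) F hσ

end Fermat.Agent.PT.LocDec
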