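import Fermat.Prelude.Def_GroupCohomology_ContinuousUnramified

/-!
# PT (S55): levels

Finite subextensions `F/ℚ` of `ℚ̄` unramified outside `S` (`IntermediateField.IsUnramifiedOutside`)
are the "levels" of the Prelude's `S`-cohomology.  This file shows that levels can always be
enlarged to *Galois* levels:

* `mem_inertiaSubgroupIn_iff` : explicit membership criterion for the inertia group.
* `conj_mem_inertiaSubgroupIn` : `τ I_A τ⁻¹ = I_{τ A}`.
* `IsUnramifiedOutside.normalClosure` : the normal closure of a level is a level.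
* `exists_normal_level_ge` : every level is contained in a Galois level.
* `IsLevelConstantS₁.exists_normal`, `IsLevelConstantS₂.exists_normal` : level-constant cochains
  are constant modulo a *normal* level containing any prescribed level.
-/

set_option autoImplicit false

open CategoryTheory Module groupCohomology ExtCitation

namespace Fermat.Agent.PT.Levels

local notation "Qb" => AlgebraicClosure ℚ
local notation "GQ" => (AlgebraicClosure ℚ ≃ₐ[ℚ] AlgebraicClosure ℚ)

local instance isAlgebraicQbar_lv : Algebra.IsAlgebraic ℚ Qb := AlgebraicClosure.isAlgebraic ℚ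
local instance isAlgClosureQbar_lv : IsAlgClosure ℚ Qb := ⟨inferInstance, inferInstance⟩
local instance normalQbar_lv : Normal ℚ Qb := IsAlgClosure.normal ℚ Qb
local instance isSeparableQbar_lv : Algebra.IsSeparable ℚ Qb :=
  Algebra.IsAlgebraic.isSeparable_of_perfectField
local instance isGaloisQbar_lv : IsGalois ℚ Qb := ⟨⟩

/-! ### Inertia groups -/

section Inertia

open scoped Pointwise

variable {F K : Type*} [Field F] [Field K] [Algebra F K]

theorem mem_nonunits_iff_inv (A : ValuationSubring K) (x : K) :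
    x ∈ A.nonunits ↔ x = 0 ∨ x⁻¹ ∉ A := by
  rw [A.mem_nonunits_iff]
  rcases eq_or_ne x 0 with rfl | hx
  · simp
  · rw [← A.valuation_le_one_iff, map_inv₀, not_le]
    have h0 : A.valuation x ≠ 0 := (Valuation.ne_zero_iff _).mpr hx
    constructor
    · intro h
      exact Or.inr ((one_lt_inv₀ (zero_lt_iff.mpr h0)).mpr h)
    · rintro (h | h)
      · exact absurd h hx
      · exact (one_lt_inv₀ (zero_lt_iff.mpr h0)).mp h

/-- Membership in the inertia group: `σ` stabilises `A` and moves every element of `A` by a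
non-unit. -/
theorem mem_inertiaSubgroupIn_iff (A : ValuationSubring K) (σ : K ≃ₐ[F] K) :
    σ ∈ A.inertiaSubgroupIn F ↔
      σ ∈ A.decompositionSubgroup F ∧ ∀ x ∈ A, σ x - x ∈ A.nonunits := by
  constructor
  · rintro ⟨g, hg, rfl⟩
    refine ⟨g.2, fun x hx => ?_⟩
    have hmem : (g : K ≃ₐ[F] K) x ∈ A := ((g • (⟨x, hx⟩ : A) : A)).2
    have h1 : MulSemiringAction.toRingAut (A.decompositionSubgroup F)
        (IsLocalRing.ResidueField A) g = 1 := hg
    have h2 : g • IsLocalRing.residue A ⟨x, hx⟩ = IsLocalRing.residue A ⟨x, hx⟩ := by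
      have := congrArg (fun f : RingAut (IsLocalRing.ResidueField A) =>
        f (IsLocalRing.residue A ⟨x, hx⟩)) h1
      simpa using this
    rw [← IsLocalRing.ResidueField.residue_smul] at h2
    have h3 : (g • (⟨x, hx⟩ : A) : A) - ⟨x, hx⟩ ∈ IsLocalRing.maximalIdeal A := by
      rw [← Ideal.Quotient.eq]
      exact h2
    rw [ValuationSubring.mem_nonunits_iff_exists_mem_maximalIdeal]
    exact ⟨A.sub_mem hmem hx, h3⟩
  · rintro ⟨hσA, hσ⟩
    refine ⟨⟨σ, hσA⟩, ?_, rfl⟩
    show (⟨σ, hσA⟩ : A.decompositionSubgroup F) ∈ A.inertiaSubgroup F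
    rw [ValuationSubring.inertiaSubgroup, MonoidHom.mem_ker]
    ext y
    obtain ⟨x, rfl⟩ := IsLocalRing.residue_surjective y
    show (⟨σ, hσA⟩ : A.decompositionSubgroup F) • IsLocalRing.residue A x
      = IsLocalRing.residue A x
    rw [← IsLocalRing.ResidueField.residue_smul, ← sub_eq_zero, ← map_sub,
      IsLocalRing.residue_eq_zero_iff, A.valuation_lt_one_iff]
    exact A.mem_nonunits_iff.mp (hσ x x.2)

/-- `τ I_A τ⁻¹ ⊆ I_{τ A}`. -/
theorem conj_mem_inertiaSubgroupIn (A : ValuationSubring K) (τ σ : K ≃ₐ[F] K)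
    (hσ : σ ∈ A.inertiaSubgroupIn F) :
    τ * σ * τ⁻¹ ∈ (τ • A).inertiaSubgroupIn F := by
  rw [mem_inertiaSubgroupIn_iff] at hσ ⊢
  obtain ⟨hσA, hσ⟩ := hσ
  have hσA' : σ • A = A := hσA
  refine ⟨?_, fun y hy => ?_⟩
  · show (τ * σ * τ⁻¹) • (τ • A) = τ • A
    rw [smul_smul, inv_mul_cancel_right, mul_smul, hσA']
  · rw [ValuationSubring.mem_pointwise_smul_iff_inv_smul_mem] at hy
    have h1 := hσ _ hy
    have e : (τ * σ * τ⁻¹) y - y = τ (σ (τ⁻¹ • y) - τ⁻¹ • y) := by
      have h3 : τ (τ⁻¹ • y) = y := τ.apply_symm_apply y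
      rw [map_sub, h3]
      rfl
    rw [e, mem_nonunits_iff_inv] at *
    rcases h1 with h1 | h1
    · left
      rw [h1, map_zero]
    · right
      intro h2
      apply h1
      rw [ValuationSubring.mem_pointwise_smul_iff_inv_smul_mem] at h2
      have e2 : τ⁻¹ • (τ (σ (τ⁻¹ • y) - τ⁻¹ • y))⁻¹ = (σ (τ⁻¹ • y) - τ⁻¹ • y)⁻¹ := by
        rw [← map_inv₀]
        show τ⁻¹ (τ _) = _
        exact τ.symm_apply_apply _
      rwa [e2] at h2

end Inertia

/-! ### Galois levels -/

section Level

open scoped Pointwise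


theorem liesOverPrime_smul {A : ValuationSubring Qb} {q : ℕ} (hA : A.LiesOverPrime q) (τ : GQ) :
    (τ • A).LiesOverPrime q := by
  unfold ValuationSubring.LiesOverPrime at *
  rw [mem_nonunits_iff_inv] at *
  rcases hA with h | h
  · exact Or.inl h
  · right
    intro h2
    apply h
    rw [ValuationSubring.mem_pointwise_smul_iff_inv_smul_mem] at h2
    have e : τ⁻¹ • ((q : Qb))⁻¹ = ((q : Qb))⁻¹ := by
      show τ⁻¹ ((q : Qb))⁻¹ = ((q : Qb))⁻¹
      rw [map_inv₀, map_natCast]
    rwa [e] at h2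

/-- Every embedding of a subfield of `ℚ̄` into `ℚ̄` is the restriction of an automorphism. -/
theorem exists_aut_eq (F : IntermediateField ℚ Qb) (f : F →ₐ[ℚ] Qb) :
    ∃ τ : GQ, ∀ x : F, τ (x : Qb) = f x := by
  refine ⟨AlgEquiv.ofBijective (f.liftNormal Qb)
    (Algebra.IsAlgebraic.algHom_bijective (f.liftNormal Qb)), fun x => ?_⟩
  exact f.liftNormal_commutes Qb x

theorem apply_eq_of_mem_zpowers {σ g : GQ} (hg : g ∈ Subgroup.zpowers σ) {x : Qb}
    (hx : σ x = x) : g x = x := by
  have h1 : Subgroup.zpowers σ ≤ MulAction.stabilizer GQ x :=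
    (Subgroup.zpowers_le (H := MulAction.stabilizer GQ x)).mpr hx
  exact h1 hg

/-- The normal closure of a level is a level. -/
theorem isUnramifiedOutside_normalClosure {S : Finset Nat.Primes}
    {F : IntermediateField ℚ Qb} (hF : F.IsUnramifiedOutside S) :
    (IntermediateField.normalClosure ℚ F Qb).IsUnramifiedOutside S := by
  have := hF.1
  refine ⟨normalClosure.is_finiteDimensional ℚ F Qb, fun q hq A hA σ hσ => ?_⟩
  have hle : IntermediateField.normalClosure ℚ F Qb
      ≤ IntermediateField.fixedField (Subgroup.zpowers σ) := by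
    rw [IntermediateField.normalClosure]
    refine iSup_le fun f => ?_
    rintro _ ⟨x, rfl⟩
    rw [IntermediateField.mem_fixedField_iff]
    intro g hg
    refine apply_eq_of_mem_zpowers hg ?_
    obtain ⟨τ, hτ⟩ := exists_aut_eq F f
    show σ (f x) = f x
    rw [← hτ x]
    have h1 := conj_mem_inertiaSubgroupIn A τ⁻¹ σ hσ
    have h2 := hF.2 q hq (τ⁻¹ • A) (liesOverPrime_smul hA τ⁻¹) h1
    rw [IntermediateField.mem_fixingSubgroup_iff] at h2
    have h3 : τ⁻¹ (σ (τ (x : Qb))) = x := h2 x x.2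
    have h4 := congrArg τ h3
    rwa [show τ (τ⁻¹ (σ (τ (x : Qb)))) = σ (τ (x : Qb)) from τ.apply_symm_apply _] at h4
  rw [IntermediateField.mem_fixingSubgroup_iff]
  intro x hx
  exact (IntermediateField.mem_fixedField_iff _ x).mp (hle hx) σ (Subgroup.mem_zpowers σ)

/-- Every level is contained in a Galois level. -/
theorem exists_normal_level_ge {S : Finset Nat.Primes} {F : IntermediateField ℚ Qb}
    (hF : F.IsUnramifiedOutside S) :
    ∃ L : IntermediateField ℚ Qb, F ≤ L ∧ L.IsUnramifiedOutside S ∧ Normal ℚ L :=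
  ⟨IntermediateField.normalClosure ℚ F Qb, F.le_normalClosure,
    isUnramifiedOutside_normalClosure hF, normalClosure.normal ℚ F Qb⟩

/-- The fixing subgroup of a normal subextension is a normal subgroup. -/
theorem fixingSubgroup_normal (L : IntermediateField ℚ Qb) [Normal ℚ L] :
    (L.fixingSubgroup).Normal := by
  refine ⟨fun n hn g => ?_⟩
  rw [IntermediateField.mem_fixingSubgroup_iff] at hn ⊢
  intro x hx
  have h1 : g⁻¹ x ∈ L := by
    have := (IntermediateField.normal_iff_forall_map_le'.mp ‹Normal ℚ L›) g⁻¹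
    exact this ⟨x, hx, rfl⟩
  show g (n (g⁻¹ x)) = x
  rw [hn _ h1]
  exact g.apply_symm_apply x

end Level

/-! ### The level of a representation -/

section RepLevel


/-- A smooth finite-dimensional representation is trivial on `Gal(ℚ̄/F)` for one finite `F`. -/
theorem exists_finite_level_of_smooth {k : Type*} [Field k] (M : Rep k GQ) [Module.Finite k M]
    (hsm : ∀ m : M, ∃ F : IntermediateField ℚ Qb, FiniteDimensional ℚ F ∧
      ∀ s ∈ F.fixingSubgroup, M.ρ s m = m) :
    ∃ F : IntermediateField ℚ Qb, FiniteDimensional ℚ F ∧ ∀ s ∈ F.fixingSubgroup, M.ρ s = 1 := by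
  classical
  obtain ⟨T, hT⟩ := (Module.Finite.fg_top : (⊤ : Submodule k M).FG)
  choose Fm hFm1 hFm2 using hsm
  refine ⟨⨆ m ∈ T, Fm m, IntermediateField.finiteDimensional_iSup_of_finset' fun m _ => hFm1 m,
    fun s hs => ?_⟩
  have hspan : ∀ m ∈ Submodule.span k (T : Set M), M.ρ s m = m := by
    intro m hm
    induction hm using Submodule.span_induction with
    | mem x hx =>
      refine hFm2 x s ?_
      rw [IntermediateField.mem_fixingSubgroup_iff] at hs ⊢
      intro y hy
      exact hs y ((le_iSup₂ (f := fun m (_ : m ∈ T) => Fm m) x hx) hy)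
    | zero => exact map_zero _
    | add x y _ _ hx hy => rw [map_add, hx, hy]
    | smul a x _ hx => rw [map_smul, hx]
  ext m
  exact hspan m (hT ▸ Submodule.mem_top)

/-- **The level of a representation.**  A smooth finite-dimensional representation of `G_ℚ`
unramified outside `S` factors through `Gal(L/ℚ)` for a finite Galois `L/ℚ` unramified outside
`S`; moreover `L` is the fixed field of the kernel, so `Gal(ℚ̄/L)` is exactly the kernel. -/
theorem exists_level_of_rep {k : Type*} [Field k] (S : Finset Nat.Primes) (M : Rep k GQ)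
    [Module.Finite k M]
    (hsm : ∀ m : M, ∃ F : IntermediateField ℚ Qb, FiniteDimensional ℚ F ∧
      ∀ s ∈ F.fixingSubgroup, M.ρ s m = m)
    (hMur : ∀ q : Nat.Primes, q ∉ S → ∀ A : ValuationSubring Qb,
      A.LiesOverPrime (q : ℕ) → ∀ g ∈ A.inertiaSubgroupIn ℚ, M.ρ g = 1) :
    ∃ L : IntermediateField ℚ Qb, L.IsUnramifiedOutside S ∧ Normal ℚ L ∧
      ∀ s : GQ, s ∈ L.fixingSubgroup ↔ M.ρ s = 1 := by
  obtain ⟨F, hFfin, hF⟩ := exists_finite_level_of_smooth M hsm
  have hFN : F.fixingSubgroup ≤ M.ρ.ker := fun s hs => MonoidHom.mem_ker.mpr (hF s hs)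
  have hNopen : IsOpen (M.ρ.ker : Set GQ) :=
    Subgroup.isOpen_mono hFN F.fixingSubgroup_isOpen
  have hNclosed : IsClosed (M.ρ.ker : Set GQ) := Subgroup.isClosed_of_isOpen _ hNopen
  set L : IntermediateField ℚ Qb := IntermediateField.fixedField M.ρ.ker with hL
  have hLfix : L.fixingSubgroup = M.ρ.ker :=
    InfiniteGalois.fixingSubgroup_fixedField ⟨M.ρ.ker, hNclosed⟩
  have hLF : L ≤ F := by
    rw [← InfiniteGalois.fixedField_fixingSubgroup F]
    exact IntermediateField.fixedField_antitone hFN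
  have hLfin : FiniteDimensional ℚ L :=
    FiniteDimensional.of_injective (IntermediateField.inclusion hLF).toLinearMap
      (IntermediateField.inclusion hLF).injective
  have hmem : ∀ s : GQ, s ∈ L.fixingSubgroup ↔ M.ρ s = 1 := fun s => by
    rw [hLfix, MonoidHom.mem_ker]
  refine ⟨L, ⟨hLfin, fun q hq A hA σ hσ => (hmem σ).mpr (hMur q hq A hA σ hσ)⟩, ?_, hmem⟩
  refine IntermediateField.normal_iff_forall_map_le'.mpr fun g => ?_
  rintro _ ⟨x, hx, rfl⟩
  show g x ∈ IntermediateField.fixedField M.ρ.ker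
  rw [IntermediateField.mem_fixedField_iff]
  intro n hn
  have hx' := (IntermediateField.mem_fixedField_iff _ x).mp hx (g⁻¹ * n * g)
    ((inferInstance : (M.ρ.ker).Normal).conj_mem' n hn g)
  have h2 : g ((g⁻¹ * n * g) x) = n (g x) := by
    show g (g⁻¹ (n (g x))) = n (g x)
    exact g.apply_symm_apply _
  rw [← h2, hx']

end RepLevel

/-! ### Level-constant cochains are constant modulo a Galois level -/

section LevelConstant

variable {S : Finset Nat.Primes}

/-- For a normal level `L`, right and left translates by `Gal(ℚ̄/L)` agree. -/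
theorem exists_mul_eq_mul_of_normal (L : IntermediateField ℚ Qb) [Normal ℚ L] (g : GQ) {s : GQ}
    (hs : s ∈ L.fixingSubgroup) : ∃ s' ∈ L.fixingSubgroup, s * g = g * s' :=
  ⟨g⁻¹ * s * g, (fixingSubgroup_normal L).conj_mem' s hs g, by group⟩

/-- A level-constant `1`-cochain is constant on the (two-sided) cosets of `Gal(ℚ̄/L)` for a
Galois level `L`, which can be chosen to contain any given level `L₀`. -/
theorem isLevelConstantS₁_exists_normal {X : Type*} {f : GQ → X} (hf : IsLevelConstantS₁ S f)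
    {L₀ : IntermediateField ℚ Qb} (hL₀ : L₀.IsUnramifiedOutside S) :
    ∃ L : IntermediateField ℚ Qb, L₀ ≤ L ∧ L.IsUnramifiedOutside S ∧ Normal ℚ L ∧
      (∀ g s, s ∈ L.fixingSubgroup → f (g * s) = f g) ∧
      (∀ g s, s ∈ L.fixingSubgroup → f (s * g) = f g) := by
  obtain ⟨F, hF, hf⟩ := hf
  obtain ⟨L, hle, hL, hLn⟩ := exists_normal_level_ge (hF.sup hL₀)
  have hFL : L.fixingSubgroup ≤ F.fixingSubgroup :=
    IntermediateField.fixingSubgroup_antitone (le_sup_left.trans hle)
  have h1 : ∀ g s, s ∈ L.fixingSubgroup → f (g * s) = f g := fun g s hs => hf g s (hFL hs)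
  refine ⟨L, le_sup_right.trans hle, hL, hLn, h1, fun g s hs => ?_⟩
  obtain ⟨s', hs', e⟩ := exists_mul_eq_mul_of_normal L g hs
  rw [e, h1 g s' hs']

/-- A level-constant `2`-cochain is constant on the (two-sided) cosets of `Gal(ℚ̄/L)` for a
Galois level `L`, which can be chosen to contain any given level `L₀`. -/
theorem isLevelConstantS₂_exists_normal {X : Type*} {f : GQ × GQ → X}
    (hf : IsLevelConstantS₂ S f) {L₀ : IntermediateField ℚ Qb}
    (hL₀ : L₀.IsUnramifiedOutside S) :
    ∃ L : IntermediateField ℚ Qb, L₀ ≤ L ∧ L.IsUnramifiedOutside S ∧ Normal ℚ L ∧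
      (∀ g g' s s', s ∈ L.fixingSubgroup → s' ∈ L.fixingSubgroup →
        f (g * s, g' * s') = f (g, g')) ∧
      (∀ g g' s s', s ∈ L.fixingSubgroup → s' ∈ L.fixingSubgroup →
        f (s * g, s' * g') = f (g, g')) := by
  obtain ⟨F, hF, hf⟩ := hf
  obtain ⟨L, hle, hL, hLn⟩ := exists_normal_level_ge (hF.sup hL₀)
  have hFL : L.fixingSubgroup ≤ F.fixingSubgroup :=
    IntermediateField.fixingSubgroup_antitone (le_sup_left.trans hle)
  have h1 : ∀ g g' s s', s ∈ L.fixingSubgroup → s' ∈ L.fixingSubgroup →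
      f (g * s, g' * s') = f (g, g') := fun g g' s s' hs hs' => hf g g' s s' (hFL hs) (hFL hs')
  refine ⟨L, le_sup_right.trans hle, hL, hLn, h1, fun g g' s s' hs hs' => ?_⟩
  obtain ⟨t, ht, e⟩ := exists_mul_eq_mul_of_normal L g hs
  obtain ⟨t', ht', e'⟩ := exists_mul_eq_mul_of_normal L g' hs'
  rw [e, e', h1 g g' t t' ht ht']

/-- Level-constancy can be tested on any larger level. -/
theorem isLevelConstantS₁_of_level {X : Type*} {f : GQ → X} {L : IntermediateField ℚ Qb}
    (hL : L.IsUnramifiedOutside S) (h : ∀ g s, s ∈ L.fixingSubgroup → f (g * s) = f g) :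
    IsLevelConstantS₁ S f :=
  ⟨L, hL, h⟩

theorem isLevelConstantS₂_of_level {X : Type*} {f : GQ × GQ → X} {L : IntermediateField ℚ Qb}
    (hL : L.IsUnramifiedOutside S)
    (h : ∀ g g' s s', s ∈ L.fixingSubgroup → s' ∈ L.fixingSubgroup →
      f (g * s, g' * s') = f (g, g')) :
    IsLevelConstantS₂ S f :=
  ⟨L, hL, h⟩

/-- Finitely many level-constant `1`-cochains have a common Galois level. -/
theorem exists_common_normal_level₁ {X : Type*} {ι : Type*} (s : Finset ι) (f : ι → GQ → X)
    (hf : ∀ i ∈ s, IsLevelConstantS₁ S (f i)) {L₀ : IntermediateField ℚ Qb}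
    (hL₀ : L₀.IsUnramifiedOutside S) :
    ∃ L : IntermediateField ℚ Qb, L₀ ≤ L ∧ L.IsUnramifiedOutside S ∧ Normal ℚ L ∧
      ∀ i ∈ s, ∀ g t, t ∈ L.fixingSubgroup → f i (g * t) = f i g := by
  classical
  induction s using Finset.induction_on with
  | empty =>
    obtain ⟨L, hle, hL, hLn⟩ := exists_normal_level_ge hL₀
    exact ⟨L, hle, hL, hLn, fun i hi => absurd hi (Finset.notMem_empty i)⟩
  | insert a s _ ih =>
    obtain ⟨L₁, hle₁, hL₁, _, h₁⟩ := ih fun i hi => hf i (Finset.mem_insert_of_mem hi)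
    obtain ⟨L, hle, hL, hLn, h, _⟩ :=
      isLevelConstantS₁_exists_normal (hf a (Finset.mem_insert_self a s)) hL₁
    refine ⟨L, hle₁.trans hle, hL, hLn, fun i hi g t ht => ?_⟩
    rcases Finset.mem_insert.mp hi with rfl | hi
    · exact h g t ht
    · exact h₁ i hi g t (IntermediateField.fixingSubgroup_antitone hle ht)

end LevelConstant

end Fermat.Agent.PT.Levels
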