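import Fermat.Agent.PT.Levels
import Fermat.Prelude.Def_ExtCitation_KummerBridge
import Fermat.Prelude.Def_GroupCohomology_Selmer

/-!
# PT (S55): the level of the Tate twist `M.dualTwist (cycloChar p)`

* `cycloChar_eq_one_of_apply_eq` : `χ σ = 1` as soon as `σ` fixes one primitive `p`-th root of unity.
* `cycloChar_eq_one_of_mem_inertia` : the mod `p` cyclotomic character is unramified at `q ≠ p`.
* `isUnramifiedOutside_adjoin_primitiveRoot` : `ℚ(ζ_p)` is a level for every `S ∋ p`.
* `dualTwist_smooth`, `dualTwist_unramified`, `dualTwist_finite` : the hypotheses of S55 pass from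
  `M` to `M.dualTwist (cycloChar p)`.
* `exists_level_of_rep_twist` : a Galois level trivialising `M`, `χ` and `M.dualTwist χ`.
* `dualTwistDualTwistIso` : biduality `M ≅ (M.dualTwist χ).dualTwist χ`.
-/

set_option autoImplicit false

open CategoryTheory Module groupCohomology ExtCitation

namespace Fermat.Agent.PT.Levels

local notation "Qb" => AlgebraicClosure ℚ
local notation "GQ" => (AlgebraicClosure ℚ ≃ₐ[ℚ] AlgebraicClosure ℚ)

section Roots

open Finset

/-- If `x ≠ 1` is an `N`-th root of unity then `1 - x` divides `N`, with an explicit cofactor. -/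
theorem natCast_eq_one_sub_mul_sum {K : Type*} [Field K] {x : K} {N : ℕ} (hx : x ^ N = 1)
    (hx1 : x ≠ 1) :
    (N : K) = (1 - x) * ∑ j ∈ range N, ∑ i ∈ range j, x ^ i := by
  have h0 : ∑ j ∈ range N, x ^ j = 0 := by
    have h := geom_sum_mul x N
    rw [hx, sub_self] at h
    rcases mul_eq_zero.mp h with h | h
    · exact h
    · exact absurd (sub_eq_zero.mp h) hx1
  rw [Finset.mul_sum]
  have h1 : ∀ j ∈ range N, (1 - x) * ∑ i ∈ range j, x ^ i = 1 - x ^ j := fun j _ =>
    mul_neg_geom_sum x j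
  rw [Finset.sum_congr rfl h1, Finset.sum_sub_distrib, h0, sub_zero]
  simp

/-- A root of unity has valuation `1`. -/
theorem valuation_eq_one_of_pow_eq_one {K : Type*} [Field K] (A : ValuationSubring K) {x : K}
    {N : ℕ} (hN : N ≠ 0) (hx : x ^ N = 1) : A.valuation x = 1 := by
  have h : A.valuation x ^ N = 1 := by rw [← map_pow, hx, map_one]
  rcases lt_trichotomy (A.valuation x) 1 with h1 | h1 | h1
  · exact absurd h (ne_of_lt (pow_lt_one₀ zero_le h1 hN))
  · exact h1
  · exact absurd h (ne_of_gt (one_lt_pow₀ h1 hN))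

/-- Two `p`-th roots of unity congruent modulo the maximal ideal of a valuation subring of
residue characteristic `q ≠ p` are equal. -/
theorem eq_of_sub_mem_nonunits_of_pow_eq_one {K : Type*} [Field K] (A : ValuationSubring K)
    {q p : ℕ} (hq : q.Prime) (hp : p.Prime) (hqp : q ≠ p) (hA : (q : K) ∈ A.nonunits) {x y : K}
    (hx : x ^ p = 1) (hy : y ^ p = 1) (h : x - y ∈ A.nonunits) : x = y := by
  by_contra hne
  have hy0 : y ≠ 0 := by
    rintro rfl
    rw [zero_pow hp.ne_zero] at hy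
    exact zero_ne_one hy
  set z : K := x * y⁻¹ with hz
  have hz1 : z ≠ 1 := by
    intro h1
    apply hne
    rw [hz] at h1
    field_simp at h1
    exact h1
  have hzp : z ^ p = 1 := by rw [hz, mul_pow, inv_pow, hx, hy, inv_one, mul_one]
  have hvy : A.valuation y = 1 := valuation_eq_one_of_pow_eq_one A hp.ne_zero hy
  have hvz : A.valuation z = 1 := valuation_eq_one_of_pow_eq_one A hp.ne_zero hzp
  have hv1 : A.valuation (1 - z) < 1 := by
    have e : 1 - z = -((x - y) * y⁻¹) := by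
      rw [hz]
      field_simp
      ring
    rw [e, Valuation.map_neg, map_mul, map_inv₀, hvy, inv_one, mul_one]
    exact A.mem_nonunits_iff.mp h
  have hvp : A.valuation (p : K) < 1 := by
    rw [natCast_eq_one_sub_mul_sum hzp hz1, map_mul]
    have hc : A.valuation (∑ j ∈ range p, ∑ i ∈ range j, z ^ i) ≤ 1 := by
      rw [A.valuation_le_one_iff]
      refine sum_mem fun j _ => sum_mem fun i _ => pow_mem ?_ i
      rw [← A.valuation_le_one_iff, hvz]
    calc A.valuation (1 - z) * A.valuation (∑ j ∈ range p, ∑ i ∈ range j, z ^ i)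
        ≤ A.valuation (1 - z) * 1 := mul_le_mul_right hc _
      _ < 1 := by rwa [mul_one]
  have hvq : A.valuation (q : K) < 1 := A.mem_nonunits_iff.mp hA
  have hcop : Nat.Coprime p q := (Nat.coprime_primes hp hq).mpr (Ne.symm hqp)
  have hb : ((p : ℤ) * Nat.gcdA p q + (q : ℤ) * Nat.gcdB p q : ℤ) = 1 := by
    have := Nat.gcd_eq_gcd_ab p q
    rw [hcop.gcd_eq_one] at this
    exact_mod_cast this.symm
  have hb' : ((p : K) * (Nat.gcdA p q : K) + (q : K) * (Nat.gcdB p q : K)) = 1 := by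
    exact_mod_cast congrArg (Int.cast : ℤ → K) hb
  have hint : ∀ n : ℤ, A.valuation (n : K) ≤ 1 := fun n => by
    rw [A.valuation_le_one_iff]
    exact intCast_mem A n
  have hlt : A.valuation (1 : K) < 1 := by
    rw [← hb']
    refine lt_of_le_of_lt (A.valuation.map_add _ _) (max_lt ?_ ?_)
    · rw [map_mul]
      calc A.valuation (p : K) * A.valuation ((Nat.gcdA p q : ℤ) : K)
          ≤ A.valuation (p : K) * 1 := mul_le_mul_right (hint _) _
        _ < 1 := by rwa [mul_one]
    · rw [map_mul]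
      calc A.valuation (q : K) * A.valuation ((Nat.gcdB p q : ℤ) : K)
          ≤ A.valuation (q : K) * 1 := mul_le_mul_right (hint _) _
        _ < 1 := by rwa [mul_one]
  rw [map_one] at hlt
  exact lt_irrefl _ hlt

end Roots

section Cyclo

variable (p : ℕ) [Fact p.Prime]

/-- Existence of a primitive `p`-th root of unity in `ℚ̄`. -/
theorem exists_primitiveRoot_Qbar : ∃ ζ : Qb, IsPrimitiveRoot ζ p :=
  haveI : NeZero p := ⟨(Fact.out : p.Prime).ne_zero⟩
  HasEnoughRootsOfUnity.exists_primitiveRoot Qb p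

/-- The defining property of the mod `p` cyclotomic character. -/
theorem apply_eq_pow_cycloExp (σ : GQ) (ζ : Qb) (hζ : ζ ^ p = 1) :
    σ ζ = ζ ^ (cycloExp p σ) := by
  have : NeZero p := ⟨(Fact.out : p.Prime).ne_zero⟩
  have hζ0 : ζ ≠ 0 := by
    rintro rfl
    rw [zero_pow (Fact.out : p.Prime).ne_zero] at hζ
    exact zero_ne_one hζ
  have ht : Units.mk0 ζ hζ0 ∈ rootsOfUnity p Qb := by
    rw [mem_rootsOfUnity]
    ext
    simpa using hζ
  exact modularCyclotomicCharacter.spec Qb (card_rootsOfUnity_eq_self p) (σ : Qb ≃+* Qb) ht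

/-- `χ σ = 1` iff `σ` fixes a (any) primitive `p`-th root of unity. -/
theorem cycloChar_eq_one_iff (σ : GQ) {ζ : Qb} (hζ : IsPrimitiveRoot ζ p) :
    cycloChar p σ = 1 ↔ σ ζ = ζ := by
  have hp : p.Prime := Fact.out
  have : NeZero p := ⟨hp.ne_zero⟩
  have hspec := apply_eq_pow_cycloExp p σ ζ hζ.pow_eq_one
  have hlt : cycloExp p σ < p := ZMod.val_lt _
  rw [Units.ext_iff, coe_cycloChar, Units.val_one]
  constructor
  · intro h
    have h1 : cycloExp p σ % p = 1 % p := by
      have := (ZMod.natCast_eq_natCast_iff' (cycloExp p σ) 1 p).mp (by rw [h, Nat.cast_one])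
      exact this
    rw [Nat.mod_eq_of_lt hlt, Nat.mod_eq_of_lt hp.one_lt] at h1
    rw [hspec, h1, pow_one]
  · intro h
    rw [h] at hspec
    have h2 : 1 = cycloExp p σ := by
      refine hζ.pow_inj hp.one_lt hlt ?_
      rw [pow_one]
      exact hspec
    rw [← h2, Nat.cast_one]

/-- The mod `p` cyclotomic character is trivial on inertia at `q ≠ p`. -/
theorem cycloChar_eq_one_of_mem_inertia {q : ℕ} (hq : q.Prime) (hqp : q ≠ p)
    (A : ValuationSubring Qb) (hA : A.LiesOverPrime q) {σ : GQ}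
    (hσ : σ ∈ A.inertiaSubgroupIn ℚ) : cycloChar p σ = 1 := by
  have hp : p.Prime := Fact.out
  obtain ⟨ζ, hζ⟩ := exists_primitiveRoot_Qbar p
  rw [cycloChar_eq_one_iff p σ hζ]
  have hζA : ζ ∈ A := by
    rw [← A.valuation_le_one_iff, valuation_eq_one_of_pow_eq_one A hp.ne_zero hζ.pow_eq_one]
  have h1 := ((mem_inertiaSubgroupIn_iff A σ).mp hσ).2 ζ hζA
  refine eq_of_sub_mem_nonunits_of_pow_eq_one A hq hp hqp hA ?_ hζ.pow_eq_one h1
  rw [← map_pow, hζ.pow_eq_one, map_one]

/-- `σ` fixes `ℚ(ζ)` pointwise iff it fixes `ζ`. -/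
theorem mem_fixingSubgroup_adjoin_simple_iff (ζ : Qb) (σ : GQ) :
    σ ∈ (IntermediateField.adjoin ℚ {ζ}).fixingSubgroup ↔ σ ζ = ζ := by
  constructor
  · intro h
    rw [IntermediateField.mem_fixingSubgroup_iff] at h
    exact h ζ (IntermediateField.mem_adjoin_simple_self ℚ ζ)
  · intro h
    have hle : IntermediateField.adjoin ℚ {ζ}
        ≤ IntermediateField.fixedField (Subgroup.zpowers σ) := by
      rw [IntermediateField.adjoin_simple_le_iff, IntermediateField.mem_fixedField_iff]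
      intro g hg
      exact apply_eq_of_mem_zpowers hg h
    rw [IntermediateField.mem_fixingSubgroup_iff]
    intro x hx
    exact (IntermediateField.mem_fixedField_iff _ x).mp (hle hx) σ (Subgroup.mem_zpowers σ)

/-- `ℚ(ζ_p)` is a level for every `S ∋ p`. -/
theorem isUnramifiedOutside_adjoin_primitiveRoot (S : Finset Nat.Primes) (hpS : pPrime p ∈ S)
    {ζ : Qb} (hζ : IsPrimitiveRoot ζ p) :
    (IntermediateField.adjoin ℚ {ζ}).IsUnramifiedOutside S := by
  have hp : p.Prime := Fact.out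
  have hζint : IsIntegral ℚ ζ := (hζ.isIntegral hp.pos).tower_top
  refine ⟨IntermediateField.adjoin.finiteDimensional hζint, fun q hq A hA σ hσ => ?_⟩
  rw [mem_fixingSubgroup_adjoin_simple_iff, ← cycloChar_eq_one_iff p σ hζ]
  refine cycloChar_eq_one_of_mem_inertia p q.2 ?_ A hA hσ
  intro h
  apply hq
  have : q = pPrime p := Subtype.ext h
  rw [this]
  exact hpS

/-- `χ` is trivial on `Gal(ℚ̄/ℚ(ζ_p))`. -/
theorem cycloChar_eq_one_of_mem_fixingSubgroup {ζ : Qb} (hζ : IsPrimitiveRoot ζ p) {σ : GQ}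
    (hσ : σ ∈ (IntermediateField.adjoin ℚ {ζ}).fixingSubgroup) : cycloChar p σ = 1 :=
  (cycloChar_eq_one_iff p σ hζ).mpr ((mem_fixingSubgroup_adjoin_simple_iff ζ σ).mp hσ)

end Cyclo

/-! ### The twisted dual -/

section DualTwist

variable (p : ℕ) [Fact p.Prime]

/-- `s` acts trivially on `M.dualTwist χ` as soon as `χ s = 1` and `s` acts trivially on `M`. -/
theorem dualTwist_ρ_eq_one {k G : Type} [CommRing k] [Group G] (M : Rep k G) (χ : G →* kˣ)
    {s : G} (hχ : χ s = 1) (hM : M.ρ s = 1) : (M.dualTwist χ).ρ s = 1 := by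
  have hM' : M.ρ s⁻¹ = 1 := by
    have h1 : M.ρ s⁻¹ * M.ρ s = 1 := by rw [← map_mul, inv_mul_cancel, map_one]
    rwa [hM, mul_one] at h1
  refine LinearMap.ext fun f => ?_
  rw [Rep.dualTwist_ρ_apply, hχ, hM', Units.val_one, one_smul]
  rfl

/-- Smoothness passes to the twisted dual (finite-dimensional case). -/
theorem dualTwist_smooth (M : Rep (ZMod p) GQ) [Module.Finite (ZMod p) M]
    (hsm : ∀ m : M, ∃ F : IntermediateField ℚ Qb, FiniteDimensional ℚ F ∧
      ∀ s ∈ F.fixingSubgroup, M.ρ s m = m) :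
    ∀ f : M.dualTwist (cycloChar p), ∃ F : IntermediateField ℚ Qb, FiniteDimensional ℚ F ∧
      ∀ s ∈ F.fixingSubgroup, (M.dualTwist (cycloChar p)).ρ s f = f := by
  intro f
  have hp : p.Prime := Fact.out
  obtain ⟨F, hFfin, hF⟩ := exists_finite_level_of_smooth M hsm
  obtain ⟨ζ, hζ⟩ := exists_primitiveRoot_Qbar p
  have hζint : IsIntegral ℚ ζ := (hζ.isIntegral hp.pos).tower_top
  have : FiniteDimensional ℚ (IntermediateField.adjoin ℚ {ζ}) :=
    IntermediateField.adjoin.finiteDimensional hζint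
  refine ⟨F ⊔ IntermediateField.adjoin ℚ {ζ}, IntermediateField.finiteDimensional_sup _ _,
    fun s hs => ?_⟩
  rw [IntermediateField.fixingSubgroup_sup] at hs
  rw [dualTwist_ρ_eq_one M (cycloChar p) (cycloChar_eq_one_of_mem_fixingSubgroup p hζ hs.2)
    (hF s hs.1)]
  rfl

/-- Unramifiedness outside `S ∋ p` passes to the twisted dual. -/
theorem dualTwist_unramified (S : Finset Nat.Primes) (hpS : pPrime p ∈ S) (M : Rep (ZMod p) GQ)
    (hMur : ∀ q : Nat.Primes, q ∉ S → ∀ A : ValuationSubring Qb,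
      A.LiesOverPrime (q : ℕ) → ∀ g ∈ A.inertiaSubgroupIn ℚ, M.ρ g = 1) :
    ∀ q : Nat.Primes, q ∉ S → ∀ A : ValuationSubring Qb,
      A.LiesOverPrime (q : ℕ) → ∀ g ∈ A.inertiaSubgroupIn ℚ,
        (M.dualTwist (cycloChar p)).ρ g = 1 := by
  intro q hq A hA g hg
  refine dualTwist_ρ_eq_one M (cycloChar p) ?_ (hMur q hq A hA g hg)
  refine cycloChar_eq_one_of_mem_inertia p q.2 ?_ A hA hg
  intro h
  apply hq
  have : q = pPrime p := Subtype.ext h
  rw [this]
  exact hpS

/-- Finite-dimensionality passes to the twisted dual. -/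
theorem dualTwist_finite {k G : Type} [Field k] [Group G] (M : Rep k G) (χ : G →* kˣ)
    [Module.Finite k M] : Module.Finite k (M.dualTwist χ) :=
  (inferInstance : Module.Finite k (Module.Dual k M))

/-- **A common Galois level for `M` and its twisted dual**: a finite Galois `L/ℚ` unramified
outside `S`, containing a prescribed level `L₀`, such that `Gal(ℚ̄/L)` acts trivially on `M`,
is killed by the cyclotomic character, and acts trivially on `M.dualTwist χ`. -/
theorem exists_level_of_rep_twist (S : Finset Nat.Primes) (hpS : pPrime p ∈ S)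
    (M : Rep (ZMod p) GQ) [Module.Finite (ZMod p) M]
    (hsm : ∀ m : M, ∃ F : IntermediateField ℚ Qb, FiniteDimensional ℚ F ∧
      ∀ s ∈ F.fixingSubgroup, M.ρ s m = m)
    (hMur : ∀ q : Nat.Primes, q ∉ S → ∀ A : ValuationSubring Qb,
      A.LiesOverPrime (q : ℕ) → ∀ g ∈ A.inertiaSubgroupIn ℚ, M.ρ g = 1)
    {L₀ : IntermediateField ℚ Qb} (hL₀ : L₀.IsUnramifiedOutside S) :
    ∃ L : IntermediateField ℚ Qb, L₀ ≤ L ∧ L.IsUnramifiedOutside S ∧ Normal ℚ L ∧
      ∀ s ∈ L.fixingSubgroup, M.ρ s = 1 ∧ cycloChar p s = 1 ∧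
        (M.dualTwist (cycloChar p)).ρ s = 1 := by
  obtain ⟨L₁, hL₁, _, hL₁M⟩ := exists_level_of_rep S M hsm hMur
  obtain ⟨ζ, hζ⟩ := exists_primitiveRoot_Qbar p
  have hζS := isUnramifiedOutside_adjoin_primitiveRoot p S hpS hζ
  obtain ⟨L, hle, hL, hLn⟩ := exists_normal_level_ge ((hL₁.sup hζS).sup hL₀)
  refine ⟨L, le_sup_right.trans hle, hL, hLn, fun s hs => ?_⟩
  have hs1 : s ∈ L₁.fixingSubgroup :=
    IntermediateField.fixingSubgroup_antitone ((le_sup_left.trans le_sup_left).trans hle) hs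
  have hs2 : s ∈ (IntermediateField.adjoin ℚ {ζ}).fixingSubgroup :=
    IntermediateField.fixingSubgroup_antitone ((le_sup_right.trans le_sup_left).trans hle) hs
  have hM : M.ρ s = 1 := (hL₁M s).mp hs1
  have hχ : cycloChar p s = 1 := cycloChar_eq_one_of_mem_fixingSubgroup p hζ hs2
  exact ⟨hM, hχ, dualTwist_ρ_eq_one M (cycloChar p) hχ hM⟩

end DualTwist

end Fermat.Agent.PT.Levels
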