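import Fermat.Prelude.Def_GroupCohomology_ContinuousUnramified

/-!
# PT (S55/S56): the archimedean place drops out when `2` is invertible

* `mem_coboundaries₁_of_isUnit_card`, `exists_d₁₂_eq_of_isUnit_card`: averaging — for a finite
  group whose order is invertible in `k`, every 1-cocycle is a coboundary and every 2-cocycle is
  `d` of a 1-cochain.
* `subsingleton_H1_archimedean`, `subsingleton_continuousH2_archimedean`: the local cohomology
  groups at the archimedean place (decomposition group `⟨c⟩`) vanish if `(2 : k)` is a unit.
* `mem_sha₁_iff`, `mem_sha₂_iff`: `Ш¹_S`, `Ш²_S` are cut out by the conditions at the primes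
  `q ∈ S` only.
-/

set_option autoImplicit false

open CategoryTheory groupCohomology ExtCitation

namespace Fermat.Agent.PT.Arch

universe u

/-! ### Averaging over a finite group -/

section Finite

variable {k H : Type u} [CommRing k] [Group H] [Fintype H] (A : Rep k H)

/-- A 1-cocycle of a finite group with invertible order is a coboundary. -/
theorem mem_coboundaries₁_of_isUnit_card (hcard : IsUnit (Fintype.card H : k))
    (x : cocycles₁ A) : ⇑x ∈ coboundaries₁ A := by
  obtain ⟨u, hu⟩ := hcard
  refine ⟨-((↑u⁻¹ : k) • ∑ h : H, x h), ?_⟩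
  funext g
  rw [d₀₁_hom_apply]
  have hsum : ∑ h : H, A.ρ g (x h) = ∑ h : H, x h - (Fintype.card H : k) • x g := by
    have h1 : ∀ h : H, A.ρ g (x h) = x (g * h) - x g := fun h => by
      rw [(mem_cocycles₁_iff x).1 x.2 g h, add_sub_cancel_right]
    rw [Finset.sum_congr rfl (fun h _ => h1 h), Finset.sum_sub_distrib,
      Fintype.sum_equiv (Equiv.mulLeft g) (fun h => x (g * h)) (fun h => x h) (fun h => rfl),
      Finset.sum_const, Finset.card_univ, Nat.cast_smul_eq_nsmul]
  rw [map_neg, map_smul, map_sum, hsum, ← hu, smul_sub, smul_smul, Units.inv_mul, one_smul]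
  abel

/-- A 2-cocycle of a finite group with invertible order is `d` of a 1-cochain. -/
theorem exists_d₁₂_eq_of_isUnit_card (hcard : IsUnit (Fintype.card H : k))
    (f : H × H → A) (hf : f ∈ cocycles₂ A) : ∃ y : H → A, (d₁₂ A).hom y = f := by
  obtain ⟨u, hu⟩ := hcard
  refine ⟨fun g => (↑u⁻¹ : k) • ∑ j : H, f (g, j), ?_⟩
  funext ⟨g, h⟩
  rw [d₁₂_hom_apply]
  have hc := (mem_cocycles₂_iff f).1 hf g h
  have hsum : (Fintype.card H : k) • f (g, h) =
      A.ρ g (∑ j : H, f (h, j)) - ∑ j : H, f (g * h, j) + ∑ j : H, f (g, j) := by
    have h1 : ∀ j : H, f (g, h) = A.ρ g (f (h, j)) - f (g * h, j) + f (g, h * j) := fun j => by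
      have h0 : f (g, h) = (f (g * h, j) + f (g, h)) - f (g * h, j) := by abel
      rw [h0, hc j]
      abel
    have h2 : ∑ _j : H, f (g, h) = ∑ j : H, (A.ρ g (f (h, j)) - f (g * h, j) + f (g, h * j)) :=
      Finset.sum_congr rfl (fun j _ => h1 j)
    rw [Finset.sum_const, Finset.card_univ, ← Nat.cast_smul_eq_nsmul k] at h2
    rw [h2, Finset.sum_add_distrib, Finset.sum_sub_distrib, map_sum,
      Fintype.sum_equiv (Equiv.mulLeft h) (fun j => f (g, h * j)) (fun j => f (g, j))
        (fun j => rfl)]
  simp only [map_smul]
  rw [← smul_sub, ← smul_add, ← hsum, ← hu, smul_smul, Units.inv_mul, one_smul]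

end Finite

/-! ### The archimedean decomposition group -/

section Arch

local notation "GQ" => AlgebraicClosure ℚ ≃ₐ[ℚ] AlgebraicClosure ℚ

theorem mem_archimedeanDecomposition_iff (s : GQ) :
    s ∈ archimedeanDecomposition ↔ s = 1 ∨ s = complexConjugation := by
  constructor
  · rintro ⟨n, rfl⟩
    rcases Int.even_or_odd n with ⟨m, rfl⟩ | ⟨m, rfl⟩
    · left
      show complexConjugation ^ (m + m) = 1
      rw [← two_mul, zpow_mul, zpow_ofNat, complexConjugation_sq, one_zpow]
    · right
      show complexConjugation ^ (2 * m + 1) = complexConjugation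
      rw [zpow_add, zpow_mul, zpow_ofNat, complexConjugation_sq, one_zpow, one_mul, zpow_one]
  · rintro (rfl | rfl)
    · exact one_mem _
    · exact Subgroup.mem_zpowers _

noncomputable instance : Fintype archimedeanDecomposition := by
  classical
  haveI : Finite archimedeanDecomposition := by
    refine Set.Finite.subset (Set.toFinite ({1, complexConjugation} : Set GQ)) ?_
    intro s hs
    rcases (mem_archimedeanDecomposition_iff s).1 hs with h | h
    · left; exact h
    · right; exact h
  exact Fintype.ofFinite _

theorem card_archimedeanDecomposition_dvd : Fintype.card archimedeanDecomposition ∣ 2 := by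
  rw [← Nat.card_eq_fintype_card]
  show Nat.card (Subgroup.zpowers complexConjugation) ∣ 2
  rw [Nat.card_zpowers]
  exact orderOf_dvd_of_pow_eq_one complexConjugation_sq

theorem isUnit_card_archimedeanDecomposition {k : Type} [CommRing k] (h2 : IsUnit (2 : k)) :
    IsUnit (Fintype.card archimedeanDecomposition : k) := by
  obtain ⟨m, hm⟩ := card_archimedeanDecomposition_dvd
  have h : ((Fintype.card archimedeanDecomposition : ℕ) : k) * (m : k) = 2 := by
    rw [← Nat.cast_mul, ← hm]; rfl
  exact isUnit_of_mul_isUnit_left (by rw [h]; exact h2)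

/-- A finite level separating the archimedean decomposition group. -/
theorem exists_level_archimedean :
    ∃ F : IntermediateField ℚ (AlgebraicClosure ℚ), FiniteDimensional ℚ F ∧
      ∀ s : archimedeanDecomposition, archimedeanLoc s ∈ F.fixingSubgroup → s = 1 := by
  by_cases hc : complexConjugation = 1
  · refine ⟨⊥, inferInstance, fun s _ => ?_⟩
    apply Subtype.ext
    rcases (mem_archimedeanDecomposition_iff s.1).1 s.2 with h | h
    · exact h
    · rw [h, hc]; rfl
  · have hex : ∃ x : AlgebraicClosure ℚ, complexConjugation x ≠ x := by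
      by_contra hne
      exact hc (AlgEquiv.ext fun x => by_contra fun hx => hne ⟨x, hx⟩)
    obtain ⟨x, hx⟩ := hex
    have hint : IsIntegral ℚ x :=
      ((AlgebraicClosure.isAlgebraic ℚ).isAlgebraic x).isIntegral
    refine ⟨IntermediateField.adjoin ℚ {x}, IntermediateField.adjoin.finiteDimensional hint,
      fun s hs => ?_⟩
    apply Subtype.ext
    rcases (mem_archimedeanDecomposition_iff s.1).1 s.2 with h | h
    · exact h
    · exfalso
      apply hx
      have h1 := (IntermediateField.mem_fixingSubgroup_iff _ _).1 hs x
        (IntermediateField.mem_adjoin_simple_self ℚ x)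
      have h2 : archimedeanLoc s = complexConjugation := h
      rw [h2] at h1
      exact h1

/-- Every cochain on the archimedean decomposition group is level-constant. -/
theorem isLevelConstant₁_archimedean {X : Type*} (y : archimedeanDecomposition → X) :
    IsLevelConstant₁ archimedeanLoc y := by
  obtain ⟨F, hF, h⟩ := exists_level_archimedean
  exact ⟨F, hF, fun g s hs => by rw [h s hs, mul_one]⟩

variable {k : Type} [CommRing k] (M : Rep k GQ)

/-- `H¹` of the archimedean decomposition group vanishes when `2` is invertible. -/
theorem subsingleton_H1_archimedean (h2 : IsUnit (2 : k)) :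
    Subsingleton (H1 (Rep.res archimedeanLoc M)) := by
  refine ⟨fun a b => ?_⟩
  have key : ∀ z : H1 (Rep.res archimedeanLoc M), z = 0 := by
    intro z
    induction z using H1_induction_on with
    | h x =>
      exact (H1π_eq_zero_iff x).2
        (mem_coboundaries₁_of_isUnit_card _ (isUnit_card_archimedeanDecomposition h2) x)
  rw [key a, key b]

/-- The level-constant `H²` of the archimedean decomposition group vanishes when `2` is
invertible. -/
theorem subsingleton_continuousH2_archimedean (h2 : IsUnit (2 : k)) :
    Subsingleton (continuousH2 archimedeanLoc (Rep.res archimedeanLoc M)) := by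
  refine ⟨fun a b => ?_⟩
  have key : ∀ z : continuousH2 archimedeanLoc (Rep.res archimedeanLoc M), z = 0 := by
    intro z
    obtain ⟨f, rfl⟩ := Submodule.Quotient.mk_surjective _ z
    obtain ⟨y, hy⟩ := exists_d₁₂_eq_of_isUnit_card (Rep.res archimedeanLoc M)
      (isUnit_card_archimedeanDecomposition h2) f.1 f.2.1
    exact (continuousH2π_eq_zero_iff archimedeanLoc _ f).2
      ((mem_levelCoboundaries₂_iff archimedeanLoc _ _).2
        ⟨y, isLevelConstant₁_archimedean y, hy⟩)
  rw [key a, key b]

end Arch

/-! ### `Ш¹_S` and `Ш²_S` without the archimedean place -/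

section Sha

local notation "GQ" => AlgebraicClosure ℚ ≃ₐ[ℚ] AlgebraicClosure ℚ

variable (S : Finset Nat.Primes)

/-- `Ш¹_S(A)`: level-constant classes that are locally trivial at the primes of `S` (the
archimedean condition is automatic when `2` is invertible). -/
theorem mem_sha₁_iff {K : Type} [Field K] (A : Rep K GQ) (h2 : (2 : K) ≠ 0) (x : H1 A) :
    x ∈ sha₁ S A ↔ x ∈ continuousH1S S A ∧
      ∀ q : ↥S, (locRes (extArithLoc S) A (Sum.inr q)).hom x = 0 := by
  unfold sha₁
  rw [Submodule.mem_inf, LinearMap.mem_ker]
  refine and_congr_right fun _ => ?_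
  constructor
  · intro h q
    exact congrFun h (Sum.inr q)
  · intro h
    funext v
    rcases v with v | q
    · exact @Subsingleton.elim _
        (subsingleton_H1_archimedean A (isUnit_iff_ne_zero.mpr h2)) _ _
    · exact h q

/-- `Ш²_S(M)`: classes of `H²_S` that are locally trivial at the primes of `S` (the archimedean
condition is automatic when `2` is invertible). -/
theorem mem_sha₂_iff {k : Type} [CommRing k] (M : Rep k GQ) (h2 : IsUnit (2 : k))
    (x : continuousH2S S M) :
    x ∈ sha₂ S M ↔ ∀ q : ↥S, locRes₂S S M (primeLocalToGlobal q.1) x = 0 := by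
  unfold sha₂
  rw [LinearMap.mem_ker]
  constructor
  · intro h q
    exact congrFun h (Sum.inr q)
  · intro h
    funext v
    rcases v with v | q
    · exact @Subsingleton.elim _ (subsingleton_continuousH2_archimedean M h2) _ _
    · exact h q

end Sha

end Fermat.Agent.PT.Arch
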