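import Mathlib

/-!
# PT layer F6 (algebraic part): the dévissage induction principle

Pure representation theory (no cohomology).  `G` is any group, `N` a normal subgroup of finite
index, `p` a prime.  A property `P` of `𝔽_p[G]`-modules which

* is closed under extensions (of finite modules on which `N` acts trivially),
* is closed under direct summands (of such modules),
* holds for the permutation modules `coind_U^G 𝔽_p`, for the subgroups `N ≤ U ≤ G` such that
  `U / N` is a `p`-group and `[G : U]` is prime to `p`,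

holds for every finite `𝔽_p[G]`-module on which `N` acts trivially (`devissage`).

Ingredients, all exported:

* `exists_fixed_ne_zero` : a group acting through `p`-power order elements on a nonzero finite
  `𝔽_p`-space has a nonzero fixed vector;
* `unipotent_induction` : the resulting induction principle (filtration with trivial graded pieces);
* `coindMap_injective`, `coindMap_surjective`, `coindMap_exact`, `finite_coind`,
  `coind_trivial_of_normal` : exactness and finiteness of coinduction from a finite index subgroup;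
* `toCoindRes`, `ofCoindRes`, `toCoindRes_ofCoindRes` : `M` is a direct summand of
  `coind_U^G res_U M` when `[G : U]` is invertible;
* `exists_sylow_subgroup` : the subgroup `U` (preimage of a `p`-Sylow subgroup of `G ⧸ N`).
-/

set_option autoImplicit false

open CategoryTheory

namespace Fermat.Agent.PT.Devissage

section Fixed

variable {p : ℕ} [Fact p.Prime] {U : Type*} [Group U] {V : Type*} [AddCommGroup V]
  [Module (ZMod p) V] [Module.Finite (ZMod p) V]

/-- A group acting through elements of `p`-power order on a nonzero finite `𝔽_p`-vector space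
fixes a nonzero vector. -/
theorem exists_fixed_ne_zero [Nontrivial V] (ρ : Representation (ZMod p) U V)
    (hρ : ∀ u : U, ∃ n : ℕ, ρ u ^ p ^ n = 1) : ∃ v : V, v ≠ 0 ∧ ∀ u, ρ u v = v := by
  classical
  have hp : p.Prime := Fact.out
  have : Finite V := Module.finite_of_finite (ZMod p)
  let Γ : Subgroup (Module.End (ZMod p) V)ˣ := ρ.asGroupHom.range
  have hΓ : IsPGroup p Γ := by
    intro γ
    obtain ⟨γ, hγ⟩ := γ
    obtain ⟨u, rfl⟩ : ∃ u, ρ.asGroupHom u = γ := hγ
    obtain ⟨n, hn⟩ := hρ u
    refine ⟨n, Subtype.ext (Units.ext ?_)⟩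
    rw [Subgroup.coe_pow, Units.val_pow_eq_pow_val, Representation.asGroupHom_apply,
      Subgroup.coe_one, Units.val_one]
    exact hn
  have hcard : p ∣ Nat.card V := by
    have h1 : Nat.card V = p ^ Module.finrank (ZMod p) V := by
      rw [Module.natCard_eq_pow_finrank (K := ZMod p), Nat.card_zmod]
    rw [h1]
    exact dvd_pow_self p (Module.finrank_pos (R := ZMod p) (M := V)).ne'
  have h0 : (0 : V) ∈ MulAction.fixedPoints Γ V := by
    rintro ⟨γ, hγ⟩
    change (γ : Module.End (ZMod p) V) 0 = 0
    simp
  obtain ⟨b, hb, hb0⟩ := hΓ.exists_fixed_point_of_prime_dvd_card_of_fixed_point V hcard h0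
  refine ⟨b, fun h => hb0 h.symm, fun u => ?_⟩
  have hmem : ρ.asGroupHom u ∈ Γ := ⟨u, rfl⟩
  have := hb ⟨ρ.asGroupHom u, hmem⟩
  rw [← Representation.asGroupHom_apply]
  exact this

end Fixed

section Unipotent

variable {p : ℕ} [Fact p.Prime] {U : Type} [Group U]

/-- **Unipotent dévissage.** A property of finite `𝔽_p[U]`-modules on which `N'` acts trivially,
where every element of `U` has a `p`-power in `N'`, holds for all of them as soon as it holds for
the zero modules and the trivial module `𝔽_p` and is closed under extensions. -/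
theorem unipotent_induction (N' : Subgroup U)
    (hU : ∀ u : U, ∃ n : ℕ, u ^ p ^ n ∈ N')
    (Q : Rep.{0} (ZMod p) U → Prop)
    (hext : ∀ (A B C : Rep.{0} (ZMod p) U) (f : A ⟶ B) (g : B ⟶ C),
        Module.Finite (ZMod p) A → Module.Finite (ZMod p) B → Module.Finite (ZMod p) C →
        (∀ n ∈ N', A.ρ n = 1) → (∀ n ∈ N', B.ρ n = 1) → (∀ n ∈ N', C.ρ n = 1) →
        Function.Injective f.hom → Function.Surjective g.hom → Function.Exact f.hom g.hom →
        Q A → Q C → Q B)
    (hzero : ∀ A : Rep.{0} (ZMod p) U, Subsingleton A → Q A)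
    (htriv : Q (Rep.trivial (ZMod p) U (ZMod p)))
    (W : Rep.{0} (ZMod p) U) [Module.Finite (ZMod p) W] (hW : ∀ n ∈ N', W.ρ n = 1) : Q W := by
  classical
  obtain ⟨d, hd⟩ : ∃ d, Module.finrank (ZMod p) W = d := ⟨_, rfl⟩
  induction d using Nat.strong_induction_on generalizing W with
  | _ d ih =>
    rcases Nat.eq_zero_or_pos d with h0 | hpos
    · subst h0
      exact hzero W (Module.finrank_zero_iff.mp hd)
    · have : Nontrivial W := Module.nontrivial_of_finrank_pos (R := ZMod p) (hd ▸ hpos)
      have hρ : ∀ u : U, ∃ n : ℕ, W.ρ u ^ p ^ n = 1 := by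
        intro u
        obtain ⟨n, hn⟩ := hU u
        exact ⟨n, by rw [← map_pow]; exact hW _ hn⟩
      obtain ⟨v, hv0, hv⟩ := exists_fixed_ne_zero W.ρ hρ
      -- the line spanned by `v`
      let L : Submodule (ZMod p) W := Submodule.span (ZMod p) {v}
      have hle : ∀ g, L ≤ L.comap (W.ρ g) := by
        intro g x hx
        rw [Submodule.mem_comap]
        obtain ⟨c, rfl⟩ := Submodule.mem_span_singleton.mp hx
        rw [map_smul, hv g]
        exact Submodule.smul_mem _ _ (Submodule.mem_span_singleton_self v)
      let C : Rep.{0} (ZMod p) U := Rep.of (W.ρ.quotient L hle)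
      let f : Rep.trivial (ZMod p) U (ZMod p) ⟶ W :=
        Rep.ofHom (σ := W.ρ) ⟨LinearMap.toSpanSingleton (ZMod p) W v, fun g => by
          ext
          simp [hv g]⟩
      let g : W ⟶ C := Rep.ofHom (ρ := W.ρ) ⟨L.mkQ, fun g => by
        ext x
        simp [Representation.quotient]⟩
      have hf_apply : ∀ c : ZMod p, f.hom c = c • v := fun c => rfl
      have hg_apply : ∀ x : W, g.hom x = L.mkQ x := fun x => rfl
      have hfinj : Function.Injective f.hom := by
        intro a b hab
        rw [hf_apply, hf_apply] at hab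
        exact smul_left_injective (ZMod p) hv0 hab
      have hgsurj : Function.Surjective g.hom := fun y => by
        obtain ⟨x, rfl⟩ := L.mkQ_surjective y
        exact ⟨x, rfl⟩
      have hexact : Function.Exact f.hom g.hom := by
        intro x
        rw [hg_apply, Submodule.mkQ_apply, Submodule.Quotient.mk_eq_zero]
        constructor
        · intro hx
          obtain ⟨c, rfl⟩ := Submodule.mem_span_singleton.mp hx
          exact ⟨c, rfl⟩
        · rintro ⟨c, rfl⟩
          rw [hf_apply]
          exact Submodule.smul_mem _ _ (Submodule.mem_span_singleton_self v)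
      have hCfin : Module.Finite (ZMod p) C := Module.Finite.quotient (ZMod p) L
      have hCN : ∀ n ∈ N', C.ρ n = 1 := by
        intro n hn
        ext x
        change (W.ρ.quotient L hle n) (L.mkQ x) = L.mkQ x
        simp [Representation.quotient, hW n hn]
      have hdim : Module.finrank (ZMod p) C < d := by
        have h1 : Module.finrank (ZMod p) (W ⧸ L) + Module.finrank (ZMod p) L =
            Module.finrank (ZMod p) W := Submodule.finrank_quotient_add_finrank L
        have h2 : Module.finrank (ZMod p) L = 1 := finrank_span_singleton hv0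
        change Module.finrank (ZMod p) (W ⧸ L) < d
        omega
      have hQC : Q C := ih _ hdim C hCN rfl
      exact hext _ W C f g inferInstance inferInstance hCfin (fun n _ => rfl) hW hCN hfinj hgsurj
        hexact htriv hQC

end Unipotent

section Coind

variable {k : Type} [CommRing k] {G : Type} [Group G] (U : Subgroup G)

theorem coindMap_apply {A B : Rep.{0} k U} (f : A ⟶ B) (x : Rep.coind U.subtype A) (h : G) :
    ((Rep.coindMap U.subtype f).hom x).1 h = f.hom (x.1 h) := rfl

/-- Coinduction preserves injectivity. -/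
theorem coindMap_injective {A B : Rep.{0} k U} (f : A ⟶ B) (hf : Function.Injective f.hom) :
    Function.Injective (Rep.coindMap U.subtype f).hom := by
  intro x y hxy
  apply Subtype.ext
  funext h
  have := congrArg (fun z : Rep.coind U.subtype B => z.1 h) hxy
  exact hf this

/-- Coinduction from a subgroup preserves surjectivity. -/
theorem coindMap_surjective {A B : Rep.{0} k U} (f : A ⟶ B) (hf : Function.Surjective f.hom) :
    Function.Surjective (Rep.coindMap U.subtype f).hom := by
  have h1 : Epi f := (Rep.epi_iff_surjective f).2 hf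
  have h2 : Epi ((Rep.coindFunctor k U.subtype).map f) := inferInstance
  exact (Rep.epi_iff_surjective _).1 h2

/-- Coinduction preserves exactness in the middle (of a left exact pair). -/
theorem coindMap_exact {A B C : Rep.{0} k U} (f : A ⟶ B) (g : B ⟶ C)
    (hf : Function.Injective f.hom) (hfg : Function.Exact f.hom g.hom) :
    Function.Exact (Rep.coindMap U.subtype f).hom (Rep.coindMap U.subtype g).hom := by
  intro y
  constructor
  · intro hy
    have hy' : ∀ h, g.hom (y.1 h) = 0 := fun h =>
      congrArg (fun z : Rep.coind U.subtype C => z.1 h) hy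
    choose a ha using fun h => (hfg (y.1 h)).1 (hy' h)
    refine ⟨⟨a, fun u h => ?_⟩, Subtype.ext (funext ha)⟩
    apply hf
    rw [ha, Rep.hom_comm_apply, ha]
    exact y.2 u h
  · rintro ⟨x, rfl⟩
    apply Subtype.ext
    funext h
    exact (hfg _).2 ⟨x.1 h, rfl⟩

/-- The coinduction of a finite module from a finite index subgroup is finite. -/
theorem finite_coind [IsNoetherianRing k] [U.FiniteIndex] (A : Rep.{0} k U) [Module.Finite k A] :
    Module.Finite k (Rep.coind U.subtype A) := by
  classical
  obtain ⟨T, hT, -⟩ := Subgroup.exists_isComplement_right U (1 : G)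
  have hTfin : Finite T := hT.finite_right_iff.mpr inferInstance
  let r : (Rep.coind U.subtype A) →ₗ[k] (T → A) :=
    { toFun := fun x t => x.1 t
      map_add' := fun x y => rfl
      map_smul' := fun c x => rfl }
  have hr : Function.Injective r := by
    intro x y hxy
    apply Subtype.ext
    funext g
    obtain ⟨⟨u, t⟩, rfl⟩ := hT.2 g
    have h1 := x.2 u (t : G)
    have h2 := y.2 u (t : G)
    have h3 : x.1 t = y.1 t := congrFun hxy t
    change x.1 (U.subtype u * t) = y.1 (U.subtype u * t)
    rw [h1, h2, h3]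
  exact Module.Finite.of_injective r hr

/-- If the normal subgroup `N ≤ U` acts trivially on `A`, it acts trivially on the coinduction. -/
theorem coind_trivial_of_normal (N : Subgroup G) [N.Normal] (hNU : N ≤ U) (A : Rep.{0} k U)
    (hA : ∀ n ∈ N.subgroupOf U, A.ρ n = 1) :
    ∀ n ∈ N, (Rep.coind U.subtype A).ρ n = 1 := by
  intro n hn
  ext x g
  have hmem : g * n * g⁻¹ ∈ N := ‹N.Normal›.conj_mem n hn g
  have h1 := x.2 ⟨g * n * g⁻¹, hNU hmem⟩ g
  have h2 : A.ρ ⟨g * n * g⁻¹, hNU hmem⟩ = 1 := hA _ (Subgroup.mem_subgroupOf.mpr hmem)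
  change x.1 (g * n) = x.1 g
  have h3 : U.subtype ⟨g * n * g⁻¹, hNU hmem⟩ * g = g * n := by simp
  rw [h3, h2] at h1
  exact h1

end Coind

section Retract

variable {k : Type} [CommRing k] {G : Type} [Group G] (U : Subgroup G) (M : Rep.{0} k G)

/-- The unit `M → coind_U^G res_U M`, `m ↦ (g ↦ g • m)`. -/
noncomputable def toCoindRes : M ⟶ Rep.coind U.subtype (Rep.res U.subtype M) :=
  Rep.ofHom (ρ := M.ρ) ⟨
    { toFun := fun m => ⟨fun g => M.ρ g m, fun u g => by
        change M.ρ (U.subtype u * g) m = M.ρ (U.subtype u) (M.ρ g m)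
        rw [map_mul]; rfl⟩
      map_add' := fun x y => by
        apply Subtype.ext; funext g
        change M.ρ g (x + y) = M.ρ g x + M.ρ g y
        rw [map_add]
      map_smul' := fun c x => by
        apply Subtype.ext; funext g
        change M.ρ g (c • x) = c • M.ρ g x
        rw [map_smul] }, fun h => by
      ext m g
      change M.ρ g (M.ρ h m) = M.ρ (g * h) m
      rw [map_mul]; rfl⟩

theorem toCoindRes_apply (m : M) (g : G) : ((toCoindRes U M).hom m).1 g = M.ρ g m := rfl

/-- The function on `G ⧸ U` used to average: `g U ↦ g • x(g⁻¹)`. -/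
noncomputable def avgFun (x : Rep.coind U.subtype (Rep.res U.subtype M)) : G ⧸ U → M :=
  fun q => Quotient.liftOn' q (fun g => M.ρ g (x.1 g⁻¹)) (by
    intro a b hab
    rw [QuotientGroup.leftRel_apply] at hab
    have h1 := x.2 ⟨a⁻¹ * b, hab⟩ b⁻¹
    have h2 : U.subtype ⟨a⁻¹ * b, hab⟩ * b⁻¹ = a⁻¹ := by simp
    rw [h2] at h1
    change M.ρ a (x.1 a⁻¹) = M.ρ b (x.1 b⁻¹)
    rw [h1]
    change M.ρ a (M.ρ (a⁻¹ * b) (x.1 b⁻¹)) = M.ρ b (x.1 b⁻¹)
    rw [← Module.End.mul_apply, ← map_mul, mul_inv_cancel_left])

theorem avgFun_mk (x : Rep.coind U.subtype (Rep.res U.subtype M)) (g : G) :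
    avgFun U M x (g : G ⧸ U) = M.ρ g (x.1 g⁻¹) := rfl

variable [U.FiniteIndex]

noncomputable local instance : Fintype (G ⧸ U) := Fintype.ofFinite _

/-- The averaging retraction `coind_U^G res_U M → M` (for `[G : U]` invertible in `k`). -/
noncomputable def ofCoindRes (c : k) : Rep.coind U.subtype (Rep.res U.subtype M) ⟶ M :=
  Rep.ofHom (σ := M.ρ) ⟨
    { toFun := fun x => c • ∑ q : G ⧸ U, avgFun U M x q
      map_add' := fun x y => by
        rw [← smul_add, ← Finset.sum_add_distrib]
        congr 1
        refine Finset.sum_congr rfl fun q _ => ?_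
        induction q using QuotientGroup.induction_on with
        | _ g =>
          rw [avgFun_mk, avgFun_mk, avgFun_mk, ← map_add]; rfl
      map_smul' := fun a x => by
        have hpt : ∀ q : G ⧸ U, avgFun U M (a • x) q = a • avgFun U M x q := by
          intro q
          induction q using QuotientGroup.induction_on with
          | _ g =>
            rw [avgFun_mk, avgFun_mk, ← map_smul]; rfl
        calc c • ∑ q : G ⧸ U, avgFun U M (a • x) q
            = c • ∑ q : G ⧸ U, a • avgFun U M x q := by
              rw [Finset.sum_congr rfl fun q _ => hpt q]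
          _ = c • (a • ∑ q : G ⧸ U, avgFun U M x q) := by rw [← Finset.smul_sum]
          _ = a • (c • ∑ q : G ⧸ U, avgFun U M x q) := smul_comm c a _ }, fun h => by
      ext x
      change c • ∑ q : G ⧸ U, avgFun U M ((Rep.coind U.subtype (Rep.res U.subtype M)).ρ h x) q =
        M.ρ h (c • ∑ q : G ⧸ U, avgFun U M x q)
      rw [map_smul, map_sum]
      congr 1
      rw [← Equiv.sum_comp (MulAction.toPerm h⁻¹ : G ⧸ U ≃ G ⧸ U)
        (fun q => M.ρ h (avgFun U M x q))]
      refine Finset.sum_congr rfl fun q _ => ?_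
      induction q using QuotientGroup.induction_on with
      | _ g =>
        change avgFun U M _ (g : G ⧸ U) = M.ρ h (avgFun U M x (((h⁻¹ * g : G) : G ⧸ U)))
        rw [avgFun_mk, avgFun_mk]
        change M.ρ g (x.1 (g⁻¹ * h)) = _
        rw [← Module.End.mul_apply, ← map_mul, mul_inv_rev, inv_inv, mul_inv_cancel_left]⟩

theorem toCoindRes_ofCoindRes (c : k) (hc : c * (U.index : k) = 1) :
    toCoindRes U M ≫ ofCoindRes U M c = 𝟙 M := by
  ext m
  change c • ∑ q : G ⧸ U, avgFun U M ((toCoindRes U M).hom m) q = m
  have h1 : ∀ q : G ⧸ U, avgFun U M ((toCoindRes U M).hom m) q = m := by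
    intro q
    induction q using QuotientGroup.induction_on with
    | _ g =>
      rw [avgFun_mk, toCoindRes_apply, ← Module.End.mul_apply, ← map_mul, mul_inv_cancel,
        map_one, Module.End.one_apply]
  rw [Finset.sum_congr rfl fun q _ => h1 q, Finset.sum_const, Finset.card_univ,
    ← Nat.card_eq_fintype_card, ← Subgroup.index_eq_card, ← Nat.cast_smul_eq_nsmul k, smul_smul, hc,
    one_smul]

end Retract

section Main

variable {p : ℕ} [Fact p.Prime] {G : Type} [Group G]

/-- The preimage `U` of a `p`-Sylow subgroup of `G ⧸ N`: `N ≤ U`, every element of `U` has a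
`p`-power in `N`, and `[G : U]` is finite and prime to `p`. -/
theorem exists_sylow_subgroup (p : ℕ) [Fact p.Prime] (N : Subgroup G) [N.Normal] [N.FiniteIndex] :
    ∃ U : Subgroup G, N ≤ U ∧ (∀ u ∈ U, ∃ n : ℕ, u ^ p ^ n ∈ N) ∧ U.FiniteIndex ∧
      ¬ p ∣ U.index := by
  classical
  have : Finite (G ⧸ N) := inferInstance
  let Pbar : Sylow p (G ⧸ N) := default
  refine ⟨(Pbar : Subgroup (G ⧸ N)).comap (QuotientGroup.mk' N), ?_, ?_, ?_, ?_⟩
  · intro n hn
    rw [Subgroup.mem_comap, QuotientGroup.mk'_apply, (QuotientGroup.eq_one_iff n).mpr hn]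
    exact Subgroup.one_mem _
  · intro u hu
    rw [Subgroup.mem_comap] at hu
    obtain ⟨n, hn⟩ := Pbar.isPGroup' ⟨_, hu⟩
    refine ⟨n, ?_⟩
    have h1 : ((u : G ⧸ N)) ^ p ^ n = 1 := congrArg Subtype.val hn
    rw [← QuotientGroup.mk_pow, QuotientGroup.eq_one_iff] at h1
    exact h1
  · constructor
    rw [Subgroup.index_comap_of_surjective _ (QuotientGroup.mk'_surjective N)]
    exact Subgroup.FiniteIndex.index_ne_zero
  · rw [Subgroup.index_comap_of_surjective _ (QuotientGroup.mk'_surjective N)]
    exact Pbar.not_dvd_index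

/-- **Dévissage.** A property of finite `𝔽_p[G]`-modules with trivial action of the normal finite
index subgroup `N` that is closed under extensions and direct summands and holds for the
permutation modules `coind_U^G 𝔽_p` (`N ≤ U`, `U/N` a `p`-group, `[G:U]` prime to `p`) holds for
all such modules. -/
theorem devissage (N : Subgroup G) [N.Normal] [N.FiniteIndex]
    (P : Rep.{0} (ZMod p) G → Prop)
    (hext : ∀ (A B C : Rep.{0} (ZMod p) G) (f : A ⟶ B) (g : B ⟶ C),
        Module.Finite (ZMod p) A → Module.Finite (ZMod p) B → Module.Finite (ZMod p) C →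
        (∀ n ∈ N, A.ρ n = 1) → (∀ n ∈ N, B.ρ n = 1) → (∀ n ∈ N, C.ρ n = 1) →
        Function.Injective f.hom → Function.Surjective g.hom → Function.Exact f.hom g.hom →
        P A → P C → P B)
    (hsumm : ∀ (A B : Rep.{0} (ZMod p) G) (i : A ⟶ B) (r : B ⟶ A),
        Module.Finite (ZMod p) A → Module.Finite (ZMod p) B →
        (∀ n ∈ N, A.ρ n = 1) → (∀ n ∈ N, B.ρ n = 1) → i ≫ r = 𝟙 A → P B → P A)
    (hbase : ∀ U : Subgroup G, N ≤ U → (∀ u ∈ U, ∃ n : ℕ, u ^ p ^ n ∈ N) → U.FiniteIndex →
        ¬ p ∣ U.index → P (Rep.coind U.subtype (Rep.trivial (ZMod p) U (ZMod p))))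
    (M : Rep.{0} (ZMod p) G) [Module.Finite (ZMod p) M] (hM : ∀ n ∈ N, M.ρ n = 1) : P M := by
  classical
  obtain ⟨U, hNU, hUp, hUfin, hUidx⟩ := exists_sylow_subgroup p N
  have hbaseU := hbase U hNU hUp hUfin hUidx
  -- the base module is finite with trivial `N`-action
  have hXfin : Module.Finite (ZMod p) (Rep.coind U.subtype (Rep.trivial (ZMod p) U (ZMod p))) :=
    finite_coind U _
  have hXN : ∀ n ∈ N, (Rep.coind U.subtype (Rep.trivial (ZMod p) U (ZMod p))).ρ n = 1 :=
    coind_trivial_of_normal U N hNU _ (fun n _ => rfl)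
  -- the induction on `U`-modules
  have key : ∀ (W : Rep.{0} (ZMod p) U) [Module.Finite (ZMod p) W],
      (∀ n ∈ N.subgroupOf U, W.ρ n = 1) → P (Rep.coind U.subtype W) := by
    intro W _ hW
    refine unipotent_induction (p := p) (N.subgroupOf U) ?_
      (fun W => P (Rep.coind U.subtype W)) ?_ ?_ hbaseU W hW
    · rintro ⟨u, hu⟩
      obtain ⟨n, hn⟩ := hUp u hu
      exact ⟨n, Subgroup.mem_subgroupOf.mpr hn⟩
    · intro A B C f g hA hB hC hAN hBN hCN hf hg hfg hPA hPC
      exact hext _ _ _ (Rep.coindMap U.subtype f) (Rep.coindMap U.subtype g)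
        (finite_coind U A) (finite_coind U B) (finite_coind U C)
        (coind_trivial_of_normal U N hNU A hAN) (coind_trivial_of_normal U N hNU B hBN)
        (coind_trivial_of_normal U N hNU C hCN)
        (coindMap_injective U f hf) (coindMap_surjective U g hg) (coindMap_exact U f g hf hfg)
        hPA hPC
    · intro A hA
      have hsub : Subsingleton (Rep.coind U.subtype A) :=
        ⟨fun x y => Subtype.ext (funext fun g => Subsingleton.elim _ _)⟩
      refine hsumm _ _ 0 0 inferInstance hXfin ?_ hXN ?_ hbaseU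
      · intro n _
        ext x
        exact Subsingleton.elim _ _
      · ext x
        exact Subsingleton.elim _ _
  have hresfin : Module.Finite (ZMod p) (Rep.res U.subtype M) := ‹Module.Finite (ZMod p) M›
  have hresN : ∀ n ∈ N.subgroupOf U, (Rep.res U.subtype M).ρ n = 1 := by
    intro n hn
    exact hM _ (Subgroup.mem_subgroupOf.mp hn)
  have hP := key (Rep.res U.subtype M) hresN
  have hunit : IsUnit ((U.index : ℕ) : ZMod p) := by
    rw [isUnit_iff_ne_zero, Ne, ZMod.natCast_eq_zero_iff]
    exact hUidx
  obtain ⟨c, hc⟩ := hunit.exists_left_inv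
  exact hsumm M _ (toCoindRes U M) (ofCoindRes U M c) inferInstance
    (finite_coind U _) hM (coind_trivial_of_normal U N hNU _ hresN)
    (toCoindRes_ofCoindRes U M c hc) hP

end Main

end Fermat.Agent.PT.Devissage
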