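import Fermat.Agent.PT.Devissage
import Fermat.Agent.PT.LevelTwist

/-!
# PT (S55), layer F6: dévissage for `S`-representations of `G_ℚ`

Packaging of helper77's abstract dévissage principle (`Fermat.Agent.PT.Devissage.devissage`) for
the absolute Galois group of `ℚ` with the level vocabulary of `PT/Levels.lean`.

* `IsSRep p S M` : `M` is a finite-dimensional `𝔽_p`-representation of `G_ℚ` trivial on
  `Gal(ℚ̄/L)` for a finite `L/ℚ` unramified outside `S` (equivalent to the hypotheses of S55:
  `isSRep_of_smooth_unramified`, `IsSRep.smooth`, `IsSRep.unramified`; stable under the twisted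
  dual: `IsSRep.dualTwist`).
* `devissage_GQ` : a property of `𝔽_p`-representations of `G_ℚ` which is stable under retracts and
  extensions of `S`-representations and holds for `coind_{G_K}^{G_ℚ} 𝔽_p`, `K` a level containing
  `μ_p`, holds for all `S`-representations.
-/

set_option autoImplicit false

open CategoryTheory ExtCitation Fermat.Agent.PT.Levels

namespace Fermat.Agent.PT.DevissageGQ

local notation "Qb" => AlgebraicClosure ℚ
local notation "GQ" => (AlgebraicClosure ℚ ≃ₐ[ℚ] AlgebraicClosure ℚ)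

local instance isAlgebraicQbar_dv : Algebra.IsAlgebraic ℚ Qb := AlgebraicClosure.isAlgebraic ℚ
local instance isAlgClosureQbar_dv : IsAlgClosure ℚ Qb := ⟨inferInstance, inferInstance⟩
local instance normalQbar_dv : Normal ℚ Qb := IsAlgClosure.normal ℚ Qb
local instance isSeparableQbar_dv : Algebra.IsSeparable ℚ Qb :=
  Algebra.IsAlgebraic.isSeparable_of_perfectField
local instance isGaloisQbar_dv : IsGalois ℚ Qb := ⟨⟩

variable (p : ℕ) [Fact p.Prime]

/-- A character with values in `(ZMod p)ˣ` which is trivial on `N` is trivial on every `u` with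
`u ^ p ^ n ∈ N`. -/
theorem char_eq_one_of_pow_mem {G : Type*} [Group G] (χ : G →* (ZMod p)ˣ) (N : Subgroup G)
    (hχ : ∀ n ∈ N, χ n = 1) {u : G} (hu : ∃ n : ℕ, u ^ p ^ n ∈ N) : χ u = 1 := by
  have hp : p.Prime := Fact.out
  obtain ⟨n, hn⟩ := hu
  have h1 : χ u ^ p ^ n = 1 := by rw [← map_pow]; exact hχ _ hn
  have h2 : χ u ^ (p - 1) = 1 := ZMod.units_pow_card_sub_one_eq_one p (χ u)
  have h3 : χ u ^ (p ^ n).gcd (p - 1) = 1 := pow_gcd_eq_one.mpr ⟨h1, h2⟩
  have h4 : (p ^ n).gcd (p - 1) = 1 := by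
    refine Nat.Coprime.pow_left n ?_
    refine Nat.coprime_of_lt_prime ?_ ?_ hp
    · have := hp.two_le
      omega
    · have := hp.pos
      omega
  rwa [h4, pow_one] at h3

variable (S : Finset Nat.Primes)

/-- `S`-representations: finite-dimensional `𝔽_p`-representations of `G_ℚ` which are trivial on
`Gal(ℚ̄/L)` for a finite `L/ℚ` unramified outside `S`. -/
def IsSRep (M : Rep.{0} (ZMod p) GQ) : Prop :=
  Module.Finite (ZMod p) M ∧ ∃ L : IntermediateField ℚ Qb, L.IsUnramifiedOutside S ∧
    ∀ s ∈ L.fixingSubgroup, M.ρ s = 1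

/-- The hypotheses of S55 say that `M` is an `S`-representation. -/
theorem isSRep_of_smooth_unramified (M : Rep.{0} (ZMod p) GQ) [Module.Finite (ZMod p) M]
    (hsm : ∀ m : M, ∃ F : IntermediateField ℚ Qb, FiniteDimensional ℚ F ∧
      ∀ s ∈ F.fixingSubgroup, M.ρ s m = m)
    (hMur : ∀ q : Nat.Primes, q ∉ S → ∀ A : ValuationSubring Qb,
      A.LiesOverPrime (q : ℕ) → ∀ g ∈ A.inertiaSubgroupIn ℚ, M.ρ g = 1) :
    IsSRep p S M := by
  obtain ⟨L, hL, _, hLM⟩ := exists_level_of_rep S M hsm hMur
  exact ⟨inferInstance, L, hL, fun s hs => (hLM s).mp hs⟩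

/-- An `S`-representation satisfies the smoothness hypothesis of S55. -/
theorem IsSRep.smooth {M : Rep.{0} (ZMod p) GQ} (hM : IsSRep p S M) :
    ∀ m : M, ∃ F : IntermediateField ℚ Qb, FiniteDimensional ℚ F ∧
      ∀ s ∈ F.fixingSubgroup, M.ρ s m = m := by
  obtain ⟨_, L, hL, hLM⟩ := hM
  intro m
  refine ⟨L, hL.1, fun s hs => ?_⟩
  rw [hLM s hs]
  rfl

/-- An `S`-representation satisfies the unramifiedness hypothesis of S55. -/
theorem IsSRep.unramified {M : Rep.{0} (ZMod p) GQ} (hM : IsSRep p S M) :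
    ∀ q : Nat.Primes, q ∉ S → ∀ A : ValuationSubring Qb,
      A.LiesOverPrime (q : ℕ) → ∀ g ∈ A.inertiaSubgroupIn ℚ, M.ρ g = 1 := by
  obtain ⟨_, L, hL, hLM⟩ := hM
  intro q hq A hA g hg
  exact hLM g (hL.2 q hq A hA hg)

/-- The twisted dual of an `S`-representation is an `S`-representation (`p ∈ S`). -/
theorem IsSRep.dualTwist {M : Rep.{0} (ZMod p) GQ} (hM : IsSRep p S M) (hpS : pPrime p ∈ S) :
    IsSRep p S (M.dualTwist (cycloChar p)) := by
  have := hM.1
  have := dualTwist_finite M (cycloChar p)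
  exact isSRep_of_smooth_unramified p S _ (dualTwist_smooth p M hM.smooth)
    (dualTwist_unramified p S hpS M hM.unramified)

/-- A common Galois level for finitely many (here: two) `S`-representations, containing a given
level. -/
theorem IsSRep.exists_normal_level {M : Rep.{0} (ZMod p) GQ} (hM : IsSRep p S M)
    {L₀ : IntermediateField ℚ Qb} (hL₀ : L₀.IsUnramifiedOutside S) :
    ∃ L : IntermediateField ℚ Qb, L₀ ≤ L ∧ L.IsUnramifiedOutside S ∧ Normal ℚ L ∧
      ∀ s ∈ L.fixingSubgroup, M.ρ s = 1 := by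
  obtain ⟨_, L₁, hL₁, hL₁M⟩ := hM
  obtain ⟨L, hle, hL, hLn⟩ := exists_normal_level_ge (hL₁.sup hL₀)
  exact ⟨L, le_sup_right.trans hle, hL, hLn, fun s hs =>
    hL₁M s (IntermediateField.fixingSubgroup_antitone (le_sup_left.trans hle) hs)⟩

/-- The fixing subgroup of a finite extension has finite index. -/
theorem finiteIndex_fixingSubgroup (L : IntermediateField ℚ Qb) [FiniteDimensional ℚ L] :
    L.fixingSubgroup.FiniteIndex := by
  refine ⟨?_⟩
  rw [← IntermediateField.finrank_eq_fixingSubgroup_index]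
  exact Module.finrank_pos.ne'

/-- A subgroup containing the fixing subgroup of a level `L` is the fixing subgroup of a level
`K ≤ L`. -/
theorem exists_level_of_le {L : IntermediateField ℚ Qb} (hL : L.IsUnramifiedOutside S)
    (U : Subgroup GQ) (hLU : L.fixingSubgroup ≤ U) :
    ∃ K : IntermediateField ℚ Qb, K ≤ L ∧ K.IsUnramifiedOutside S ∧ K.fixingSubgroup = U := by
  have := hL.1
  have hUopen : IsOpen (U : Set GQ) := Subgroup.isOpen_mono hLU L.fixingSubgroup_isOpen
  have hUclosed : IsClosed (U : Set GQ) := Subgroup.isClosed_of_isOpen _ hUopen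
  have hle : IntermediateField.fixedField U ≤ L := by
    rw [← InfiniteGalois.fixedField_fixingSubgroup L]
    exact IntermediateField.fixedField_antitone hLU
  exact ⟨IntermediateField.fixedField U, hle, hL.of_le hle,
    InfiniteGalois.fixingSubgroup_fixedField ⟨U, hUclosed⟩⟩

/-- **Dévissage for `S`-representations of `G_ℚ`** (`p ∈ S`).  A property of
`𝔽_p`-representations of `G_ℚ` which is stable under retracts and extensions of
`S`-representations and holds for the permutation modules `coind_{G_K}^{G_ℚ} 𝔽_p`, `K` a finite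
extension of `ℚ` unramified outside `S` and containing `μ_p` (i.e. the cyclotomic character is
trivial on `G_K`), holds for all `S`-representations. -/
theorem devissage_GQ (hpS : pPrime p ∈ S) (P : Rep.{0} (ZMod p) GQ → Prop)
    (h_retract : ∀ A B : Rep.{0} (ZMod p) GQ, IsSRep p S A → IsSRep p S B →
      ∀ (i : A ⟶ B) (r : B ⟶ A), i ≫ r = 𝟙 A → P B → P A)
    (h_ext : ∀ A B C : Rep.{0} (ZMod p) GQ, IsSRep p S A → IsSRep p S B → IsSRep p S C →
      ∀ (f : A ⟶ B) (g : B ⟶ C), Function.Injective f.hom → Function.Exact f.hom g.hom →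
        Function.Surjective g.hom → P A → P C → P B)
    (h_base : ∀ K : IntermediateField ℚ Qb, K.IsUnramifiedOutside S →
      (∀ s ∈ K.fixingSubgroup, cycloChar p s = 1) →
      P (Rep.coind K.fixingSubgroup.subtype (Rep.trivial (ZMod p) K.fixingSubgroup (ZMod p))))
    (M : Rep.{0} (ZMod p) GQ) (hM : IsSRep p S M) : P M := by
  obtain ⟨ζ, hζ⟩ := exists_primitiveRoot_Qbar p
  have hζS := isUnramifiedOutside_adjoin_primitiveRoot p S hpS hζ
  obtain ⟨L, hle, hL, hLn, hMN⟩ := hM.exists_normal_level p S hζS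
  have hMfin := hM.1
  have hLfin := hL.1
  have hNn : (L.fixingSubgroup).Normal := fixingSubgroup_normal L
  have hNfi : (L.fixingSubgroup).FiniteIndex := finiteIndex_fixingSubgroup L
  have hχN : ∀ s ∈ L.fixingSubgroup, cycloChar p s = 1 := fun s hs =>
    cycloChar_eq_one_of_mem_fixingSubgroup p hζ (IntermediateField.fixingSubgroup_antitone hle hs)
  refine Devissage.devissage (p := p) L.fixingSubgroup P
    (fun A B C f g hA hB hC hAN hBN hCN hf hg hfg =>
      h_ext A B C ⟨hA, L, hL, hAN⟩ ⟨hB, L, hL, hBN⟩ ⟨hC, L, hL, hCN⟩ f g hf hfg hg)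
    (fun A B i r hA hB hAN hBN => h_retract A B ⟨hA, L, hL, hAN⟩ ⟨hB, L, hL, hBN⟩ i r)
    (fun U hNU hUp _ _ => ?_) M hMN
  obtain ⟨K, _, hK, rfl⟩ := exists_level_of_le S hL U hNU
  exact h_base K hK fun s hs =>
    char_eq_one_of_pow_mem p (cycloChar p) L.fixingSubgroup hχN (hUp s hs)

end Fermat.Agent.PT.DevissageGQ
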