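import Fermat.Agent.PT.ShaUnfold
import Fermat.Agent.PT.Arch

/-!
# PT (S55/S56): local conditions only depend on the image subgroup

For a homomorphism `f : H →* G_ℚ` (e.g. `primeLocalToGlobal q : Gal(ℚ̄_q/ℚ_q) → G_ℚ`) the
localisation maps of the Prelude (`locRes` on `H¹`, `locRes₂S` on level-constant `H²`) vanish on a
class iff the localisation to the subgroup `f.range ≤ G_ℚ` does.  Hence `Ш¹_S` and `Ш²_S` are cut
out by conditions on the subgroups `localGroup q = (primeLocalToGlobal q).range`, `q ∈ S` (the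
archimedean place drops out when `2` is invertible, `PT/Arch.lean`), and no `q`-adic field has
to be touched by the cohomological layers.
-/

set_option autoImplicit false

open CategoryTheory Module groupCohomology ExtCitation

namespace Fermat.Agent.PT.LocImage

local notation "GQ" => (AlgebraicClosure ℚ ≃ₐ[ℚ] AlgebraicClosure ℚ)

/-- The image in `G_ℚ` of the local Galois group at `q` (contained in the decomposition group of
`padicPlace q`). -/
noncomputable def localGroup (q : Nat.Primes) : Subgroup GQ := (primeLocalToGlobal q).range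

theorem localGroup_le_decompositionSubgroup (q : Nat.Primes) :
    localGroup q ≤ (primeLocalPlace q).decompositionSubgroup ℚ := by
  rintro _ ⟨τ, rfl⟩
  haveI : Fact (q : ℕ).Prime := ⟨q.2⟩
  exact localGaloisToGlobal_mem_decompositionSubgroup (q : ℕ) τ

/-! ### `H¹` -/

section H1

variable {K : Type} [Field K] (A : Rep K GQ)

/-- The localisation of the class of `c` along `f` vanishes iff `c` is a coboundary on the
subgroup `f.range`. -/
theorem locRes_H1π_eq_zero_iff_range {ι : Type} {Γv : ι → Type} [∀ v, Group (Γv v)]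
    (loc : ∀ v, Γv v →* GQ) (c : cocycles₁ A) (v : ι) :
    (locRes loc A v).hom ((H1π A).hom c) = 0 ↔
      ∃ m : A, ∀ d ∈ (loc v).range, c d = A.ρ d m - m := by
  rw [Fermat.Agent.PT.locRes_H1π_eq_zero_iff]
  constructor
  · rintro ⟨m, hm⟩
    refine ⟨m, ?_⟩
    rintro _ ⟨g, rfl⟩
    exact hm g
  · rintro ⟨m, hm⟩
    exact ⟨m, fun g => hm _ ⟨g, rfl⟩⟩

end H1

/-! ### Level-constant `H²` -/

section H2

variable (S : Finset Nat.Primes) {k : Type} [CommRing k] (M : Rep k GQ)

/-- Cochain form of the vanishing of the localisation to a subgroup `D ≤ G_ℚ`, with the cochain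
extended (by junk) to all of `G_ℚ`. -/
theorem locRes₂S_subtype_π_eq_zero_iff (D : Subgroup GQ) (z : levelCocyclesS₂ S M) :
    locRes₂S S M D.subtype (continuousH2Sπ S M z) = 0 ↔
      ∃ y : GQ → M,
        (∃ F : IntermediateField ℚ (AlgebraicClosure ℚ), FiniteDimensional ℚ F ∧
          ∀ g ∈ D, ∀ s ∈ D, s ∈ F.fixingSubgroup → y (g * s) = y g) ∧
        ∀ g ∈ D, ∀ h ∈ D, (z : GQ × GQ → M) (g, h) = M.ρ g (y h) - y (g * h) + y g := by
  classical
  rw [Fermat.Agent.PT.locRes₂S_π_eq_zero_iff]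
  constructor
  · rintro ⟨y, ⟨F, hF, hy⟩, hz⟩
    refine ⟨fun g => if hg : g ∈ D then y ⟨g, hg⟩ else 0, ⟨F, hF, ?_⟩, ?_⟩
    · intro g hg s hs hsF
      simp only [dif_pos (mul_mem hg hs), dif_pos hg]
      exact hy ⟨g, hg⟩ ⟨s, hs⟩ hsF
    · intro g hg h hh
      simp only [dif_pos (mul_mem hg hh), dif_pos hg, dif_pos hh]
      exact hz ⟨g, hg⟩ ⟨h, hh⟩
  · rintro ⟨y, ⟨F, hF, hy⟩, hz⟩
    refine ⟨fun g => y g, ⟨F, hF, ?_⟩, ?_⟩
    · intro g s hs
      exact hy g g.2 s s.2 hs
    · intro g h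
      exact hz g g.2 h h.2

/-- The localisation along `f : H →* G_ℚ` of a class of `H²_S` vanishes iff its localisation to
the subgroup `f.range` does. -/
theorem locRes₂S_eq_zero_iff_range {H : Type} [Group H] (f : H →* GQ) (x : continuousH2S S M) :
    locRes₂S S M f x = 0 ↔ locRes₂S S M f.range.subtype x = 0 := by
  classical
  obtain ⟨z, rfl⟩ := Fermat.Agent.PT.continuousH2Sπ_surjective S M x
  rw [Fermat.Agent.PT.locRes₂S_π_eq_zero_iff, Fermat.Agent.PT.locRes₂S_π_eq_zero_iff]
  constructor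
  · rintro ⟨y, ⟨F, hF, hy⟩, hz⟩
    -- `y` is constant on the fibres of `f`
    have hker : ∀ h h' : H, f h = f h' → y h = y h' := by
      intro h h' hhh
      have h1 : h' = h * (h⁻¹ * h') := by group
      have h2 : f (h⁻¹ * h') ∈ F.fixingSubgroup := by
        rw [map_mul, map_inv, hhh, inv_mul_cancel]
        exact one_mem _
      rw [h1, hy h (h⁻¹ * h') h2]
    have hch : ∀ d : f.range, ∃ h : H, f h = d := fun d => d.2
    choose sec hsec using hch
    have hysec : ∀ h : H, y (sec ⟨f h, h, rfl⟩) = y h := fun h => hker _ _ (hsec _)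
    refine ⟨fun d => y (sec d), ⟨F, hF, ?_⟩, ?_⟩
    · intro d s hs
      have h1 : f (sec d * sec s) = ((d * s : f.range) : GQ) := by
        rw [map_mul, hsec, hsec]; rfl
      have h2 : y (sec (d * s)) = y (sec d * sec s) := hker _ _ (by rw [hsec, h1])
      show y (sec (d * s)) = y (sec d)
      rw [h2]
      exact hy (sec d) (sec s) (by rw [hsec]; exact hs)
    · intro d e
      have h1 : f (sec d * sec e) = ((d * e : f.range) : GQ) := by
        rw [map_mul, hsec, hsec]; rfl
      have h2 : y (sec (d * e)) = y (sec d * sec e) := hker _ _ (by rw [hsec, h1])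
      have h3 := hz (sec d) (sec e)
      rw [hsec, hsec] at h3
      show (z : GQ × GQ → M) ((d : GQ), (e : GQ)) =
        M.ρ (d : GQ) (y (sec e)) - y (sec (d * e)) + y (sec d)
      rw [h2]
      exact h3
  · rintro ⟨y, ⟨F, hF, hy⟩, hz⟩
    refine ⟨fun h => y (f.rangeRestrict h), ⟨F, hF, ?_⟩, ?_⟩
    · intro g s hs
      show y (f.rangeRestrict (g * s)) = y (f.rangeRestrict g)
      rw [map_mul]
      exact hy (f.rangeRestrict g) (f.rangeRestrict s) hs
    · intro g h
      show (z : GQ × GQ → M) (f g, f h) =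
        M.ρ (f g) (y (f.rangeRestrict h)) - y (f.rangeRestrict (g * h)) + y (f.rangeRestrict g)
      rw [map_mul]
      exact hz (f.rangeRestrict g) (f.rangeRestrict h)

end H2

/-! ### `Ш¹_S` and `Ш²_S` through the subgroups `localGroup q` -/

section Sha

variable (S : Finset Nat.Primes)

/-- `Ш²_S(M)` through the subgroups `localGroup q ≤ G_ℚ`, `q ∈ S`. -/
theorem mem_sha₂_iff_localGroup {k : Type} [CommRing k] (M : Rep k GQ) (h2 : IsUnit (2 : k))
    (x : continuousH2S S M) :
    x ∈ sha₂ S M ↔ ∀ q ∈ S, locRes₂S S M (localGroup q).subtype x = 0 := by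
  rw [Fermat.Agent.PT.Arch.mem_sha₂_iff S M h2]
  constructor
  · intro h q hq
    exact (locRes₂S_eq_zero_iff_range S M (primeLocalToGlobal q) x).1 (h ⟨q, hq⟩)
  · intro h q
    exact (locRes₂S_eq_zero_iff_range S M (primeLocalToGlobal q.1) x).2 (h q.1 q.2)

/-- `Ш²_S(M)` in cochain terms: the class of a level-constant `2`-cocycle `z` lies in `Ш²_S(M)`
iff for every `q ∈ S` it is, on `localGroup q`, the coboundary of a `1`-cochain which is
level-constant on `localGroup q`. -/
theorem continuousH2Sπ_mem_sha₂_iff_localGroup {k : Type} [CommRing k] (M : Rep k GQ)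
    (h2 : IsUnit (2 : k)) (z : levelCocyclesS₂ S M) :
    continuousH2Sπ S M z ∈ sha₂ S M ↔ ∀ q ∈ S, ∃ y : GQ → M,
      (∃ F : IntermediateField ℚ (AlgebraicClosure ℚ), FiniteDimensional ℚ F ∧
        ∀ g ∈ localGroup q, ∀ s ∈ localGroup q, s ∈ F.fixingSubgroup → y (g * s) = y g) ∧
      ∀ g ∈ localGroup q, ∀ h ∈ localGroup q,
        (z : GQ × GQ → M) (g, h) = M.ρ g (y h) - y (g * h) + y g := by
  rw [mem_sha₂_iff_localGroup S M h2]
  exact forall₂_congr fun q _ => locRes₂S_subtype_π_eq_zero_iff S M (localGroup q) z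

/-- `Ш¹_S(A)` in cochain terms through the subgroups `localGroup q`, `q ∈ S`: classes of
level-constant cocycles that are coboundaries on every `localGroup q`. -/
theorem mem_sha₁_iff_localGroup {K : Type} [Field K] (A : Rep K GQ) (h2 : (2 : K) ≠ 0)
    (x : H1 A) :
    x ∈ sha₁ S A ↔ ∃ c : cocycles₁ A, IsLevelConstantS₁ S c ∧ (H1π A).hom c = x ∧
      ∀ q ∈ S, ∃ m : A, ∀ d ∈ localGroup q, c d = A.ρ d m - m := by
  rw [Fermat.Agent.PT.Arch.mem_sha₁_iff S A h2, mem_continuousH1S_iff]
  constructor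
  · rintro ⟨⟨c, hc, rfl⟩, hloc⟩
    refine ⟨c, hc, rfl, fun q hq => ?_⟩
    exact (locRes_H1π_eq_zero_iff_range A (extArithLoc S) c (Sum.inr ⟨q, hq⟩)).1 (hloc ⟨q, hq⟩)
  · rintro ⟨c, hc, rfl, hloc⟩
    refine ⟨⟨c, hc, rfl⟩, fun q => ?_⟩
    exact (locRes_H1π_eq_zero_iff_range A (extArithLoc S) c (Sum.inr q)).2 (hloc q.1 q.2)

end Sha

end Fermat.Agent.PT.LocImage
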