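import Fermat.Agent.PT.LocDec
import Fermat.Agent.PT.LocImage

/-!
# PT layer F3: the local groups of the Prelude ARE the decomposition groups

`localGaloisToGlobal q : Gal(ℚ̄_q/ℚ_q) → Gal(ℚ̄/ℚ)` is continuous for the Krull topologies; its
source is compact, so its image is closed; by `PT/LocDec.lean` the image is dense in the
decomposition group of `padicPlace q`.  Hence

* `range_localGaloisToGlobal : (localGaloisToGlobal q).range = (padicPlace q).decompositionSubgroup ℚ`
* `localGroup_eq_decompositionSubgroup : LocImage.localGroup q = (primeLocalPlace q).decompositionSubgroup ℚ`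

so that the local conditions of `Ш¹_S`, `Ш²_S` are conditions on the decomposition groups
`D_A ≤ G_ℚ`, `A = primeLocalPlace q` (`mem_sha₂_iff_decomposition`, `mem_sha₁_iff_decomposition`).
-/

set_option autoImplicit false

open scoped Topology Pointwise

namespace Fermat.Agent.PT.LocClosed

local notation "Qb" => AlgebraicClosure ℚ
local notation "GQ" => (AlgebraicClosure ℚ ≃ₐ[ℚ] AlgebraicClosure ℚ)

section

variable (q : ℕ) [Fact q.Prime]

/-- `localGaloisToGlobal q` is continuous for the Krull topologies. -/
theorem continuous_localGaloisToGlobal : Continuous (localGaloisToGlobal q) := by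
  classical
  refine continuous_of_continuousAt_one _ ?_
  rw [ContinuousAt, map_one]
  intro s hs
  rw [krullTopology_mem_nhds_one_iff] at hs
  obtain ⟨E, hEfin, hEs⟩ := hs
  rw [Filter.mem_map, krullTopology_mem_nhds_one_iff]
  -- a finite generating family of `E`, transported to `ℚ̄_q`
  let b := Module.finBasis ℚ E
  let T : Set (PadicAlgCl q) := Set.range fun i => padicEmbedding q (b i : Qb)
  have hTfin : Finite T := Set.finite_range _
  have hTint : ∀ x ∈ T, IsIntegral ℚ_[q] x := by
    rintro _ ⟨i, rfl⟩
    have h1 : IsIntegral ℚ (b i : Qb) := (AlgebraicClosure.isAlgebraic ℚ).isIntegral.isIntegral _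
    have h2 : IsIntegral ℚ (padicEmbedding q (b i : Qb)) := h1.map (padicEmbedding q)
    exact h2.tower_top
  refine ⟨IntermediateField.adjoin ℚ_[q] T,
    IntermediateField.finiteDimensional_adjoin hTint, ?_⟩
  intro τ hτ
  apply hEs
  rw [SetLike.mem_coe, IntermediateField.mem_fixingSubgroup_iff] at hτ ⊢
  have hb : ∀ i, localGaloisToGlobal q τ (b i : Qb) = (b i : Qb) := by
    intro i
    apply (padicEmbedding q).toRingHom.injective
    change padicEmbedding q (localGaloisToGlobal q τ (b i : Qb)) = padicEmbedding q (b i : Qb)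
    rw [padicEmbedding_localGaloisToGlobal]
    exact hτ _ (IntermediateField.subset_adjoin _ _ ⟨i, rfl⟩)
  intro x hx
  have hrepr := b.sum_repr ⟨x, hx⟩
  have hx' : x = ∑ i, b.repr ⟨x, hx⟩ i • (b i : Qb) := by
    have := congrArg (fun y : E => (y : Qb)) hrepr
    simp only [AddSubmonoidClass.coe_finsetSum, IntermediateField.coe_smul] at this
    exact this.symm
  change localGaloisToGlobal q τ x = x
  rw [hx', map_sum]
  refine Finset.sum_congr rfl fun i _ => ?_
  rw [Algebra.smul_def, map_mul, AlgEquiv.commutes, hb i]

/-- The image of the local Galois group is closed in `G_ℚ`. -/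
theorem isClosed_range_localGaloisToGlobal :
    IsClosed (Set.range (localGaloisToGlobal q)) := by
  have : IsGalois ℚ_[q] (PadicAlgCl q) := IsAlgClosure.isGalois ℚ_[q] (PadicAlgCl q)
  have : Algebra.IsIntegral ℚ Qb := (AlgebraicClosure.isAlgebraic ℚ).isIntegral
  have : T2Space GQ := krullTopology_t2
  exact (isCompact_range (continuous_localGaloisToGlobal q)).isClosed

/-- **The image of the local Galois group is the decomposition group.** -/
theorem range_localGaloisToGlobal :
    (localGaloisToGlobal q).range = (padicPlace q).decompositionSubgroup ℚ := by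
  apply le_antisymm
  · rintro _ ⟨τ, rfl⟩
    exact localGaloisToGlobal_mem_decompositionSubgroup q τ
  · intro σ hσ
    have hcl : σ ∈ closure (Set.range (localGaloisToGlobal q)) := by
      rw [mem_closure_iff_nhds]
      intro t ht
      have h1 : (fun x : GQ => σ * x) ⁻¹' t ∈ 𝓝 (1 : GQ) := by
        have hc : ContinuousAt (fun x : GQ => σ * x) 1 := (continuous_const_mul σ).continuousAt
        have : t ∈ 𝓝 (σ * 1) := by rwa [mul_one]
        exact hc this
      rw [krullTopology_mem_nhds_one_iff] at h1
      obtain ⟨E, hEfin, hE⟩ := h1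
      obtain ⟨τ, hτ⟩ := Fermat.Agent.PT.LocDec.exists_local_inv_mul_mem_fixingSubgroup q E hσ
      refine ⟨localGaloisToGlobal q τ, ?_, τ, rfl⟩
      have h2 := hE hτ
      rw [Set.mem_preimage, mul_inv_cancel_left] at h2
      exact h2
    rw [(isClosed_range_localGaloisToGlobal q).closure_eq] at hcl
    exact hcl

end

open ExtCitation in
/-- The Prelude's local group at `q` (as a subgroup of `G_ℚ`) is the decomposition group of
`primeLocalPlace q`. -/
theorem localGroup_eq_decompositionSubgroup (q : Nat.Primes) :
    Fermat.Agent.PT.LocImage.localGroup q = (primeLocalPlace q).decompositionSubgroup ℚ :=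
  letI : Fact (q : ℕ).Prime := ⟨q.2⟩
  range_localGaloisToGlobal (q : ℕ)

/-! ### `Ш¹_S` and `Ш²_S` through decomposition groups -/

section Sha

open CategoryTheory Module groupCohomology ExtCitation

variable (S : Finset Nat.Primes)

/-- `Ш²_S(M)` through the decomposition groups `D_q` of `primeLocalPlace q`, `q ∈ S`. -/
theorem mem_sha₂_iff_decomposition {k : Type} [CommRing k] (M : Rep k GQ) (h2 : IsUnit (2 : k))
    (x : continuousH2S S M) :
    x ∈ sha₂ S M ↔
      ∀ q ∈ S, locRes₂S S M ((primeLocalPlace q).decompositionSubgroup ℚ).subtype x = 0 := by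
  rw [Fermat.Agent.PT.LocImage.mem_sha₂_iff_localGroup S M h2]
  refine forall₂_congr fun q _ => ?_
  rw [localGroup_eq_decompositionSubgroup]

/-- `Ш²_S(M)` in cochain terms: the class of a level-constant `2`-cocycle `z` lies in `Ш²_S(M)`
iff for every `q ∈ S` it is, on the decomposition group `D_q`, the coboundary of a `1`-cochain
which is level-constant on `D_q`. -/
theorem continuousH2Sπ_mem_sha₂_iff_decomposition {k : Type} [CommRing k] (M : Rep k GQ)
    (h2 : IsUnit (2 : k)) (z : levelCocyclesS₂ S M) :
    continuousH2Sπ S M z ∈ sha₂ S M ↔ ∀ q ∈ S, ∃ y : GQ → M,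
      (∃ F : IntermediateField ℚ (AlgebraicClosure ℚ), FiniteDimensional ℚ F ∧
        ∀ g ∈ (primeLocalPlace q).decompositionSubgroup ℚ,
          ∀ s ∈ (primeLocalPlace q).decompositionSubgroup ℚ,
            s ∈ F.fixingSubgroup → y (g * s) = y g) ∧
      ∀ g ∈ (primeLocalPlace q).decompositionSubgroup ℚ,
        ∀ h ∈ (primeLocalPlace q).decompositionSubgroup ℚ,
          (z : GQ × GQ → M) (g, h) = M.ρ g (y h) - y (g * h) + y g := by
  rw [Fermat.Agent.PT.LocImage.continuousH2Sπ_mem_sha₂_iff_localGroup S M h2]
  refine forall₂_congr fun q _ => ?_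
  rw [localGroup_eq_decompositionSubgroup]

/-- `Ш¹_S(A)` in cochain terms through the decomposition groups `D_q`, `q ∈ S`: classes of
level-constant cocycles that are coboundaries on every `D_q`. -/
theorem mem_sha₁_iff_decomposition {K : Type} [Field K] (A : Rep K GQ) (h2 : (2 : K) ≠ 0)
    (x : H1 A) :
    x ∈ sha₁ S A ↔ ∃ c : cocycles₁ A, IsLevelConstantS₁ S c ∧ (H1π A).hom c = x ∧
      ∀ q ∈ S, ∃ m : A, ∀ d ∈ (primeLocalPlace q).decompositionSubgroup ℚ,
        c d = A.ρ d m - m := by
  rw [Fermat.Agent.PT.LocImage.mem_sha₁_iff_localGroup S A h2]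
  refine exists_congr fun c => and_congr_right fun _ => and_congr_right fun _ => ?_
  refine forall₂_congr fun q _ => ?_
  rw [localGroup_eq_decompositionSubgroup]

end Sha

end Fermat.Agent.PT.LocClosed
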