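import Fermat.Prelude.Def_GroupCohomology_ContinuousUnramified

/-!
# PT (S55): reduction of the pairing statement to an equality of dimensions

S55 asks for SOME bilinear pairing `Ш¹_S(M*(1)) × Ш²_S(M) → 𝔽_p` that is non-degenerate on both
sides.  For finite-dimensional spaces this is equivalent to the equality of the two dimensions.

* `exists_pairing_of_finrank_eq` : two finite-dimensional spaces of the same dimension carry a
  pairing non-degenerate on both sides.
* `finrank_eq_of_pairing` : the converse (one side finite-dimensional suffices).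
* `exists_sha_pairing_of_finrank_eq` : the conclusion of S55 from finite-dimensionality and
  `finrank Ш¹_S(M*(1)) = finrank Ш²_S(M)`.
-/

set_option autoImplicit false

open CategoryTheory Module groupCohomology ExtCitation

namespace Fermat.Agent.PT.Reduce

section LinearAlgebra

variable {k V W : Type*} [Field k] [AddCommGroup V] [Module k V] [AddCommGroup W] [Module k W]

/-- Two finite-dimensional spaces of equal dimension carry a perfect pairing. -/
theorem exists_pairing_of_finrank_eq [FiniteDimensional k V] [FiniteDimensional k W]
    (h : finrank k V = finrank k W) :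
    ∃ B : V →ₗ[k] W →ₗ[k] k,
      (∀ y, (∀ x, B y x = 0) → y = 0) ∧ (∀ x, (∀ y, B y x = 0) → x = 0) := by
  have h' : finrank k V = finrank k (Module.Dual k W) := by
    rw [h, Subspace.dual_finrank_eq]
  let e : V ≃ₗ[k] Module.Dual k W := LinearEquiv.ofFinrankEq V (Module.Dual k W) h'
  refine ⟨e.toLinearMap, fun y hy => ?_, fun x hx => ?_⟩
  · have : e y = 0 := LinearMap.ext fun x => hy x
    exact e.map_eq_zero_iff.mp this
  · refine (Module.forall_dual_apply_eq_zero_iff k x).mp fun f => ?_
    have h1 := hx (e.symm f)
    rwa [LinearEquiv.coe_coe, LinearEquiv.apply_symm_apply] at h1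

/-- Conversely, a pairing non-degenerate on both sides forces equal dimensions (and transports
finite-dimensionality). -/
theorem finrank_eq_of_pairing [FiniteDimensional k W] (B : V →ₗ[k] W →ₗ[k] k)
    (h1 : ∀ y, (∀ x, B y x = 0) → y = 0) (h2 : ∀ x, (∀ y, B y x = 0) → x = 0) :
    FiniteDimensional k V ∧ finrank k V = finrank k W := by
  have hinj1 : Function.Injective B := by
    rw [injective_iff_map_eq_zero]
    intro y hy
    exact h1 y fun x => by rw [hy]; rfl
  have hinj2 : Function.Injective B.flip := by
    rw [injective_iff_map_eq_zero]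
    intro x hx
    exact h2 x fun y => by
      have := congrArg (fun f => f y) hx
      simpa using this
  have : FiniteDimensional k V := FiniteDimensional.of_injective B hinj1
  refine ⟨inferInstance, le_antisymm ?_ ?_⟩
  · have := LinearMap.finrank_le_finrank_of_injective hinj1
    rwa [Subspace.dual_finrank_eq] at this
  · have := LinearMap.finrank_le_finrank_of_injective hinj2
    rwa [Subspace.dual_finrank_eq] at this

end LinearAlgebra

section S55

/-- The conclusion of S55 from finite-dimensionality of both sides and equality of dimensions. -/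
theorem exists_sha_pairing_of_finrank_eq {p : ℕ} [Fact p.Prime] (S : Finset Nat.Primes)
    (M : Rep (ZMod p) (AlgebraicClosure ℚ ≃ₐ[ℚ] AlgebraicClosure ℚ))
    [FiniteDimensional (ZMod p) (sha₁ S (M.dualTwist (cycloChar p)))]
    [FiniteDimensional (ZMod p) (sha₂ S M)]
    (h : finrank (ZMod p) (sha₁ S (M.dualTwist (cycloChar p))) = finrank (ZMod p) (sha₂ S M)) :
    ∃ B : sha₁ S (M.dualTwist (cycloChar p)) →ₗ[ZMod p] sha₂ S M →ₗ[ZMod p] ZMod p,
      (∀ y, (∀ x, B y x = 0) → y = 0) ∧ (∀ x, (∀ y, B y x = 0) → x = 0) :=
  exists_pairing_of_finrank_eq h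

end S55

end Fermat.Agent.PT.Reduce
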