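import Fermat.Agent.PT.Coh.LevelCx
import Fermat.Agent.PT.Coh.Setup
import Fermat.Agent.PT.DevissageGQ
import Fermat.Agent.PT.LocClosed
import Fermat.Agent.PT.Reduce

/-!
# PT (S55), layer F3: the bridge between the Prelude and the level-cochain complexes of F1

* `levS S : LevelSys G_ℚ` : the levels `Gal(ℚ̄/L)`, `L/ℚ` finite Galois unramified outside `S`;
* `levD D : LevelSys D` (`D ≤ G_ℚ`) : the levels `D ∩ Gal(ℚ̄/F)`, `F/ℚ` finite Galois;
* `isCts_subtype S D : (levS S).IsCts (levD D) D.subtype`; `isSmooth_levS`, `isSmooth_levD`;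
* `isLevelConstantS₁_iff`, `isLevelConstantS₂_iff` : the Prelude's level-constancy is
  `(levS S).IsLevelConst`; `isLevelConst_levD_iff`;
* the low-degree dictionary `to₁`, `to₂`, `to₃`, `from₁`, `from₂` between Mathlib's cochains
  `G → M`, `G × G → M`, `G × G × G → M` and `(Fin n → G) → M`, compatible with the differentials
  (`dLin_zero`, `dLin_to₁`, `dLin_to₂`);
* `h2Equiv : continuousH2S S M ≃ₗ H²((levS S).cx M.ρ)` and
  `h1Equiv : H¹((levS S).cx M.ρ) ≃ₗ continuousH1S S M`;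
* `resD S M hM D` : restriction of level cochains to a subgroup `D`;
  `resD_mapH_h2Equiv_eq_zero_iff`, `resD_mapH_Hπ₁_eq_zero_iff`;
* `shaCx S M hM n` : the kernel of the localisation maps to the decomposition groups at `S` in
  the level complexes; `sha₂Equiv : sha₂ S M ≃ₗ shaCx S M hM 2`,
  `sha₁Equiv : shaCx S A hA 1 ≃ₗ sha₁ S A`;
* `datum S : LocDatum G_ℚ` : the Poitou–Tate datum of `(ℚ, S)` for `PT/Coh/Setup.lean`;
  `shaCx_eq_ker_locH`, `shaCx_eq_range_πc`;
* `exists_sha_pairing_of_shaCx`, `exists_sha_pairing_of_finrank_shaCx` : the conclusion of S55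
  from a perfect pairing (or an equality of dimensions) between `shaCx (M.dualTwist χ) 1` and
  `shaCx M 2`.
-/

set_option autoImplicit false

open CategoryTheory groupCohomology ExtCitation Fermat.Agent.PT.Levels

namespace Fermat.Agent.PT.Bridge

noncomputable section

local notation "Qb" => AlgebraicClosure ℚ
local notation "GQ" => (AlgebraicClosure ℚ ≃ₐ[ℚ] AlgebraicClosure ℚ)

local instance isAlgebraicQbar_br : Algebra.IsAlgebraic ℚ Qb := AlgebraicClosure.isAlgebraic ℚ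
local instance isAlgClosureQbar_br : IsAlgClosure ℚ Qb := ⟨inferInstance, inferInstance⟩
local instance normalQbar_br : Normal ℚ Qb := IsAlgClosure.normal ℚ Qb
local instance isSeparableQbar_br : Algebra.IsSeparable ℚ Qb :=
  Algebra.IsAlgebraic.isSeparable_of_perfectField
local instance isGaloisQbar_br : IsGalois ℚ Qb := ⟨⟩

/-! ### Normality helpers (with the `ℚ`-algebra instance used in `PT/Levels.lean`) -/

theorem normal_bot_Qbar : Normal ℚ (⊥ : IntermediateField ℚ Qb) := by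
  refine IntermediateField.normal_iff_forall_map_le'.mpr fun σ => ?_
  rintro _ ⟨x, hx, rfl⟩
  obtain ⟨r, rfl⟩ := IntermediateField.mem_bot.mp hx
  exact IntermediateField.mem_bot.mpr ⟨r, (σ.commutes r).symm⟩

theorem normal_sup_Qbar (F₁ F₂ : IntermediateField ℚ Qb) (h₁ : Normal ℚ F₁) (h₂ : Normal ℚ F₂) :
    Normal ℚ (F₁ ⊔ F₂ : IntermediateField ℚ Qb) :=
  @IntermediateField.normal_sup ℚ Qb _ _ _ F₁ F₂ h₁ h₂

/-! ### The level systems -/

/-- The `S`-levels of `G_ℚ`: the subgroups `Gal(ℚ̄/L)` for `L/ℚ` finite Galois unramified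
outside `S`. -/
def levS (S : Finset Nat.Primes) : LevelSys GQ where
  lev := {N | ∃ L : IntermediateField ℚ Qb, L.IsUnramifiedOutside S ∧ Normal ℚ L ∧
    L.fixingSubgroup = N}
  nonempty := ⟨(⊥ : IntermediateField ℚ Qb).fixingSubgroup, ⊥,
    IntermediateField.isUnramifiedOutside_bot S, normal_bot_Qbar, rfl⟩
  inter := by
    rintro _ ⟨L₁, h₁, _, rfl⟩ _ ⟨L₂, h₂, _, rfl⟩
    obtain ⟨L, hle, hL, hLn⟩ := exists_normal_level_ge (h₁.sup h₂)
    exact ⟨_, ⟨L, hL, hLn, rfl⟩,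
      le_inf (IntermediateField.fixingSubgroup_antitone (le_sup_left.trans hle))
        (IntermediateField.fixingSubgroup_antitone (le_sup_right.trans hle))⟩
  normal := by
    rintro _ ⟨L, _, hLn, rfl⟩
    exact fixingSubgroup_normal L
  finiteIndex := by
    rintro _ ⟨L, hL, _, rfl⟩
    have := hL.1
    exact DevissageGQ.finiteIndex_fixingSubgroup L

theorem mem_levS_iff (S : Finset Nat.Primes) (N : Subgroup GQ) :
    N ∈ (levS S).lev ↔ ∃ L : IntermediateField ℚ Qb, L.IsUnramifiedOutside S ∧ Normal ℚ L ∧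
      L.fixingSubgroup = N :=
  Iff.rfl

/-- Every level `L` (not necessarily Galois) contains... is contained in a Galois one: there is
an `S`-level subgroup inside `Gal(ℚ̄/L)`. -/
theorem exists_mem_levS_le {S : Finset Nat.Primes} {L : IntermediateField ℚ Qb}
    (hL : L.IsUnramifiedOutside S) : ∃ N ∈ (levS S).lev, N ≤ L.fixingSubgroup := by
  obtain ⟨L', hle, hL', hLn'⟩ := exists_normal_level_ge hL
  exact ⟨_, ⟨L', hL', hLn', rfl⟩, IntermediateField.fixingSubgroup_antitone hle⟩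

/-- All finite levels on a subgroup `D ≤ G_ℚ`: the subgroups `D ∩ Gal(ℚ̄/F)`, `F/ℚ` finite
Galois. -/
def levD (D : Subgroup GQ) : LevelSys D where
  lev := {N | ∃ F : IntermediateField ℚ Qb, FiniteDimensional ℚ F ∧ Normal ℚ F ∧
    F.fixingSubgroup.subgroupOf D = N}
  nonempty := ⟨(⊥ : IntermediateField ℚ Qb).fixingSubgroup.subgroupOf D, ⊥, inferInstance,
    normal_bot_Qbar, rfl⟩
  inter := by
    rintro _ ⟨F₁, _, hn₁, rfl⟩ _ ⟨F₂, _, hn₂, rfl⟩
    refine ⟨_, ⟨F₁ ⊔ F₂, IntermediateField.finiteDimensional_sup F₁ F₂,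
      normal_sup_Qbar F₁ F₂ hn₁ hn₂, rfl⟩, ?_⟩
    rw [IntermediateField.fixingSubgroup_sup]
    exact le_inf (Subgroup.subgroupOf_mono D inf_le_left)
      (Subgroup.subgroupOf_mono D inf_le_right)
  normal := by
    rintro _ ⟨F, _, _, rfl⟩
    have := fixingSubgroup_normal F
    infer_instance
  finiteIndex := by
    rintro _ ⟨F, _, _, rfl⟩
    have := DevissageGQ.finiteIndex_fixingSubgroup F
    infer_instance

theorem mem_levD_iff (D : Subgroup GQ) (N : Subgroup D) :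
    N ∈ (levD D).lev ↔ ∃ F : IntermediateField ℚ Qb, FiniteDimensional ℚ F ∧ Normal ℚ F ∧
      F.fixingSubgroup.subgroupOf D = N :=
  Iff.rfl

/-- Every finite `F/ℚ` gives a level of `D` inside `D ∩ Gal(ℚ̄/F)`. -/
theorem exists_mem_levD_le (D : Subgroup GQ) (F : IntermediateField ℚ Qb)
    [FiniteDimensional ℚ F] : ∃ N ∈ (levD D).lev, N ≤ F.fixingSubgroup.subgroupOf D :=
  ⟨_, ⟨IntermediateField.normalClosure ℚ F Qb, normalClosure.is_finiteDimensional ℚ F Qb,
    normalClosure.normal ℚ F Qb, rfl⟩,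
    Subgroup.subgroupOf_mono D
      (IntermediateField.fixingSubgroup_antitone F.le_normalClosure)⟩

/-- The inclusion `D ≤ G_ℚ` is continuous for the level systems. -/
theorem isCts_subtype (S : Finset Nat.Primes) (D : Subgroup GQ) :
    (levS S).IsCts (levD D) D.subtype := by
  rintro _ ⟨L, hL, hLn, rfl⟩
  have := hL.1
  exact ⟨_, ⟨L, hL.1, hLn, rfl⟩, le_rfl⟩

/-! ### Smoothness -/

section Smooth

variable {k : Type} [CommRing k] (S : Finset Nat.Primes)

/-- A representation trivial on `Gal(ℚ̄/L)` for a level `L` is smooth for `levS S`. -/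
theorem isSmooth_levS (M : Rep.{0} k GQ) {L : IntermediateField ℚ Qb}
    (hL : L.IsUnramifiedOutside S) (hLM : ∀ s ∈ L.fixingSubgroup, M.ρ s = 1) :
    (levS S).IsSmooth M.ρ := by
  intro m
  obtain ⟨N, hN, hle⟩ := exists_mem_levS_le hL
  refine ⟨N, hN, fun s hs => ?_⟩
  rw [hLM s (hle hs)]
  rfl

/-- An `S`-representation is smooth for `levS S`. -/
theorem isSmooth_levS_of_isSRep {p : ℕ} [Fact p.Prime] {M : Rep.{0} (ZMod p) GQ}
    (hM : DevissageGQ.IsSRep p S M) : (levS S).IsSmooth M.ρ := by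
  obtain ⟨_, L, hL, hLM⟩ := hM
  exact isSmooth_levS S M hL hLM

/-- Restriction to a subgroup of a `levS S`-smooth representation is `levD D`-smooth. -/
theorem isSmooth_levD (M : Rep.{0} k GQ) (hM : (levS S).IsSmooth M.ρ) (D : Subgroup GQ) :
    (levD D).IsSmooth (M.ρ.comp D.subtype) :=
  (isCts_subtype S D).isSmooth hM

end Smooth

/-! ### The low-degree dictionary -/

section Dict

variable {G : Type} {X : Type}

/-- `G → X` as a function on `Fin 1 → G`. -/
def to₁ (f : G → X) : (Fin 1 → G) → X := fun g => f (g 0)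

/-- `G × G → X` as a function on `Fin 2 → G`. -/
def to₂ (f : G × G → X) : (Fin 2 → G) → X := fun g => f (g 0, g 1)

/-- `G × G × G → X` as a function on `Fin 3 → G`. -/
def to₃ (f : G × G × G → X) : (Fin 3 → G) → X := fun g => f (g 0, g 1, g 2)

/-- Inverse of `to₁`. -/
def from₁ (F : (Fin 1 → G) → X) : G → X := fun g => F fun _ => g

/-- Inverse of `to₂`. -/
def from₂ (F : (Fin 2 → G) → X) : G × G → X := fun g => F ![g.1, g.2]

@[simp] theorem to₁_apply (f : G → X) (g : Fin 1 → G) : to₁ f g = f (g 0) := rfl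
@[simp] theorem to₂_apply (f : G × G → X) (g : Fin 2 → G) : to₂ f g = f (g 0, g 1) := rfl
@[simp] theorem to₃_apply (f : G × G × G → X) (g : Fin 3 → G) :
    to₃ f g = f (g 0, g 1, g 2) := rfl
@[simp] theorem from₁_apply (F : (Fin 1 → G) → X) (g : G) : from₁ F g = F fun _ => g := rfl
@[simp] theorem from₂_apply (F : (Fin 2 → G) → X) (g : G × G) :
    from₂ F g = F ![g.1, g.2] := rfl

@[simp] theorem from₁_to₁ (f : G → X) : from₁ (to₁ f) = f := rfl

@[simp] theorem to₁_from₁ (F : (Fin 1 → G) → X) : to₁ (from₁ F) = F := by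
  funext g
  show F (fun _ => g 0) = F g
  congr 1
  funext i
  rw [Subsingleton.elim i 0]

@[simp] theorem from₂_to₂ (f : G × G → X) : from₂ (to₂ f) = f := rfl

@[simp] theorem to₂_from₂ (F : (Fin 2 → G) → X) : to₂ (from₂ F) = F := by
  funext g
  show F ![g 0, g 1] = F g
  congr 1
  funext i
  fin_cases i <;> rfl

theorem to₁_injective : Function.Injective (to₁ : (G → X) → _) :=
  Function.LeftInverse.injective from₁_to₁

/-- Left inverse of `to₃`. -/
def from₃ (F : (Fin 3 → G) → X) : G × G × G → X := fun g => F ![g.1, g.2.1, g.2.2]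

theorem from₃_to₃ (f : G × G × G → X) : from₃ (to₃ f) = f := rfl

theorem to₃_injective : Function.Injective (to₃ : (G × G × G → X) → _) :=
  Function.LeftInverse.injective from₃_to₃

theorem to₂_injective : Function.Injective (to₂ : (G × G → X) → _) :=
  Function.LeftInverse.injective from₂_to₂

variable [Group G] {k : Type} [CommRing k] {M : Type} [AddCommGroup M] [Module k M]
  (ρ : Representation k G M)

/-- `d⁰` in low-degree form. -/
theorem dLin_zero (F : (Fin 0 → G) → M) (x : Fin 0 → G) :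
    dLin ρ 0 F = to₁ fun g => ρ g (F x) - F x := by
  funext g
  rw [dLin_apply, to₁_apply]
  show ρ (g 0) (F fun i => g i.succ)
      + ∑ j : Fin 1, (-1 : k) ^ ((j : ℕ) + 1) • F (Fin.contractNth j (· * ·) g)
    = ρ (g 0) (F x) - F x
  have e1 : ((-1 : k) ^ (((0 : Fin 1) : ℕ) + 1)) = -1 := by simp
  rw [Fin.sum_univ_one, e1, neg_smul, one_smul, ← sub_eq_add_neg,
    Subsingleton.elim (fun i : Fin 0 => g i.succ) x,
    Subsingleton.elim (Fin.contractNth 0 (· * ·) g) x]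

/-- `d¹` in low-degree form. -/
theorem dLin_to₁ (y : G → M) :
    dLin ρ 1 (to₁ y) = to₂ fun g => ρ g.1 (y g.2) - y (g.1 * g.2) + y g.1 := by
  funext g
  rw [dLin_apply, to₂_apply, Fin.sum_univ_two]
  simp only [Fin.val_zero, zero_add, pow_one, neg_smul, one_smul, Fin.val_one,
    Nat.one_add, neg_one_sq, sub_eq_add_neg, add_assoc]
  rfl

/-- `d²` in low-degree form. -/
theorem dLin_to₂ (z : G × G → M) :
    dLin ρ 2 (to₂ z) = to₃ fun g =>
      ρ g.1 (z (g.2.1, g.2.2)) - z (g.1 * g.2.1, g.2.2) + z (g.1, g.2.1 * g.2.2)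
        - z (g.1, g.2.1) := by
  funext g
  rw [dLin_apply, to₃_apply, Fin.sum_univ_three]
  simp only [sub_eq_add_neg, add_assoc, Fin.val_zero, zero_add, pow_one, neg_smul,
    one_smul, Fin.val_one, Fin.val_two, pow_succ' (-1 : k) 2, neg_sq, Nat.one_add, one_pow,
    mul_one]
  rfl

end Dict

/-! ### Level-constancy: Prelude versus `levS` -/

section LevelConst

variable (S : Finset Nat.Primes) {X : Type}

theorem isLevelConstantS₁_iff (f : GQ → X) :
    IsLevelConstantS₁ S f ↔ (levS S).IsLevelConst (to₁ f) := by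
  constructor
  · intro hf
    obtain ⟨L, _, hL, hLn, hr, _⟩ :=
      isLevelConstantS₁_exists_normal hf (IntermediateField.isUnramifiedOutside_bot S)
    refine ⟨L.fixingSubgroup, ⟨L, hL, hLn, rfl⟩, fun g g' hgg' => ?_⟩
    have h1 := hr (g 0) _ (hgg' 0)
    rw [mul_inv_cancel_left] at h1
    exact h1.symm
  · rintro ⟨_, ⟨L, hL, _, rfl⟩, h⟩
    refine ⟨L, hL, fun g s hs => ?_⟩
    refine h (fun _ => g * s) (fun _ => g) fun _ => ?_
    have : (g * s)⁻¹ * g = s⁻¹ := by group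
    rw [this]
    exact Subgroup.inv_mem _ hs

theorem isLevelConstantS₂_iff (f : GQ × GQ → X) :
    IsLevelConstantS₂ S f ↔ (levS S).IsLevelConst (to₂ f) := by
  constructor
  · intro hf
    obtain ⟨L, _, hL, hLn, hr, _⟩ :=
      isLevelConstantS₂_exists_normal hf (IntermediateField.isUnramifiedOutside_bot S)
    refine ⟨L.fixingSubgroup, ⟨L, hL, hLn, rfl⟩, fun g g' hgg' => ?_⟩
    have h1 := hr (g 0) (g 1) _ _ (hgg' 0) (hgg' 1)
    rw [mul_inv_cancel_left, mul_inv_cancel_left] at h1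
    exact h1.symm
  · rintro ⟨_, ⟨L, hL, _, rfl⟩, h⟩
    refine ⟨L, hL, fun g g' s s' hs hs' => ?_⟩
    refine h ![g * s, g' * s'] ![g, g'] fun i => ?_
    have e1 : (g * s)⁻¹ * g = s⁻¹ := by group
    have e2 : (g' * s')⁻¹ * g' = s'⁻¹ := by group
    fin_cases i
    · show (g * s)⁻¹ * g ∈ L.fixingSubgroup
      rw [e1]
      exact Subgroup.inv_mem _ hs
    · show (g' * s')⁻¹ * g' ∈ L.fixingSubgroup
      rw [e2]
      exact Subgroup.inv_mem _ hs'

/-- Every function on `Fin 0 → G_ℚ` is level-constant. -/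
theorem isLevelConst_zero {Γ : Type} [Group Γ] (L : LevelSys Γ) (F : (Fin 0 → Γ) → X) :
    L.IsLevelConst F := by
  obtain ⟨N, hN⟩ := L.nonempty
  exact ⟨N, hN, fun g g' _ => congrArg F (Subsingleton.elim _ _)⟩

end LevelConst

/-! ### `H²`: the Prelude's `continuousH2S` is `H²` of the level complex -/

section H2

variable (S : Finset Nat.Primes) {k : Type} [CommRing k] (M : Rep.{0} k GQ)
  (hM : (levS S).IsSmooth M.ρ)

theorem d₂₃_eq (z : GQ × GQ → M) :
    (d₂₃ M).hom z = fun g : GQ × GQ × GQ =>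
      M.ρ g.1 (z (g.2.1, g.2.2)) - z (g.1 * g.2.1, g.2.2) + z (g.1, g.2.1 * g.2.2)
        - z (g.1, g.2.1) :=
  rfl

theorem d₁₂_eq (y : GQ → M) :
    (d₁₂ M).hom y = fun g : GQ × GQ => M.ρ g.1 (y g.2) - y (g.1 * g.2) + y g.1 :=
  rfl

theorem d₀₁_eq (m : M) : (d₀₁ M).hom m = fun g : GQ => M.ρ g m - m :=
  rfl

/-- A level `2`-cocycle of the Prelude as a `2`-cocycle of the level complex. -/
def toZ₂ : levelCocyclesS₂ S M →ₗ[k] ((levS S).cx M.ρ hM).Z 2 where
  toFun z := ⟨⟨to₂ z.1, (isLevelConstantS₂_iff S _).mp z.2.2⟩, by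
    rw [Cx.mem_Z]
    refine Subtype.ext ?_
    show dLin M.ρ 2 (to₂ z.1) = 0
    have h : (d₂₃ M).hom z.1 = 0 := z.2.1
    rw [dLin_to₂, ← d₂₃_eq, h]
    rfl⟩
  map_add' _ _ := rfl
  map_smul' _ _ := rfl

/-- A `2`-cocycle of the level complex as a level `2`-cocycle of the Prelude. -/
def fromZ₂ : ((levS S).cx M.ρ hM).Z 2 →ₗ[k] levelCocyclesS₂ S M where
  toFun Z := ⟨from₂ Z.1.1, by
    refine ⟨?_, (isLevelConstantS₂_iff S _).mpr (by rw [to₂_from₂]; exact Z.1.2)⟩
    show (d₂₃ M).hom (from₂ Z.1.1) = 0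
    have h1 : dLin M.ρ 2 Z.1.1 = 0 := congrArg Subtype.val ((Cx.mem_Z _).mp Z.2)
    have h2 := dLin_to₂ M.ρ (from₂ Z.1.1)
    rw [to₂_from₂, h1, ← d₂₃_eq] at h2
    exact to₃_injective h2.symm⟩
  map_add' _ _ := rfl
  map_smul' _ _ := rfl

/-- The equivalence between the Prelude's level `2`-cocycles and the `2`-cocycles of the level
complex. -/
def equivZ₂ : levelCocyclesS₂ S M ≃ₗ[k] ((levS S).cx M.ρ hM).Z 2 :=
  { toZ₂ S M hM with
    invFun := fromZ₂ S M hM
    left_inv := fun _ => Subtype.ext (from₂_to₂ _)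
    right_inv := fun _ => Subtype.ext (Subtype.ext (to₂_from₂ _)) }

theorem equivZ₂_apply_coe (z : levelCocyclesS₂ S M) :
    ((equivZ₂ S M hM z).1.1 : (Fin 2 → GQ) → M) = to₂ z.1 :=
  rfl

theorem equivZ₂_symm_apply_coe (Z : ((levS S).cx M.ρ hM).Z 2) :
    (((equivZ₂ S M hM).symm Z).1 : GQ × GQ → M) = from₂ Z.1.1 :=
  rfl

theorem map_equivZ₂_coboundaries :
    ((levelCoboundariesS₂ S M).comap (levelCocyclesS₂ S M).subtype).map
        (equivZ₂ S M hM).toLinearMap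
      = (((levS S).cx M.ρ hM).B 2).comap (((levS S).cx M.ρ hM).Z 2).subtype := by
  apply le_antisymm
  · rintro _ ⟨z, hz, rfl⟩
    obtain ⟨y, hy, hyz⟩ := (mem_levelCoboundariesS₂_iff S M _).mp hz
    show ((equivZ₂ S M hM z).1 : ((levS S).cx M.ρ hM).X 2) ∈ ((levS S).cx M.ρ hM).B (1 + 1)
    refine (Cx.mem_B_succ _).mpr ⟨⟨to₁ y, (isLevelConstantS₁_iff S _).mp hy⟩, ?_⟩
    refine Subtype.ext ?_
    show dLin M.ρ 1 (to₁ y) = to₂ z.1
    rw [dLin_to₁, ← d₁₂_eq, hyz]
    rfl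
  · intro Z hZ
    have hZ' : (Z.1 : ((levS S).cx M.ρ hM).X 2) ∈ ((levS S).cx M.ρ hM).B (1 + 1) := hZ
    obtain ⟨Y, hY⟩ := (Cx.mem_B_succ _).mp hZ'
    refine ⟨(equivZ₂ S M hM).symm Z, ?_, (equivZ₂ S M hM).apply_symm_apply Z⟩
    show (((equivZ₂ S M hM).symm Z).1 : GQ × GQ → M) ∈ levelCoboundariesS₂ S M
    refine (mem_levelCoboundariesS₂_iff S M _).mpr
      ⟨from₁ Y.1, (isLevelConstantS₁_iff S _).mpr (by rw [to₁_from₁]; exact Y.2), ?_⟩
    have h1 : dLin M.ρ 1 Y.1 = Z.1.1 := congrArg Subtype.val hY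
    have h2 := dLin_to₁ M.ρ (from₁ Y.1)
    rw [to₁_from₁, h1, ← d₁₂_eq] at h2
    rw [equivZ₂_symm_apply_coe, h2]
    rfl

/-- **The bridge in degree 2**: the Prelude's `continuousH2S S M` is `H²` of the level-cochain
complex of `levS S`. -/
def h2Equiv : continuousH2S S M ≃ₗ[k] ((levS S).cx M.ρ hM).H 2 :=
  Submodule.Quotient.equiv _ _ (equivZ₂ S M hM) (map_equivZ₂_coboundaries S M hM)

theorem h2Equiv_π (z : levelCocyclesS₂ S M) :
    h2Equiv S M hM (continuousH2Sπ S M z) = ((levS S).cx M.ρ hM).Hπ 2 (equivZ₂ S M hM z) :=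
  rfl

end H2

/-! ### `H¹`: the Prelude's `continuousH1S` is `H¹` of the level complex -/

section H1

variable (S : Finset Nat.Primes) {k : Type} [CommRing k] (M : Rep.{0} k GQ)
  (hM : (levS S).IsSmooth M.ρ)

/-- A `1`-cocycle of the level complex as a `1`-cocycle of Mathlib. -/
def fromZ₁ : ((levS S).cx M.ρ hM).Z 1 →ₗ[k] cocycles₁ M where
  toFun Y := ⟨from₁ Y.1.1, by
    show (d₁₂ M).hom (from₁ Y.1.1) = 0
    have h1 : dLin M.ρ 1 Y.1.1 = 0 := congrArg Subtype.val ((Cx.mem_Z _).mp Y.2)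
    have h2 := dLin_to₁ M.ρ (from₁ Y.1.1)
    rw [to₁_from₁, h1, ← d₁₂_eq] at h2
    exact to₂_injective h2.symm⟩
  map_add' _ _ := rfl
  map_smul' _ _ := rfl

theorem fromZ₁_coe (Y : ((levS S).cx M.ρ hM).Z 1) :
    ((fromZ₁ S M hM Y : cocycles₁ M) : GQ → M) = from₁ Y.1.1 :=
  rfl

theorem isLevelConstantS₁_fromZ₁ (Y : ((levS S).cx M.ρ hM).Z 1) :
    IsLevelConstantS₁ S ((fromZ₁ S M hM Y : cocycles₁ M) : GQ → M) := by
  rw [fromZ₁_coe, isLevelConstantS₁_iff, to₁_from₁]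
  exact Y.1.2

/-- A level-constant `1`-cocycle as a `1`-cocycle of the level complex. -/
def toZ₁ (c : cocycles₁ M) (hc : IsLevelConstantS₁ S (c : GQ → M)) :
    ((levS S).cx M.ρ hM).Z 1 :=
  ⟨⟨to₁ c, (isLevelConstantS₁_iff S _).mp hc⟩, by
    rw [Cx.mem_Z]
    refine Subtype.ext ?_
    show dLin M.ρ 1 (to₁ c) = 0
    have h : (d₁₂ M).hom c = 0 := c.2
    rw [dLin_to₁, ← d₁₂_eq, h]
    rfl⟩

theorem fromZ₁_toZ₁ (c : cocycles₁ M) (hc : IsLevelConstantS₁ S (c : GQ → M)) :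
    fromZ₁ S M hM (toZ₁ S M hM c hc) = c :=
  Subtype.ext rfl

/-- The class map `Z¹(level complex) → H¹(G_ℚ, M)`. -/
def classMap₁ : ((levS S).cx M.ρ hM).Z 1 →ₗ[k] H1 M :=
  (H1π M).hom ∘ₗ fromZ₁ S M hM

theorem classMap₁_apply (Y : ((levS S).cx M.ρ hM).Z 1) :
    classMap₁ S M hM Y = (H1π M).hom (fromZ₁ S M hM Y) :=
  rfl

theorem ker_classMap₁ :
    LinearMap.ker (classMap₁ S M hM)
      = (((levS S).cx M.ρ hM).B 1).comap (((levS S).cx M.ρ hM).Z 1).subtype := by
  ext Y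
  rw [LinearMap.mem_ker, classMap₁_apply]
  erw [H1π_eq_zero_iff]
  rw [Submodule.mem_comap]
  show ((fromZ₁ S M hM Y : cocycles₁ M) : GQ → M) ∈ coboundaries₁ M ↔
    (Y.1 : ((levS S).cx M.ρ hM).X 1) ∈ ((levS S).cx M.ρ hM).B (0 + 1)
  rw [Cx.mem_B_succ, fromZ₁_coe]
  constructor
  · rintro ⟨m, hm⟩
    refine ⟨⟨fun _ => m, isLevelConst_zero _ _⟩, Subtype.ext ?_⟩
    show dLin M.ρ 0 (fun _ => m) = Y.1.1
    have hm' : (d₀₁ M).hom m = from₁ Y.1.1 := hm
    rw [dLin_zero M.ρ _ default, ← d₀₁_eq, hm', to₁_from₁]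
  · rintro ⟨F, hF⟩
    refine ⟨F.1 default, ?_⟩
    have h1 : dLin M.ρ 0 F.1 = Y.1.1 := congrArg Subtype.val hF
    rw [dLin_zero M.ρ _ default, ← d₀₁_eq] at h1
    show (d₀₁ M).hom (F.1 default) = from₁ Y.1.1
    exact congrArg from₁ h1

theorem range_classMap₁ : LinearMap.range (classMap₁ S M hM) = continuousH1S S M := by
  ext x
  rw [mem_continuousH1S_iff]
  constructor
  · rintro ⟨Y, rfl⟩
    exact ⟨fromZ₁ S M hM Y, isLevelConstantS₁_fromZ₁ S M hM Y, rfl⟩
  · rintro ⟨c, hc, rfl⟩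
    exact ⟨toZ₁ S M hM c hc, by rw [classMap₁_apply, fromZ₁_toZ₁]⟩

/-- **The bridge in degree 1**: `H¹` of the level-cochain complex of `levS S` is the Prelude's
`continuousH1S S M ≤ H¹(G_ℚ, M)`. -/
def h1Equiv : ((levS S).cx M.ρ hM).H 1 ≃ₗ[k] continuousH1S S M :=
  (Submodule.quotEquivOfEq _ _ (ker_classMap₁ S M hM).symm).trans
    ((classMap₁ S M hM).quotKerEquivRange.trans
      (LinearEquiv.ofEq _ _ (range_classMap₁ S M hM)))

theorem h1Equiv_π (Y : ((levS S).cx M.ρ hM).Z 1) :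
    ((h1Equiv S M hM (((levS S).cx M.ρ hM).Hπ 1 Y) : continuousH1S S M) : H1 M)
      = (H1π M).hom (fromZ₁ S M hM Y) :=
  rfl

end H1

/-! ### Local conditions: restriction to a subgroup `D ≤ G_ℚ` -/

section Local

variable (S : Finset Nat.Primes) {k : Type} [CommRing k] (M : Rep.{0} k GQ)
  (hM : (levS S).IsSmooth M.ρ) (D : Subgroup GQ)

/-- Level-constancy for `levD D` in elementary terms. -/
theorem isLevelConst_levD_iff {X : Type} (y : D → X) :
    (levD D).IsLevelConst (to₁ y) ↔ ∃ F : IntermediateField ℚ Qb, FiniteDimensional ℚ F ∧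
      ∀ g s : D, (s : GQ) ∈ F.fixingSubgroup → y (g * s) = y g := by
  constructor
  · rintro ⟨_, ⟨F, hF, _, rfl⟩, h⟩
    refine ⟨F, hF, fun g s hs => ?_⟩
    refine h (fun _ => g * s) (fun _ => g) fun _ => ?_
    have e : (g * s)⁻¹ * g = s⁻¹ := by group
    rw [e]
    exact Subgroup.inv_mem _ (Subgroup.mem_subgroupOf.mpr hs)
  · rintro ⟨F, hF, h⟩
    obtain ⟨N, hN, hle⟩ := exists_mem_levD_le D F
    refine ⟨N, hN, fun g g' hgg' => ?_⟩
    have h1 := h (g 0) _ (Subgroup.mem_subgroupOf.mp (hle (hgg' 0)))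
    rw [mul_inv_cancel_left] at h1
    exact h1.symm

/-- Restriction of level cochains from `G_ℚ` (levels `levS S`) to a subgroup `D` (all finite
levels). -/
def resD : Cx.Hom ((levS S).cx M.ρ hM)
    ((levD D).cx (M.ρ.comp D.subtype) (isSmooth_levD S M hM D)) :=
  (levS S).res (levD D) (isCts_subtype S D) M.ρ hM (isSmooth_levD S M hM D)

theorem resD_apply (n : ℕ) (f : ((levS S).cx M.ρ hM).X n) (g : Fin n → D) :
    ((resD S M hM D).f n f).1 g = f.1 (D.subtype ∘ g) :=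
  rfl

/-- **Degree 2**: the Prelude's localisation `locRes₂S` to a subgroup `D` vanishes on a class iff
the restriction of the corresponding class of the level complex vanishes. -/
theorem resD_mapH_h2Equiv_eq_zero_iff (x : continuousH2S S M) :
    (resD S M hM D).mapH 2 (h2Equiv S M hM x) = 0 ↔ locRes₂S S M D.subtype x = 0 := by
  classical
  obtain ⟨z, rfl⟩ := Fermat.Agent.PT.continuousH2Sπ_surjective S M x
  rw [h2Equiv_π, Cx.Hom.mapH_Hπ, Cx.Hπ_eq_zero_iff,
    Fermat.Agent.PT.LocImage.locRes₂S_subtype_π_eq_zero_iff]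
  show (((resD S M hM D).mapZ 2 (equivZ₂ S M hM z)).1 :
      ((levD D).cx (M.ρ.comp D.subtype) (isSmooth_levD S M hM D)).X 2)
        ∈ ((levD D).cx (M.ρ.comp D.subtype) (isSmooth_levD S M hM D)).B (1 + 1) ↔ _
  rw [Cx.mem_B_succ]
  constructor
  · rintro ⟨Y, hY⟩
    obtain ⟨F, hF, hy⟩ := (isLevelConst_levD_iff D (from₁ Y.1)).mp
      (by rw [to₁_from₁]; exact Y.2)
    have h1 : dLin (M.ρ.comp D.subtype) 1 Y.1
        = fun g : Fin 2 → D => (z : GQ × GQ → M) ((g 0 : GQ), (g 1 : GQ)) :=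
      congrArg Subtype.val hY
    have h2 := dLin_to₁ (M.ρ.comp D.subtype) (from₁ Y.1)
    rw [to₁_from₁, h1] at h2
    refine ⟨fun g => if hg : g ∈ D then from₁ Y.1 ⟨g, hg⟩ else 0, ⟨F, hF, ?_⟩, ?_⟩
    · intro g hg s hs hsF
      simp only [dif_pos (mul_mem hg hs), dif_pos hg]
      exact hy ⟨g, hg⟩ ⟨s, hs⟩ hsF
    · intro g hg h hh
      simp only [dif_pos (mul_mem hg hh), dif_pos hg, dif_pos hh]
      exact congrFun h2 ![⟨g, hg⟩, ⟨h, hh⟩]
  · rintro ⟨y, ⟨F, hF, hy⟩, hz⟩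
    refine ⟨⟨to₁ fun d : D => y d, (isLevelConst_levD_iff D _).mpr
      ⟨F, hF, fun g s hs => hy g g.2 s s.2 hs⟩⟩, Subtype.ext ?_⟩
    show dLin (M.ρ.comp D.subtype) 1 (to₁ fun d : D => y d)
      = fun g : Fin 2 → D => (z : GQ × GQ → M) ((g 0 : GQ), (g 1 : GQ))
    rw [dLin_to₁]
    funext g
    exact (hz (g 0) (g 0).2 (g 1) (g 1).2).symm

/-- **`Ш²` through the level complexes**: a class of `continuousH2S S M` lies in `Ш²_S(M)` iff
the corresponding class of `H²` of the level complex restricts to zero on the decomposition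
groups at the primes of `S`. -/
theorem mem_sha₂_iff_res (h2 : IsUnit (2 : k)) (x : continuousH2S S M) :
    x ∈ sha₂ S M ↔ ∀ q ∈ S,
      (resD S M hM ((primeLocalPlace q).decompositionSubgroup ℚ)).mapH 2
        (h2Equiv S M hM x) = 0 := by
  rw [Fermat.Agent.PT.LocClosed.mem_sha₂_iff_decomposition S M h2]
  exact forall₂_congr fun q _ => (resD_mapH_h2Equiv_eq_zero_iff S M hM _ x).symm

end Local

/-! ### Degree 1 local conditions and `Ш¹` -/

section LocalH1

variable (S : Finset Nat.Primes) {k : Type} [CommRing k] (M : Rep.{0} k GQ)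
  (hM : (levS S).IsSmooth M.ρ) (D : Subgroup GQ)

/-- **Degree 1**: the restriction to `D` of the class of a `1`-cocycle of the level complex
vanishes iff the cocycle is a coboundary on `D`. -/
theorem resD_mapH_Hπ₁_eq_zero_iff (Y : ((levS S).cx M.ρ hM).Z 1) :
    (resD S M hM D).mapH 1 (((levS S).cx M.ρ hM).Hπ 1 Y) = 0 ↔
      ∃ m : M, ∀ d ∈ D, ((fromZ₁ S M hM Y : cocycles₁ M) : GQ → M) d = M.ρ d m - m := by
  rw [Cx.Hom.mapH_Hπ, Cx.Hπ_eq_zero_iff]
  show (((resD S M hM D).mapZ 1 Y).1 :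
      ((levD D).cx (M.ρ.comp D.subtype) (isSmooth_levD S M hM D)).X 1)
        ∈ ((levD D).cx (M.ρ.comp D.subtype) (isSmooth_levD S M hM D)).B (0 + 1) ↔ _
  rw [Cx.mem_B_succ]
  constructor
  · rintro ⟨F, hF⟩
    have h1 : dLin (M.ρ.comp D.subtype) 0 F.1
        = fun g : Fin 1 → D => Y.1.1 (D.subtype ∘ g) :=
      congrArg Subtype.val hF
    rw [dLin_zero (M.ρ.comp D.subtype) F.1 default] at h1
    refine ⟨F.1 default, fun d hd => ?_⟩
    exact (congrFun h1 (fun _ => ⟨d, hd⟩)).symm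
  · rintro ⟨m, hm⟩
    refine ⟨⟨fun _ => m, isLevelConst_zero _ _⟩, Subtype.ext ?_⟩
    show dLin (M.ρ.comp D.subtype) 0 (fun _ => m) = fun g : Fin 1 → D => Y.1.1 (D.subtype ∘ g)
    rw [dLin_zero (M.ρ.comp D.subtype) _ default]
    funext g
    have h1 := hm (g 0) (g 0).2
    rw [to₁_apply]
    show M.ρ (g 0 : GQ) m - m = Y.1.1 (D.subtype ∘ g)
    rw [← h1, fromZ₁_coe, from₁_apply]
    refine congrArg Y.1.1 (funext fun i => ?_)
    rw [Subsingleton.elim i 0]
    rfl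

end LocalH1

section Sha1

variable (S : Finset Nat.Primes) {K : Type} [Field K] (A : Rep.{0} K GQ)
  (hA : (levS S).IsSmooth A.ρ)

/-- **`Ш¹` through the level complexes**: the class in `H¹(G_ℚ, A)` attached to a class `ξ` of
`H¹` of the level complex lies in `Ш¹_S(A)` iff `ξ` restricts to zero on the decomposition groups
at the primes of `S`. -/
theorem h1Equiv_mem_sha₁_iff (h2 : (2 : K) ≠ 0) (ξ : ((levS S).cx A.ρ hA).H 1) :
    ((h1Equiv S A hA ξ : continuousH1S S A) : H1 A) ∈ sha₁ S A ↔ ∀ q ∈ S,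
      (resD S A hA ((primeLocalPlace q).decompositionSubgroup ℚ)).mapH 1 ξ = 0 := by
  obtain ⟨Y, rfl⟩ := ((levS S).cx A.ρ hA).Hπ_surjective 1 ξ
  rw [h1Equiv_π, Fermat.Agent.PT.Arch.mem_sha₁_iff S A h2]
  constructor
  · rintro ⟨_, hloc⟩ q hq
    rw [resD_mapH_Hπ₁_eq_zero_iff, ← Fermat.Agent.PT.LocClosed.localGroup_eq_decompositionSubgroup]
    exact (Fermat.Agent.PT.LocImage.locRes_H1π_eq_zero_iff_range A (extArithLoc S)
      (fromZ₁ S A hA Y) (Sum.inr ⟨q, hq⟩)).1 (hloc ⟨q, hq⟩)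
  · intro hres
    refine ⟨(mem_continuousH1S_iff S A _).2
      ⟨fromZ₁ S A hA Y, isLevelConstantS₁_fromZ₁ S A hA Y, rfl⟩, fun q => ?_⟩
    refine (Fermat.Agent.PT.LocImage.locRes_H1π_eq_zero_iff_range A (extArithLoc S)
      (fromZ₁ S A hA Y) (Sum.inr q)).2 ?_
    have h := (resD_mapH_Hπ₁_eq_zero_iff S A hA _ Y).1 (hres q.1 q.2)
    rw [← Fermat.Agent.PT.LocClosed.localGroup_eq_decompositionSubgroup] at h
    exact h

end Sha1

/-! ### `Ш¹`, `Ш²` as kernels of the localisation maps of the level complexes -/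

section ShaCx

variable (S : Finset Nat.Primes) {k : Type} [CommRing k] (M : Rep.{0} k GQ)
  (hM : (levS S).IsSmooth M.ρ)

/-- The kernel of the localisation maps `H^n(G_ℚ, levS S; M) → ∏_{q ∈ S} H^n(D_q; M)` in the
level complexes. -/
def shaCx (n : ℕ) : Submodule k (((levS S).cx M.ρ hM).H n) :=
  ⨅ q : ↥S, LinearMap.ker
    ((resD S M hM ((primeLocalPlace q.1).decompositionSubgroup ℚ)).mapH n)

theorem mem_shaCx_iff (n : ℕ) (ξ : ((levS S).cx M.ρ hM).H n) :
    ξ ∈ shaCx S M hM n ↔ ∀ q ∈ S,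
      (resD S M hM ((primeLocalPlace q).decompositionSubgroup ℚ)).mapH n ξ = 0 := by
  simp only [shaCx, Submodule.mem_iInf, LinearMap.mem_ker, Subtype.forall]

/-- **`Ш²_S(M)` is the kernel of the localisation maps in degree 2 of the level complexes.** -/
def sha₂Equiv (h2 : IsUnit (2 : k)) : sha₂ S M ≃ₗ[k] shaCx S M hM 2 :=
  ((h2Equiv S M hM).submoduleMap (sha₂ S M)).trans
    (LinearEquiv.ofEq _ _ (by
      ext ξ
      rw [mem_shaCx_iff, Submodule.mem_map]
      constructor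
      · rintro ⟨x, hx, rfl⟩
        exact (mem_sha₂_iff_res S M hM h2 x).mp hx
      · intro h
        refine ⟨(h2Equiv S M hM).symm ξ, (mem_sha₂_iff_res S M hM h2 _).mpr ?_,
          (h2Equiv S M hM).apply_symm_apply ξ⟩
        rw [(h2Equiv S M hM).apply_symm_apply]
        exact h))

theorem sha₂Equiv_apply (h2 : IsUnit (2 : k)) (x : sha₂ S M) :
    ((sha₂Equiv S M hM h2 x : shaCx S M hM 2) : ((levS S).cx M.ρ hM).H 2)
      = h2Equiv S M hM x.1 :=
  rfl

end ShaCx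

section ShaCx1

variable (S : Finset Nat.Primes) {K : Type} [Field K] (A : Rep.{0} K GQ)
  (hA : (levS S).IsSmooth A.ρ)

/-- The map `Ш¹(level complexes) → H¹(G_ℚ, A)`. -/
def shaCx₁ToH1 : shaCx S A hA 1 →ₗ[K] H1 A :=
  (continuousH1S S A).subtype ∘ₗ (h1Equiv S A hA).toLinearMap ∘ₗ (shaCx S A hA 1).subtype

theorem shaCx₁ToH1_apply (ξ : shaCx S A hA 1) :
    shaCx₁ToH1 S A hA ξ = ((h1Equiv S A hA ξ.1 : continuousH1S S A) : H1 A) :=
  rfl

theorem shaCx₁ToH1_injective : Function.Injective (shaCx₁ToH1 S A hA) := by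
  intro ξ ξ' h
  rw [shaCx₁ToH1_apply, shaCx₁ToH1_apply] at h
  exact Subtype.ext ((h1Equiv S A hA).injective (Subtype.ext h))

theorem range_shaCx₁ToH1 (h2 : (2 : K) ≠ 0) :
    LinearMap.range (shaCx₁ToH1 S A hA) = sha₁ S A := by
  ext x
  constructor
  · rintro ⟨ξ, rfl⟩
    rw [shaCx₁ToH1_apply, h1Equiv_mem_sha₁_iff S A hA h2]
    exact (mem_shaCx_iff S A hA 1 ξ.1).mp ξ.2
  · intro hx
    have hx1 : x ∈ continuousH1S S A := hx.1
    set ξ := (h1Equiv S A hA).symm ⟨x, hx1⟩ with hξ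
    have e : ((h1Equiv S A hA ξ : continuousH1S S A) : H1 A) = x := by
      rw [hξ, (h1Equiv S A hA).apply_symm_apply]
    refine ⟨⟨ξ, (mem_shaCx_iff S A hA 1 ξ).mpr ?_⟩, e⟩
    rw [← h1Equiv_mem_sha₁_iff S A hA h2, e]
    exact hx

/-- **`Ш¹_S(A)` is the kernel of the localisation maps in degree 1 of the level complexes.** -/
def sha₁Equiv (h2 : (2 : K) ≠ 0) : shaCx S A hA 1 ≃ₗ[K] sha₁ S A :=
  (LinearEquiv.ofInjective (shaCx₁ToH1 S A hA) (shaCx₁ToH1_injective S A hA)).trans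
    (LinearEquiv.ofEq _ _ (range_shaCx₁ToH1 S A hA h2))

theorem sha₁Equiv_apply (h2 : (2 : K) ≠ 0) (ξ : shaCx S A hA 1) :
    ((sha₁Equiv S A hA h2 ξ : sha₁ S A) : H1 A)
      = ((h1Equiv S A hA ξ.1 : continuousH1S S A) : H1 A) :=
  rfl

end ShaCx1

/-! ### The Poitou–Tate datum of `(ℚ, S)` -/

section Datum

variable (S : Finset Nat.Primes)

/-- **The Poitou–Tate datum of `(ℚ, S)`** (F-setup of `PT/Coh/Setup.lean`): global levels
`levS S`, local groups the decomposition groups `D_q` of the Prelude's places at the primes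
`q ∈ S`, with all finite levels. -/
abbrev datum : LocDatum GQ where
  L := levS S
  ι := ↥S
  D q := (primeLocalPlace q.1).decompositionSubgroup ℚ
  Lv _ := levD _
  cts _ := isCts_subtype S _

theorem datum_L : (datum S).L = levS S := rfl

theorem datum_D (q : ↥S) :
    (datum S).D q = (primeLocalPlace q.1).decompositionSubgroup ℚ := rfl

variable {k : Type} [CommRing k] (M : Rep.{0} k GQ) (hM : (levS S).IsSmooth M.ρ)

theorem datum_resv (q : ↥S) :
    (datum S).resv M.ρ hM q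
      = resD S M hM ((primeLocalPlace q.1).decompositionSubgroup ℚ) := rfl

/-- `shaCx` is the kernel of the localisation map `H^n → ∏_v H^n_v` of the datum. -/
theorem shaCx_eq_ker_locH (n : ℕ) :
    shaCx S M hM n = LinearMap.ker ((datum S).locH M.ρ hM n) := by
  ext ξ
  constructor
  · intro h
    have h' := (mem_shaCx_iff S M hM n ξ).mp h
    exact LinearMap.mem_ker.mpr (funext fun q => h' q.1 q.2)
  · intro h
    refine (mem_shaCx_iff S M hM n ξ).mpr fun q hq => ?_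
    exact congrFun (LinearMap.mem_ker.mp h) ⟨q, hq⟩

/-- `Ш^n` of the level complexes is the image of `H^n_c → H^n`. -/
theorem shaCx_eq_range_πc (n : ℕ) :
    shaCx S M hM n = LinearMap.range ((datum S).πc M.ρ hM n) := by
  rw [shaCx_eq_ker_locH]
  exact LinearMap.exact_iff.mp ((datum S).exact_πc_locH M.ρ hM n)

end Datum

/-! ### The final reduction of S55 to the level complexes -/

section Final

variable {p : ℕ} [Fact p.Prime] (S : Finset Nat.Primes)

theorem two_ne_zero_of_ne_two (hp2 : p ≠ 2) : (2 : ZMod p) ≠ 0 := by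
  have hp : p.Prime := Fact.out
  intro h
  have h1 : ((2 : ℕ) : ZMod p) = 0 := by exact_mod_cast h
  rw [ZMod.natCast_eq_zero_iff] at h1
  exact hp2 ((Nat.prime_dvd_prime_iff_eq hp Nat.prime_two).mp h1)

/-- Under the hypotheses of S55, `M` is smooth for `levS S`. -/
theorem isSmooth_of_smooth_unramified (M : Rep.{0} (ZMod p) GQ) [Module.Finite (ZMod p) M]
    (hsm : ∀ m : M, ∃ F : IntermediateField ℚ Qb, FiniteDimensional ℚ F ∧
      ∀ s ∈ F.fixingSubgroup, M.ρ s m = m)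
    (hMur : ∀ q : Nat.Primes, q ∉ S → ∀ A : ValuationSubring Qb,
      A.LiesOverPrime (q : ℕ) → ∀ g ∈ A.inertiaSubgroupIn ℚ, M.ρ g = 1) :
    (levS S).IsSmooth M.ρ :=
  isSmooth_levS_of_isSRep S (DevissageGQ.isSRep_of_smooth_unramified p S M hsm hMur)

/-- Under the hypotheses of S55, `M.dualTwist (cycloChar p)` is smooth for `levS S`. -/
theorem isSmooth_dualTwist_of_smooth_unramified (hpS : pPrime p ∈ S)
    (M : Rep.{0} (ZMod p) GQ) [Module.Finite (ZMod p) M]
    (hsm : ∀ m : M, ∃ F : IntermediateField ℚ Qb, FiniteDimensional ℚ F ∧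
      ∀ s ∈ F.fixingSubgroup, M.ρ s m = m)
    (hMur : ∀ q : Nat.Primes, q ∉ S → ∀ A : ValuationSubring Qb,
      A.LiesOverPrime (q : ℕ) → ∀ g ∈ A.inertiaSubgroupIn ℚ, M.ρ g = 1) :
    (levS S).IsSmooth (M.dualTwist (cycloChar p)).ρ :=
  isSmooth_levS_of_isSRep S
    ((DevissageGQ.isSRep_of_smooth_unramified p S M hsm hMur).dualTwist p S hpS)

/-- Transport of a pairing, non-degenerate on both sides, along linear equivalences. -/
theorem exists_pairing_transport {R V W V' W' : Type*} [CommRing R] [AddCommGroup V]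
    [Module R V] [AddCommGroup W] [Module R W] [AddCommGroup V'] [Module R V'] [AddCommGroup W']
    [Module R W'] (e₁ : V ≃ₗ[R] V') (e₂ : W' ≃ₗ[R] W) (B : V →ₗ[R] W →ₗ[R] R)
    (h1 : ∀ y, (∀ x, B y x = 0) → y = 0) (h2 : ∀ x, (∀ y, B y x = 0) → x = 0) :
    ∃ B' : V' →ₗ[R] W' →ₗ[R] R,
      (∀ y, (∀ x, B' y x = 0) → y = 0) ∧ (∀ x, (∀ y, B' y x = 0) → x = 0) := by
  refine ⟨B.compl₁₂ e₁.symm.toLinearMap e₂.toLinearMap, fun y hy => ?_, fun x hx => ?_⟩
  · have h3 : e₁.symm y = 0 := h1 _ fun x => by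
      have := hy (e₂.symm x)
      rwa [LinearMap.compl₁₂_apply, LinearEquiv.coe_coe, LinearEquiv.coe_coe,
        LinearEquiv.apply_symm_apply] at this
    exact e₁.symm.map_eq_zero_iff.mp h3
  · have h3 : e₂ x = 0 := h2 _ fun y => by
      have := hx (e₁ y)
      rwa [LinearMap.compl₁₂_apply, LinearEquiv.coe_coe, LinearEquiv.coe_coe,
        LinearEquiv.symm_apply_apply] at this
    exact e₂.map_eq_zero_iff.mp h3

/-- **Final reduction (F8 interface).**  The conclusion of S55 follows from a pairing between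
`Ш¹` of the level complexes of `M.dualTwist χ` and `Ш²` of the level complexes of `M` which is
non-degenerate on both sides. -/
theorem exists_sha_pairing_of_shaCx (hp2 : p ≠ 2) (M : Rep.{0} (ZMod p) GQ)
    (hM : (levS S).IsSmooth M.ρ) (hM' : (levS S).IsSmooth (M.dualTwist (cycloChar p)).ρ)
    (B : shaCx S (M.dualTwist (cycloChar p)) hM' 1 →ₗ[ZMod p] shaCx S M hM 2 →ₗ[ZMod p] ZMod p)
    (h1 : ∀ y, (∀ x, B y x = 0) → y = 0) (h2 : ∀ x, (∀ y, B y x = 0) → x = 0) :
    ∃ B' : sha₁ S (M.dualTwist (cycloChar p)) →ₗ[ZMod p] sha₂ S M →ₗ[ZMod p] ZMod p,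
      (∀ y, (∀ x, B' y x = 0) → y = 0) ∧ (∀ x, (∀ y, B' y x = 0) → x = 0) :=
  exists_pairing_transport
    (sha₁Equiv S (M.dualTwist (cycloChar p)) hM' (two_ne_zero_of_ne_two hp2))
    (sha₂Equiv S M hM (isUnit_iff_ne_zero.mpr (two_ne_zero_of_ne_two hp2))) B h1 h2

/-- The same with an equality of dimensions instead of a pairing. -/
theorem exists_sha_pairing_of_finrank_shaCx (hp2 : p ≠ 2) (M : Rep.{0} (ZMod p) GQ)
    (hM : (levS S).IsSmooth M.ρ) (hM' : (levS S).IsSmooth (M.dualTwist (cycloChar p)).ρ)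
    [FiniteDimensional (ZMod p) (shaCx S (M.dualTwist (cycloChar p)) hM' 1)]
    [FiniteDimensional (ZMod p) (shaCx S M hM 2)]
    (h : Module.finrank (ZMod p) (shaCx S (M.dualTwist (cycloChar p)) hM' 1)
      = Module.finrank (ZMod p) (shaCx S M hM 2)) :
    ∃ B' : sha₁ S (M.dualTwist (cycloChar p)) →ₗ[ZMod p] sha₂ S M →ₗ[ZMod p] ZMod p,
      (∀ y, (∀ x, B' y x = 0) → y = 0) ∧ (∀ x, (∀ y, B' y x = 0) → x = 0) := by
  obtain ⟨B, h1, h2⟩ := Fermat.Agent.PT.Reduce.exists_pairing_of_finrank_eq h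
  exact exists_sha_pairing_of_shaCx S hp2 M hM hM' B h1 h2

end Final

end

end Fermat.Agent.PT.Bridge
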