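import Fermat.Agent.PT.Bridge

/-!
# PT (S55): dévissage for the cohomology of the concrete datum

The formal engine of the Poitou–Tate project quantifies over all finite-dimensional smooth
representations `(M, ρ)` of `G_ℚ` for the datum `Bridge.datum S`, whereas the arithmetic (BASE)
only produces statements about the permutation modules `X_K = coind_{G_K}^{G_ℚ} 𝔽_p` for the
levels `K ⊇ μ_p`.  This file provides the passage for every property of a single cohomology
group which is inherited by quotients and by the middle term of an exact sequence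
(`Module.Finite`, `Subsingleton`):

* `isSRep_of_isSmooth` : finite-dimensional + smooth for `levS S` ⇒ `IsSRep` (the converse is
  `Bridge.isSmooth_levS_of_isSRep`);
* `devissage_smooth` : `DevissageGQ.devissage_GQ` for properties indexed by a smoothness proof,
  with conclusion for unbundled `(M, ρ)`;
* `mapCoeff_mapH_retract`, `of_retract`, `of_ext` : retracts and extensions for level cohomology;
* `finite_H_of_base`, `subsingleton_H_of_base`, `finite_Hv_of_base`, `subsingleton_Hv_of_base`.
-/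

set_option autoImplicit false

open CategoryTheory ExtCitation Fermat.Agent.PT.Levels Fermat.Agent.PT.Bridge

namespace Fermat.Agent.PT.DevInst

local notation "Qb" => AlgebraicClosure ℚ
local notation "GQ" => (AlgebraicClosure ℚ ≃ₐ[ℚ] AlgebraicClosure ℚ)

/-! ### Linear algebra -/

/-- The middle term of an exact sequence of vector spaces with finite-dimensional ends is
finite-dimensional. -/
theorem finite_of_exact {k V₁ V₂ V₃ : Type*} [Field k] [AddCommGroup V₁] [Module k V₁]
    [AddCommGroup V₂] [Module k V₂] [AddCommGroup V₃] [Module k V₃] (f : V₁ →ₗ[k] V₂)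
    (g : V₂ →ₗ[k] V₃) (h : Function.Exact f g) (h₁ : Module.Finite k V₁)
    (h₃ : Module.Finite k V₃) : Module.Finite k V₂ := by
  have hker : Module.Finite k (LinearMap.ker g) := by
    rw [LinearMap.exact_iff.mp h]
    exact Module.Finite.range f
  have hquot : Module.Finite k (V₂ ⧸ LinearMap.ker g) :=
    Module.Finite.equiv (g.quotKerEquivRange).symm
  exact Module.Finite.of_submodule_quotient (LinearMap.ker g)

/-- The middle term of an exact sequence with trivial ends is trivial. -/
theorem subsingleton_of_exact {k V₁ V₂ V₃ : Type*} [Semiring k] [AddCommMonoid V₁] [Module k V₁]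
    [AddCommMonoid V₂] [Module k V₂] [AddCommMonoid V₃] [Module k V₃] (f : V₁ →ₗ[k] V₂)
    (g : V₂ →ₗ[k] V₃) (h : Function.Exact f g) (h₁ : Subsingleton V₁)
    (h₃ : Subsingleton V₃) : Subsingleton V₂ := by
  refine ⟨fun x y => ?_⟩
  have key : ∀ z : V₂, z = 0 := fun z => by
    obtain ⟨w, rfl⟩ := (h z).mp (Subsingleton.elim _ _)
    rw [Subsingleton.elim w 0, map_zero]
  rw [key x, key y]

/-! ### Retracts and extensions for level cohomology -/

section Generic

variable {Γ : Type} [Group Γ] (L : LevelSys Γ) {k : Type} [CommRing k]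
variable {M M' M'' : Type} [AddCommGroup M] [Module k M] [AddCommGroup M'] [Module k M']
  [AddCommGroup M''] [Module k M'']

/-- A retraction of coefficients induces a retraction on level cohomology. -/
theorem mapCoeff_mapH_retract {ρ : Representation k Γ M} {ρ' : Representation k Γ M'}
    (hρ : L.IsSmooth ρ) (hρ' : L.IsSmooth ρ') (i : M →ₗ[k] M')
    (hi : ∀ g m, i (ρ g m) = ρ' g (i m)) (r : M' →ₗ[k] M)
    (hr : ∀ g m, r (ρ' g m) = ρ g (r m)) (hri : ∀ m, r (i m) = m) (n : ℕ)
    (x : (L.cx ρ hρ).H n) :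
    (L.mapCoeff hρ' hρ r hr).mapH n ((L.mapCoeff hρ hρ' i hi).mapH n x) = x := by
  obtain ⟨c, hc, rfl⟩ := (L.cx ρ hρ).exists_cls x
  rw [Cx.Hom.mapH_cls, Cx.Hom.mapH_cls, Cx.cls_eq_cls_iff]
  have : (L.mapCoeff hρ' hρ r hr).f n ((L.mapCoeff hρ hρ' i hi).f n c) = c :=
    L.cx_ext ρ hρ fun g => hri _
  rw [this, sub_self]
  exact Submodule.zero_mem _

/-- A property of modules inherited by quotients passes to the level cohomology of a retract. -/
theorem of_retract (Q : ∀ (V : Type) [AddCommGroup V] [Module k V], Prop)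
    (hQs : ∀ (V W : Type) [AddCommGroup V] [Module k V] [AddCommGroup W] [Module k W]
      (f : V →ₗ[k] W), Function.Surjective f → Q V → Q W)
    {ρ : Representation k Γ M} {ρ' : Representation k Γ M'}
    (hρ : L.IsSmooth ρ) (hρ' : L.IsSmooth ρ') (i : M →ₗ[k] M')
    (hi : ∀ g m, i (ρ g m) = ρ' g (i m)) (r : M' →ₗ[k] M)
    (hr : ∀ g m, r (ρ' g m) = ρ g (r m)) (hri : ∀ m, r (i m) = m) (n : ℕ)
    (h : Q ((L.cx ρ' hρ').H n)) : Q ((L.cx ρ hρ).H n) :=
  hQs _ _ ((L.mapCoeff hρ' hρ r hr).mapH n)
    (fun x => ⟨_, mapCoeff_mapH_retract L hρ hρ' i hi r hr hri n x⟩) h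

/-- A property of modules inherited by the middle term of an exact sequence passes to the level
cohomology of an extension. -/
theorem of_ext (Q : ∀ (V : Type) [AddCommGroup V] [Module k V], Prop)
    (hQe : ∀ (V₁ V₂ V₃ : Type) [AddCommGroup V₁] [Module k V₁] [AddCommGroup V₂] [Module k V₂]
      [AddCommGroup V₃] [Module k V₃] (f : V₁ →ₗ[k] V₂) (g : V₂ →ₗ[k] V₃),
      Function.Exact f g → Q V₁ → Q V₃ → Q V₂)
    {ρ : Representation k Γ M} {ρ' : Representation k Γ M'} {ρ'' : Representation k Γ M''}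
    (hρ' : L.IsSmooth ρ') (hρ : L.IsSmooth ρ) (hρ'' : L.IsSmooth ρ'')
    (i : M' →ₗ[k] M) (π : M →ₗ[k] M'')
    (hi : ∀ g m, i (ρ' g m) = ρ g (i m)) (hπ : ∀ g m, π (ρ g m) = ρ'' g (π m))
    (hinj : Function.Injective i) (hex : Function.Exact i π) (hsurj : Function.Surjective π)
    (n : ℕ) (h' : Q ((L.cx ρ' hρ').H n)) (h'' : Q ((L.cx ρ'' hρ'').H n)) :
    Q ((L.cx ρ hρ).H n) :=
  hQe _ _ _ _ _ ((L.shortExact_mapCoeff hρ' hρ hρ'' i π hi hπ hinj hex hsurj).exact_f_g n) h' h''

end Generic

/-! ### The class of the engine is the class of `S`-representations -/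

section Concrete

variable (p : ℕ) [Fact p.Prime] (S : Finset Nat.Primes)

/-- A finite-dimensional representation which is smooth for `levS S` is an `S`-representation. -/
theorem isSRep_of_isSmooth {M : Type} [AddCommGroup M] [Module (ZMod p) M]
    [hfin : Module.Finite (ZMod p) M] (ρ : Representation (ZMod p) GQ M)
    (hρ : (levS S).IsSmooth ρ) : DevissageGQ.IsSRep p S (Rep.of ρ) := by
  obtain ⟨s, hs⟩ := Module.finite_def.mp hfin
  obtain ⟨N, hN, hfix⟩ := hρ.exists_level s.finite_toSet
  obtain ⟨L, hL, -, rfl⟩ := hN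
  refine ⟨hfin, L, hL, fun t ht => ?_⟩
  exact LinearMap.ext_on hs fun m hm => hfix m hm t ht

/-- **Dévissage for the engine's class.**  A property `F` of smooth `𝔽_p`-representations of
`G_ℚ` which is stable under retracts and extensions of `S`-representations and holds for the
permutation modules `coind_{G_K}^{G_ℚ} 𝔽_p` (`K` a level with `μ_p ⊂ K`) holds for every
finite-dimensional representation which is smooth for `levS S`. -/
theorem devissage_smooth (hpS : pPrime p ∈ S)
    (F : ∀ A : Rep.{0} (ZMod p) GQ, (levS S).IsSmooth A.ρ → Prop)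
    (h_retract : ∀ (A B : Rep.{0} (ZMod p) GQ) (hA : (levS S).IsSmooth A.ρ)
      (hB : (levS S).IsSmooth B.ρ) (i : A ⟶ B) (r : B ⟶ A), i ≫ r = 𝟙 A → F B hB → F A hA)
    (h_ext : ∀ (A B C : Rep.{0} (ZMod p) GQ) (hA : (levS S).IsSmooth A.ρ)
      (hB : (levS S).IsSmooth B.ρ) (hC : (levS S).IsSmooth C.ρ) (f : A ⟶ B) (g : B ⟶ C),
      Function.Injective f.hom → Function.Exact f.hom g.hom → Function.Surjective g.hom →
        F A hA → F C hC → F B hB)
    (h_base : ∀ K : IntermediateField ℚ Qb, K.IsUnramifiedOutside S →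
      (∀ s ∈ K.fixingSubgroup, cycloChar p s = 1) →
      ∀ hK : (levS S).IsSmooth
        (Rep.coind K.fixingSubgroup.subtype (Rep.trivial (ZMod p) K.fixingSubgroup (ZMod p))).ρ,
        F _ hK)
    (A : Rep.{0} (ZMod p) GQ) (hA : DevissageGQ.IsSRep p S A)
    (hA' : (levS S).IsSmooth A.ρ) : F A hA' := by
  have key := DevissageGQ.devissage_GQ p S hpS
    (fun A => ∀ hA : (levS S).IsSmooth A.ρ, F A hA)
    (fun A B hA hB i r hir hPB hA' =>
      h_retract A B hA' (isSmooth_levS_of_isSRep S hB) i r hir (hPB _))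
    (fun A B C hA hB hC f g hf hfg hg hPA hPC hB' =>
      h_ext A B C (isSmooth_levS_of_isSRep S hA) hB' (isSmooth_levS_of_isSRep S hC) f g hf hfg hg
        (hPA _) (hPC _))
    (fun K hK hχ hK' => h_base K hK hχ hK') A hA
  exact key hA'

end Concrete

/-! ### Cohomology groups of the concrete datum -/

section Final

variable (p : ℕ) [Fact p.Prime] (S : Finset Nat.Primes)

/-- The permutation module `X_K = coind_{G_K}^{G_ℚ} 𝔽_p` of a subfield `K` of `ℚ̄`. -/
noncomputable abbrev permK (K : IntermediateField ℚ Qb) : Representation (ZMod p) GQ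
    (Representation.coindV K.fixingSubgroup.subtype
      (Representation.trivial (ZMod p) K.fixingSubgroup (ZMod p))) :=
  Representation.coind K.fixingSubgroup.subtype
    (Representation.trivial (ZMod p) K.fixingSubgroup (ZMod p))

theorem permK_eq (K : IntermediateField ℚ Qb) :
    permK p K =
      (Rep.coind K.fixingSubgroup.subtype
        (Rep.trivial (ZMod p) K.fixingSubgroup (ZMod p))).ρ := rfl

/-- `X_K` is smooth for `levS S` when `K` is a level. -/
theorem isSmooth_permK {K : IntermediateField ℚ Qb} (hK : K.IsUnramifiedOutside S) :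
    (levS S).IsSmooth (permK p K) := by
  obtain ⟨N, hN, hle⟩ := exists_mem_levS_le hK
  intro f
  refine ⟨N, hN, fun s hs => ?_⟩
  have hNn : N.Normal := (levS S).normal N hN
  refine Subtype.ext (funext fun g => ?_)
  show f.1 (g * s) = f.1 g
  have h1 : g * s * g⁻¹ ∈ K.fixingSubgroup := hle (hNn.conj_mem s hs g)
  have h2 := f.2 ⟨g * s * g⁻¹, h1⟩ g
  simp only [Subgroup.subtype_apply, inv_mul_cancel_right] at h2
  rw [h2]
  rfl

/-- **Dévissage for one cohomology group, along a continuous homomorphism `r : Γ' → G_ℚ`.**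
A property `Q` of `𝔽_p`-vector spaces which is inherited by quotients and by the middle term of
an exact sequence holds for `H^n(Γ'; M)` for every finite-dimensional smooth `M`, as soon as it
holds for `H^n(Γ'; X_K)` for all levels `K ⊇ μ_p`. -/
theorem of_base_res (hpS : pPrime p ∈ S) {Γ' : Type} [Group Γ'] (L' : LevelSys Γ')
    (r : Γ' →* GQ) (hr : (levS S).IsCts L' r)
    (Q : ∀ (V : Type) [AddCommGroup V] [Module (ZMod p) V], Prop)
    (hQs : ∀ (V W : Type) [AddCommGroup V] [Module (ZMod p) V] [AddCommGroup W]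
      [Module (ZMod p) W] (f : V →ₗ[ZMod p] W), Function.Surjective f → Q V → Q W)
    (hQe : ∀ (V₁ V₂ V₃ : Type) [AddCommGroup V₁] [Module (ZMod p) V₁] [AddCommGroup V₂]
      [Module (ZMod p) V₂] [AddCommGroup V₃] [Module (ZMod p) V₃] (f : V₁ →ₗ[ZMod p] V₂)
      (g : V₂ →ₗ[ZMod p] V₃), Function.Exact f g → Q V₁ → Q V₃ → Q V₂)
    (n : ℕ)
    (h_base : ∀ K : IntermediateField ℚ Qb, K.IsUnramifiedOutside S →
      (∀ s ∈ K.fixingSubgroup, cycloChar p s = 1) →
      ∀ hK : (levS S).IsSmooth (permK p K),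
        Q ((L'.cx ((permK p K).comp r) (hr.isSmooth hK)).H n))
    {M : Type} [AddCommGroup M] [Module (ZMod p) M] [Module.Finite (ZMod p) M]
    (ρ : Representation (ZMod p) GQ M) (hρ : (levS S).IsSmooth ρ) :
    Q ((L'.cx (ρ.comp r) (hr.isSmooth hρ)).H n) := by
  refine devissage_smooth p S hpS
    (fun A hA => Q ((L'.cx (A.ρ.comp r) (hr.isSmooth hA)).H n)) ?_ ?_ ?_ (Rep.of ρ)
    (isSRep_of_isSmooth p S ρ hρ) hρ
  · intro A B hA hB i rr hir hQB
    refine of_retract L' Q hQs (hr.isSmooth hA) (hr.isSmooth hB) i.hom.toLinearMap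
      (fun g m => Rep.hom_comm_apply i (r g) m) rr.hom.toLinearMap
      (fun g m => Rep.hom_comm_apply rr (r g) m) (fun m => ?_) n hQB
    have := congrArg (fun φ : A ⟶ A => φ.hom m) hir
    exact this
  · intro A B C hA hB hC f g hf hfg hg hQA hQC
    exact of_ext L' Q hQe (hr.isSmooth hA) (hr.isSmooth hB) (hr.isSmooth hC) f.hom.toLinearMap
      g.hom.toLinearMap (fun γ m => Rep.hom_comm_apply f (r γ) m)
      (fun γ m => Rep.hom_comm_apply g (r γ) m) hf hfg hg n hQA hQC
  · intro K hK hχ hK'
    exact h_base K hK hχ hK'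

/-- **Dévissage for one global cohomology group** (the case `r = id` of `of_base_res`). -/
theorem of_base (hpS : pPrime p ∈ S)
    (Q : ∀ (V : Type) [AddCommGroup V] [Module (ZMod p) V], Prop)
    (hQs : ∀ (V W : Type) [AddCommGroup V] [Module (ZMod p) V] [AddCommGroup W]
      [Module (ZMod p) W] (f : V →ₗ[ZMod p] W), Function.Surjective f → Q V → Q W)
    (hQe : ∀ (V₁ V₂ V₃ : Type) [AddCommGroup V₁] [Module (ZMod p) V₁] [AddCommGroup V₂]
      [Module (ZMod p) V₂] [AddCommGroup V₃] [Module (ZMod p) V₃] (f : V₁ →ₗ[ZMod p] V₂)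
      (g : V₂ →ₗ[ZMod p] V₃), Function.Exact f g → Q V₁ → Q V₃ → Q V₂)
    (n : ℕ)
    (h_base : ∀ K : IntermediateField ℚ Qb, K.IsUnramifiedOutside S →
      (∀ s ∈ K.fixingSubgroup, cycloChar p s = 1) →
      ∀ hK : (levS S).IsSmooth (permK p K), Q (((levS S).cx (permK p K) hK).H n))
    {M : Type} [AddCommGroup M] [Module (ZMod p) M] [Module.Finite (ZMod p) M]
    (ρ : Representation (ZMod p) GQ M) (hρ : (levS S).IsSmooth ρ) :
    Q (((levS S).cx ρ hρ).H n) := by
  refine devissage_smooth p S hpS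
    (fun A hA => Q (((levS S).cx A.ρ hA).H n)) ?_ ?_ ?_ (Rep.of ρ)
    (isSRep_of_isSmooth p S ρ hρ) hρ
  · intro A B hA hB i rr hir hQB
    refine of_retract (levS S) Q hQs hA hB i.hom.toLinearMap
      (fun g m => Rep.hom_comm_apply i g m) rr.hom.toLinearMap
      (fun g m => Rep.hom_comm_apply rr g m) (fun m => ?_) n hQB
    have := congrArg (fun φ : A ⟶ A => φ.hom m) hir
    exact this
  · intro A B C hA hB hC f g hf hfg hg hQA hQC
    exact of_ext (levS S) Q hQe hA hB hC f.hom.toLinearMap
      g.hom.toLinearMap (fun γ m => Rep.hom_comm_apply f γ m)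
      (fun γ m => Rep.hom_comm_apply g γ m) hf hfg hg n hQA hQC
  · intro K hK hχ hK'
    exact h_base K hK hχ hK'

/-! ### The engine's hypotheses `(fin)` and `(cd)` -/

/-- `(fin)`, global: finiteness of `H^n(G_S; M)` for all finite smooth `M` from the permutation
modules `X_K`. -/
theorem finite_H_of_base (hpS : pPrime p ∈ S) (n : ℕ)
    (h_base : ∀ K : IntermediateField ℚ Qb, K.IsUnramifiedOutside S →
      (∀ s ∈ K.fixingSubgroup, cycloChar p s = 1) →
      ∀ hK : (datum S).IsSmooth (permK p K),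
        Module.Finite (ZMod p) ((datum S).H (permK p K) hK n))
    {M : Type} [AddCommGroup M] [Module (ZMod p) M] [Module.Finite (ZMod p) M]
    (ρ : Representation (ZMod p) GQ M) (hρ : (datum S).IsSmooth ρ) :
    Module.Finite (ZMod p) ((datum S).H ρ hρ n) :=
  of_base p S hpS (fun V _ _ => Module.Finite (ZMod p) V)
    (fun _ _ _ _ _ _ f hf _ => Module.Finite.of_surjective f hf)
    (fun _ _ _ _ _ _ _ _ _ f g h h₁ h₃ => finite_of_exact f g h h₁ h₃) n h_base ρ hρ

/-- `(cd)`, global: vanishing of `H^n(G_S; M)` for all finite smooth `M` from the permutation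
modules `X_K`. -/
theorem subsingleton_H_of_base (hpS : pPrime p ∈ S) (n : ℕ)
    (h_base : ∀ K : IntermediateField ℚ Qb, K.IsUnramifiedOutside S →
      (∀ s ∈ K.fixingSubgroup, cycloChar p s = 1) →
      ∀ hK : (datum S).IsSmooth (permK p K),
        Subsingleton ((datum S).H (permK p K) hK n))
    {M : Type} [AddCommGroup M] [Module (ZMod p) M] [Module.Finite (ZMod p) M]
    (ρ : Representation (ZMod p) GQ M) (hρ : (datum S).IsSmooth ρ) :
    Subsingleton ((datum S).H ρ hρ n) :=
  of_base p S hpS (fun V _ _ => Subsingleton V)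
    (fun _ _ _ _ _ _ _ hf _ => hf.subsingleton)
    (fun _ _ _ _ _ _ _ _ _ f g h h₁ h₃ => subsingleton_of_exact f g h h₁ h₃) n h_base ρ hρ

/-- `(fin)`, local: finiteness of `H^n(D_v; M)` for all finite smooth `M` from the permutation
modules `X_K`. -/
theorem finite_Hv_of_base (hpS : pPrime p ∈ S) (v : (datum S).ι) (n : ℕ)
    (h_base : ∀ K : IntermediateField ℚ Qb, K.IsUnramifiedOutside S →
      (∀ s ∈ K.fixingSubgroup, cycloChar p s = 1) →
      ∀ hK : (datum S).IsSmooth (permK p K),
        Module.Finite (ZMod p) ((datum S).Hv (permK p K) hK v n))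
    {M : Type} [AddCommGroup M] [Module (ZMod p) M] [Module.Finite (ZMod p) M]
    (ρ : Representation (ZMod p) GQ M) (hρ : (datum S).IsSmooth ρ) :
    Module.Finite (ZMod p) ((datum S).Hv ρ hρ v n) :=
  of_base_res p S hpS ((datum S).Lv v) ((datum S).D v).subtype ((datum S).cts v)
    (fun V _ _ => Module.Finite (ZMod p) V)
    (fun _ _ _ _ _ _ f hf _ => Module.Finite.of_surjective f hf)
    (fun _ _ _ _ _ _ _ _ _ f g h h₁ h₃ => finite_of_exact f g h h₁ h₃) n h_base ρ hρ

/-- `(cd)`, local: vanishing of `H^n(D_v; M)` for all finite smooth `M` from the permutation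
modules `X_K`. -/
theorem subsingleton_Hv_of_base (hpS : pPrime p ∈ S) (v : (datum S).ι) (n : ℕ)
    (h_base : ∀ K : IntermediateField ℚ Qb, K.IsUnramifiedOutside S →
      (∀ s ∈ K.fixingSubgroup, cycloChar p s = 1) →
      ∀ hK : (datum S).IsSmooth (permK p K),
        Subsingleton ((datum S).Hv (permK p K) hK v n))
    {M : Type} [AddCommGroup M] [Module (ZMod p) M] [Module.Finite (ZMod p) M]
    (ρ : Representation (ZMod p) GQ M) (hρ : (datum S).IsSmooth ρ) :
    Subsingleton ((datum S).Hv ρ hρ v n) :=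
  of_base_res p S hpS ((datum S).Lv v) ((datum S).D v).subtype ((datum S).cts v)
    (fun V _ _ => Subsingleton V)
    (fun _ _ _ _ _ _ _ hf _ => hf.subsingleton)
    (fun _ _ _ _ _ _ _ _ _ f g h h₁ h₃ => subsingleton_of_exact f g h h₁ h₃) n h_base ρ hρ

end Final

end Fermat.Agent.PT.DevInst
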