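import Fermat.Agent.PT.Coh.Engine
import Fermat.Agent.PT.DevInst

/-!
# PT (S55): the final assembly

* `exists_sha_pairing_of_countHyp` : the conclusion of S55 from the hypotheses of the counting
  engine (`LocDatum.CountHyp`, `hemb`) for the concrete datum `Bridge.datum S`, `k = 𝔽_p`,
  `χ = cycloChar p`;
* `hχ_datum` : the cyclotomic character is trivial on an `S`-level (`p ∈ S`);
* `countHyp_of_base` : the constructor of `CountHyp` in which the hypotheses `(fin)` and `(cd)`
  are only required for the permutation modules `X_K` (`K` a base field).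
-/

set_option autoImplicit false

open CategoryTheory Module groupCohomology ExtCitation
open Fermat.Agent.PT.Levels Fermat.Agent.PT.Bridge Fermat.Agent.PT.DevInst

namespace Fermat.Agent.PT.Final

local notation "Qb" => AlgebraicClosure ℚ
local notation "GQ" => (AlgebraicClosure ℚ ≃ₐ[ℚ] AlgebraicClosure ℚ)

variable {p : ℕ} [Fact p.Prime] (S : Finset Nat.Primes)

/-- The datum has a local place as soon as `p ∈ S`. -/
theorem nonempty_ι (hpS : pPrime p ∈ S) : Nonempty (datum S).ι := ⟨⟨pPrime p, hpS⟩⟩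

/-- The mod `p` cyclotomic character is trivial on an `S`-level (`p ∈ S`). -/
theorem hχ_datum (hpS : pPrime p ∈ S) :
    ∃ N ∈ (datum S).L.lev, ∀ s ∈ N, cycloChar p s = 1 := by
  obtain ⟨ζ, hζ⟩ := exists_primitiveRoot_Qbar p
  obtain ⟨N, hN, hle⟩ := exists_mem_levS_le (isUnramifiedOutside_adjoin_primitiveRoot p S hpS hζ)
  exact ⟨N, hN, fun s hs => cycloChar_eq_one_of_mem_fixingSubgroup p hζ (hle hs)⟩

/-- **S55 from the hypotheses of the counting engine.** -/
theorem exists_sha_pairing_of_countHyp (hp2 : p ≠ 2) (hpS : pPrime p ∈ S)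
    (h : LocDatum.CountHyp (datum S) (ZMod p) (cycloChar p))
    (hemb : ∀ {X : Type} [AddCommGroup X] [Module (ZMod p) X] [Module.Finite (ZMod p) X]
      (ρ : Representation (ZMod p) GQ X) (_ : (datum S).IsSmooth ρ),
      ∃ (P : Type) (_ : AddCommGroup P) (_ : Module (ZMod p) P) (_ : Module.Finite (ZMod p) P)
        (σ : Representation (ZMod p) GQ P) (hσ : (datum S).IsSmooth σ)
        (hσ' : (datum S).IsSmooth (LocDatum.dualTw (cycloChar p) σ))
        (i : X →ₗ[ZMod p] P), Function.Injective i ∧ (∀ g m, i (ρ g m) = σ g (i m)) ∧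
          (datum S).Et (cycloChar p) σ hσ hσ' = 0)
    (M : Rep.{0} (ZMod p) GQ) [FiniteDimensional (ZMod p) M]
    (hsm : ∀ m : M, ∃ F : IntermediateField ℚ Qb, FiniteDimensional ℚ F ∧
      ∀ s ∈ F.fixingSubgroup, M.ρ s m = m)
    (hMur : ∀ q : Nat.Primes, q ∉ S → ∀ A : ValuationSubring Qb,
      A.LiesOverPrime (q : ℕ) → ∀ g ∈ A.inertiaSubgroupIn ℚ, M.ρ g = 1) :
    ∃ B : sha₁ S (M.dualTwist (cycloChar p)) →ₗ[ZMod p] sha₂ S M →ₗ[ZMod p] ZMod p,
      (∀ y, (∀ x, B y x = 0) → y = 0) ∧ (∀ x, (∀ y, B y x = 0) → x = 0) := by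
  have hM : (levS S).IsSmooth M.ρ := isSmooth_of_smooth_unramified S M hsm hMur
  have hM' : (levS S).IsSmooth (M.dualTwist (cycloChar p)).ρ :=
    isSmooth_dualTwist_of_smooth_unramified S hpS M hsm hMur
  have hne : Nonempty (datum S).ι := nonempty_ι S hpS
  have key : finrank (ZMod p) ((datum S).sha M.ρ hM 2) =
      finrank (ZMod p) ((datum S).sha (LocDatum.dualTw (cycloChar p) M.ρ) hM' 1) :=
    h.finrank_sha_eq hemb M.ρ hM hM'
  have e2 : shaCx S M hM 2 = (datum S).sha M.ρ hM 2 := shaCx_eq_ker_locH S M hM 2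
  have e1 : shaCx S (M.dualTwist (cycloChar p)) hM' 1 =
      (datum S).sha (LocDatum.dualTw (cycloChar p) M.ρ) hM' 1 :=
    shaCx_eq_ker_locH S (M.dualTwist (cycloChar p)) hM' 1
  have hfin2 : Module.Finite (ZMod p) ((datum S).H M.ρ hM 2) := h.fin M.ρ hM 2 le_rfl
  have : Module.Finite (ZMod p) (Module.Dual (ZMod p) M) := inferInstance
  have hfin1 : Module.Finite (ZMod p)
      ((datum S).H (LocDatum.dualTw (cycloChar p) M.ρ) hM' 1) :=
    h.fin (LocDatum.dualTw (cycloChar p) M.ρ) hM' 1 (by omega)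
  have f2 : FiniteDimensional (ZMod p) (shaCx S M hM 2) := by
    rw [e2]; infer_instance
  have f1 : FiniteDimensional (ZMod p) (shaCx S (M.dualTwist (cycloChar p)) hM' 1) := by
    rw [e1]; infer_instance
  refine exists_sha_pairing_of_finrank_shaCx S hp2 M hM hM' ?_
  rw [e1, e2]
  exact key.symm

/-- **Constructor of the engine's hypotheses**: `(fin)` and `(cd)` are only required for the
permutation modules `X_K = coind_{G_K}^{G_ℚ} 𝔽_p` of the base fields `K` (levels containing
`μ_p`); the four remaining clauses are passed through. -/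
theorem countHyp_of_base (hpS : pPrime p ∈ S)
    (hfin : ∀ K : IntermediateField ℚ Qb, K.IsUnramifiedOutside S →
      (∀ s ∈ K.fixingSubgroup, cycloChar p s = 1) →
      ∀ (hK : (datum S).IsSmooth (permK p K)) (n : ℕ), n ≤ 2 →
        Module.Finite (ZMod p) ((datum S).H (permK p K) hK n))
    (hfinv : ∀ K : IntermediateField ℚ Qb, K.IsUnramifiedOutside S →
      (∀ s ∈ K.fixingSubgroup, cycloChar p s = 1) →
      ∀ (hK : (datum S).IsSmooth (permK p K)) (v : (datum S).ι) (n : ℕ), n ≤ 2 →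
        Module.Finite (ZMod p) ((datum S).Hv (permK p K) hK v n))
    (hcd : ∀ K : IntermediateField ℚ Qb, K.IsUnramifiedOutside S →
      (∀ s ∈ K.fixingSubgroup, cycloChar p s = 1) →
      ∀ hK : (datum S).IsSmooth (permK p K), Subsingleton ((datum S).H (permK p K) hK 3))
    (hcdv : ∀ K : IntermediateField ℚ Qb, K.IsUnramifiedOutside S →
      (∀ s ∈ K.fixingSubgroup, cycloChar p s = 1) →
      ∀ (hK : (datum S).IsSmooth (permK p K)) (v : (datum S).ι),
        Subsingleton ((datum S).Hv (permK p K) hK v 3))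
    (he3 : ∀ {M : Type} [AddCommGroup M] [Module (ZMod p) M] [Module.Finite (ZMod p) M]
      (ρ : Representation (ZMod p) GQ M) (hρ : (datum S).IsSmooth ρ)
      (hρ' : (datum S).IsSmooth (LocDatum.dualTw (cycloChar p) ρ)),
      finrank (ZMod p) ((datum S).Hc ρ hρ 3) =
        finrank (ZMod p) ((datum S).H (LocDatum.dualTw (cycloChar p) ρ) hρ' 0))
    (hev : ∀ {M : Type} [AddCommGroup M] [Module (ZMod p) M] [Module.Finite (ZMod p) M]
      (ρ : Representation (ZMod p) GQ M) (hρ : (datum S).IsSmooth ρ)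
      (hρ' : (datum S).IsSmooth (LocDatum.dualTw (cycloChar p) ρ)) (v : (datum S).ι),
      finrank (ZMod p) ((datum S).Hv ρ hρ v 2) =
        finrank (ZMod p) ((datum S).Hv (LocDatum.dualTw (cycloChar p) ρ) hρ' v 0))
    (hi1 : ∀ {M : Type} [AddCommGroup M] [Module (ZMod p) M] [Module.Finite (ZMod p) M]
      (ρ : Representation (ZMod p) GQ M) (hρ : (datum S).IsSmooth ρ)
      (hρ' : (datum S).IsSmooth (LocDatum.dualTw (cycloChar p) ρ)),
      finrank (ZMod p) ((datum S).Hc ρ hρ 1) ≤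
        finrank (ZMod p) ((datum S).H (LocDatum.dualTw (cycloChar p) ρ) hρ' 2))
    (hi2 : ∀ {M : Type} [AddCommGroup M] [Module (ZMod p) M] [Module.Finite (ZMod p) M]
      (ρ : Representation (ZMod p) GQ M) (hρ : (datum S).IsSmooth ρ)
      (hρ' : (datum S).IsSmooth (LocDatum.dualTw (cycloChar p) ρ)),
      finrank (ZMod p) ((datum S).H (LocDatum.dualTw (cycloChar p) ρ) hρ' 1) ≤
        finrank (ZMod p) ((datum S).Hc ρ hρ 2)) :
    LocDatum.CountHyp (datum S) (ZMod p) (cycloChar p) where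
  hχ := hχ_datum S hpS
  fin ρ hρ n hn :=
    finite_H_of_base p S hpS n (fun K hK hχ hK' => hfin K hK hχ hK' n hn) ρ hρ
  finv ρ hρ v n hn :=
    finite_Hv_of_base p S hpS v n (fun K hK hχ hK' => hfinv K hK hχ hK' v n hn) ρ hρ
  cd ρ hρ := subsingleton_H_of_base p S hpS 3 hcd ρ hρ
  cdv ρ hρ v := subsingleton_Hv_of_base p S hpS v 3 (fun K hK hχ hK' => hcdv K hK hχ hK' v) ρ hρ
  e3 := he3
  ev := hev
  i1 := hi1
  i2 := hi2

end Fermat.Agent.PT.Final
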