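import Mathlib
import Fermat.Prelude.Def_GroupCohomology_Selmer
import Fermat.Agent.PT.Devissage

/-!
# PT (S55), layer F6: the twisted dual as an exact contravariant functor

`k` a field, `G` a group, `χ : G →* kˣ`, `M' := M.dualTwist χ` (the Prelude's twisted dual
`Hom_k(M, k)(χ)`).

* `dualTwistMap χ f : B.dualTwist χ ⟶ A.dualTwist χ` for `f : A ⟶ B`, with `dualTwistMap_id`,
  `dualTwistMap_comp`;
* exactness: `dualTwistMap_surjective`, `dualTwistMap_injective`, `dualTwistMap_exact`;
* biduality `evalHom χ M : M ⟶ (M.dualTwist χ).dualTwist χ`, bijective for finite-dimensional `M`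
  (`evalHom_bijective`), natural (`evalHom_naturality`), and `evalIso`;
* `cosetSum U`, `cosetSum_translate`, `cosetSum_eq_single` : sums over `G ⧸ U`;
* `pairIso χ U hχU : coind_U^G k ≅ (coind_U^G k).dualTwist χ` when `χ` is trivial on the finite
  index subgroup `U` (the base modules of the dévissage are self-dual up to the twist), given by
  the pairing `(y, x) ↦ Σ_{gU} χ(g) x(g⁻¹) y(g⁻¹)` (`pairHom_apply`).
-/

set_option autoImplicit false

open CategoryTheory

namespace Fermat.Agent.PT.DualTwistFunctor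

variable {k : Type} [Field k] {G : Type} [Group G] (χ : G →* kˣ)

/-- The action on the twisted dual, evaluated. -/
theorem dualTwist_ρ_apply_apply (A : Rep.{0} k G) (g : G) (φ : Module.Dual k A) (a : A) :
    ((A.dualTwist χ).ρ g φ : Module.Dual k A) a = (χ g : k) * φ (A.ρ g⁻¹ a) :=
  rfl

/-- The transpose `B' ⟶ A'` of a morphism `A ⟶ B`. -/
noncomputable def dualTwistMap {A B : Rep.{0} k G} (f : A ⟶ B) :
    B.dualTwist χ ⟶ A.dualTwist χ :=
  Rep.ofHom (ρ := B.ρ.dual.twist χ) (σ := A.ρ.dual.twist χ)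
    (LinearMap.intertwiningMap_of_isIntertwiningMap _ _ (f.hom.toLinearMap.dualMap)
      (fun g φ => by
        refine LinearMap.ext fun a => ?_
        show (χ g : k) * φ (B.ρ g⁻¹ (f.hom a)) = (χ g : k) * φ (f.hom (A.ρ g⁻¹ a))
        rw [Rep.hom_comm_apply]))

theorem dualTwistMap_apply {A B : Rep.{0} k G} (f : A ⟶ B) (φ : Module.Dual k B) (a : A) :
    ((dualTwistMap χ f).hom φ : Module.Dual k A) a = φ (f.hom a) :=
  rfl

theorem dualTwistMap_id (A : Rep.{0} k G) : dualTwistMap χ (𝟙 A) = 𝟙 (A.dualTwist χ) :=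
  Rep.hom_ext (Representation.IntertwiningMap.ext (LinearMap.ext fun _ => rfl))

theorem dualTwistMap_comp {A B C : Rep.{0} k G} (f : A ⟶ B) (g : B ⟶ C) :
    dualTwistMap χ (f ≫ g) = dualTwistMap χ g ≫ dualTwistMap χ f :=
  Rep.hom_ext (Representation.IntertwiningMap.ext (LinearMap.ext fun _ => rfl))

/-- A retract `A → B → A` gives a retract `A' → B' → A'`. -/
theorem dualTwistMap_retract {A B : Rep.{0} k G} (i : A ⟶ B) (r : B ⟶ A) (h : i ≫ r = 𝟙 A) :
    dualTwistMap χ r ≫ dualTwistMap χ i = 𝟙 (A.dualTwist χ) := by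
  rw [← dualTwistMap_comp, h, dualTwistMap_id]

theorem dualTwistMap_surjective {A B : Rep.{0} k G} (f : A ⟶ B)
    (hf : Function.Injective f.hom) : Function.Surjective (dualTwistMap χ f).hom :=
  LinearMap.dualMap_surjective_of_injective (f := f.hom.toLinearMap) hf

theorem dualTwistMap_injective {A B : Rep.{0} k G} (f : A ⟶ B)
    (hf : Function.Surjective f.hom) : Function.Injective (dualTwistMap χ f).hom :=
  LinearMap.dualMap_injective_of_surjective (f := f.hom.toLinearMap) hf

theorem dualTwistMap_exact {A B C : Rep.{0} k G} (f : A ⟶ B) (g : B ⟶ C)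
    (h : Function.Exact f.hom g.hom) :
    Function.Exact (dualTwistMap χ g).hom (dualTwistMap χ f).hom := by
  have h1 : LinearMap.ker g.hom.toLinearMap = LinearMap.range f.hom.toLinearMap :=
    (LinearMap.exact_iff).mp h
  refine (LinearMap.exact_iff (f := g.hom.toLinearMap.dualMap)
    (g := f.hom.toLinearMap.dualMap)).mpr ?_
  rw [LinearMap.ker_dualMap_eq_dualAnnihilator_range,
    LinearMap.range_dualMap_eq_dualAnnihilator_ker, h1]

/-! ### Biduality -/

/-- The evaluation map `M ⟶ M''`, `m ↦ (φ ↦ φ m)`. -/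
noncomputable def evalHom (M : Rep.{0} k G) : M ⟶ (M.dualTwist χ).dualTwist χ :=
  Rep.ofHom (ρ := M.ρ) (σ := (M.dualTwist χ).ρ.dual.twist χ)
    (LinearMap.intertwiningMap_of_isIntertwiningMap _ _ (Module.Dual.eval k M)
      (fun g m => by
        refine LinearMap.ext fun φ => ?_
        show (φ : Module.Dual k M) (M.ρ g m)
          = (χ g : k) * ((χ g⁻¹ : k) * (φ : Module.Dual k M) (M.ρ g⁻¹⁻¹ m))
        rw [inv_inv, ← mul_assoc, ← Units.val_mul, ← map_mul, mul_inv_cancel, map_one,
          Units.val_one, one_mul]))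

theorem evalHom_apply (M : Rep.{0} k G) (m : M) (φ : Module.Dual k M) :
    ((evalHom χ M).hom m : Module.Dual k (Module.Dual k M)) φ = φ m :=
  rfl

theorem evalHom_bijective (M : Rep.{0} k G) [Module.Finite k M] :
    Function.Bijective (evalHom χ M).hom :=
  Module.bijective_dual_eval k M

theorem evalHom_naturality {A B : Rep.{0} k G} (f : A ⟶ B) :
    evalHom χ A ≫ dualTwistMap χ (dualTwistMap χ f) = f ≫ evalHom χ B :=
  Rep.hom_ext (Representation.IntertwiningMap.ext (LinearMap.ext fun _ => rfl))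

/-- Biduality `M ≅ M''` for finite-dimensional `M`. -/
noncomputable def evalIso (M : Rep.{0} k G) [Module.Finite k M] :
    M ≅ (M.dualTwist χ).dualTwist χ :=
  Rep.mkIso (ρ := M.ρ) (σ := (M.dualTwist χ).ρ.dual.twist χ)
    (Representation.Equiv.mk (Module.evalEquiv k M) (fun g => by
      have h := (evalHom χ M).hom.isIntertwining' g
      exact h))

theorem evalIso_hom (M : Rep.{0} k G) [Module.Finite k M] :
    (evalIso χ M).hom = evalHom χ M :=
  Rep.hom_ext (Representation.IntertwiningMap.ext (LinearMap.ext fun _ => rfl))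

/-! ### Sums over cosets -/

section CosetSum

variable (U : Subgroup G) [U.FiniteIndex]

/-- `c ↦ Σ_{gU ∈ G/U} c(g)` (evaluated at the chosen representatives), as a linear map. -/
noncomputable def cosetSum : (G → k) →ₗ[k] k where
  toFun c := ∑ᶠ q : G ⧸ U, c q.out
  map_add' c c' := by
    have : Finite (G ⧸ U) := Subgroup.finite_quotient_of_finiteIndex
    rw [← finsum_add_distrib (Set.toFinite _) (Set.toFinite _)]
    rfl
  map_smul' a c := by
    have : Finite (G ⧸ U) := Subgroup.finite_quotient_of_finiteIndex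
    rw [RingHom.id_apply, smul_finsum]
    rfl

theorem cosetSum_apply (c : G → k) : cosetSum U c = ∑ᶠ q : G ⧸ U, c q.out := rfl

omit [Field k] [U.FiniteIndex] in
theorem apply_out_eq {c : G → k} (hc : ∀ (g : G) (u : U), c (g * u) = c g) (g : G) :
    c (QuotientGroup.mk g : G ⧸ U).out = c g := by
  obtain ⟨u, hu⟩ := QuotientGroup.mk_out_eq_mul U g
  rw [hu, hc]

/-- Translation invariance of the coset sum of a coset-constant function. -/
theorem cosetSum_translate {c : G → k} (hc : ∀ (g : G) (u : U), c (g * u) = c g) (h : G) :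
    cosetSum U (fun g => c (h * g)) = cosetSum U c := by
  have : Finite (G ⧸ U) := Subgroup.finite_quotient_of_finiteIndex
  rw [cosetSum_apply, cosetSum_apply]
  have h1 : ∀ q : G ⧸ U, c (h * q.out) = c (h • q).out := by
    intro q
    have h2 : (h • q : G ⧸ U) = QuotientGroup.mk (h * q.out) := by
      conv_lhs => rw [← QuotientGroup.out_eq' q]
      rfl
    rw [h2, apply_out_eq U hc]
  rw [finsum_congr h1]
  exact finsum_comp_equiv (MulAction.toPerm h) (f := fun q : G ⧸ U => c q.out)

/-- The coset sum of a coset-constant function supported on one coset. -/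
theorem cosetSum_eq_single {c : G → k} (hc : ∀ (g : G) (u : U), c (g * u) = c g) (g₀ : G)
    (h0 : ∀ g : G, (QuotientGroup.mk g : G ⧸ U) ≠ QuotientGroup.mk g₀ → c g = 0) :
    cosetSum U c = c g₀ := by
  rw [cosetSum_apply, finsum_eq_single _ (QuotientGroup.mk g₀ : G ⧸ U), apply_out_eq U hc]
  intro q hq
  refine h0 _ ?_
  rwa [QuotientGroup.out_eq']

end CosetSum

/-! ### The permutation modules `coind_U^G k` are self-dual up to the twist -/

section Base

variable (U : Subgroup G) [U.FiniteIndex]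

/-- The summand `g ↦ χ(g) x(g⁻¹) y(g⁻¹)` of the pairing on `coind_U^G k`. -/
def pairFun (x y : Rep.coind U.subtype (Rep.trivial k U k)) (g : G) : k :=
  (χ g : k) * (x.1 g⁻¹ * y.1 g⁻¹)

omit [U.FiniteIndex] in
theorem coind_trivial_apply_mul (x : Rep.coind U.subtype (Rep.trivial k U k)) (u : U) (g : G) :
    x.1 ((u : G) * g) = x.1 g :=
  x.2 u g

omit [U.FiniteIndex] in
theorem pairFun_mul_right (hχU : ∀ u ∈ U, χ u = 1)
    (x y : Rep.coind U.subtype (Rep.trivial k U k)) (g : G) (u : U) :
    pairFun χ U x y (g * u) = pairFun χ U x y g := by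
  unfold pairFun
  have h1 : (g * (u : G))⁻¹ = ((u⁻¹ : U) : G) * g⁻¹ := by simp
  rw [h1, coind_trivial_apply_mul, coind_trivial_apply_mul, map_mul, hχU u u.2, mul_one]

/-- The pairing `coind_U^G k × coind_U^G k → k`, `(y, x) ↦ Σ_{gU} χ(g) x(g⁻¹) y(g⁻¹)`, as a
linear map to the dual. -/
noncomputable def pairLin :
    (Rep.coind U.subtype (Rep.trivial k U k)) →ₗ[k]
      Module.Dual k (Rep.coind U.subtype (Rep.trivial k U k)) :=
  LinearMap.mk₂ k (fun y x => cosetSum U (pairFun χ U x y))
    (fun y y' x => by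
      rw [← map_add]
      congr 1
      funext g
      show (χ g : k) * (x.1 g⁻¹ * (y.1 g⁻¹ + y'.1 g⁻¹))
        = (χ g : k) * (x.1 g⁻¹ * y.1 g⁻¹) + (χ g : k) * (x.1 g⁻¹ * y'.1 g⁻¹)
      ring)
    (fun a y x => by
      rw [← map_smul]
      congr 1
      funext g
      show (χ g : k) * (x.1 g⁻¹ * (a * y.1 g⁻¹)) = a * ((χ g : k) * (x.1 g⁻¹ * y.1 g⁻¹))
      ring)
    (fun y x x' => by
      rw [← map_add]
      congr 1
      funext g
      show (χ g : k) * ((x.1 g⁻¹ + x'.1 g⁻¹) * y.1 g⁻¹)
        = (χ g : k) * (x.1 g⁻¹ * y.1 g⁻¹) + (χ g : k) * (x'.1 g⁻¹ * y.1 g⁻¹)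
      ring)
    (fun a y x => by
      rw [← map_smul]
      congr 1
      funext g
      show (χ g : k) * ((a * x.1 g⁻¹) * y.1 g⁻¹) = a * ((χ g : k) * (x.1 g⁻¹ * y.1 g⁻¹))
      ring)

theorem pairLin_apply (x y : Rep.coind U.subtype (Rep.trivial k U k)) :
    pairLin χ U y x = cosetSum U (pairFun χ U x y) :=
  rfl

/-- The key invariance: `B(h x, h y) = χ(h) B(x, y)`. -/
theorem pairLin_ρ (hχU : ∀ u ∈ U, χ u = 1) (h : G)
    (x y : Rep.coind U.subtype (Rep.trivial k U k)) :
    pairLin χ U ((Rep.coind U.subtype (Rep.trivial k U k)).ρ h y)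
        ((Rep.coind U.subtype (Rep.trivial k U k)).ρ h x)
      = (χ h : k) * pairLin χ U y x := by
  rw [pairLin_apply, pairLin_apply,
    ← cosetSum_translate U (pairFun_mul_right χ U hχU x y) h⁻¹, ← smul_eq_mul, ← map_smul]
  congr 1
  funext g
  show (χ g : k) * (x.1 (g⁻¹ * h) * y.1 (g⁻¹ * h))
    = (χ h : k) * ((χ (h⁻¹ * g) : k) * (x.1 (h⁻¹ * g)⁻¹ * y.1 (h⁻¹ * g)⁻¹))
  have h1 : (h⁻¹ * g)⁻¹ = g⁻¹ * h := by simp
  have h2 : (χ h : k) * (χ (h⁻¹ * g) : k) = (χ g : k) := by
    rw [← Units.val_mul, ← map_mul, mul_inv_cancel_left]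
  rw [h1, ← h2]
  ring

end Base

section BaseIso

variable (U : Subgroup G) [U.FiniteIndex]

/-- The morphism `coind_U^G k ⟶ (coind_U^G k)'` given by the pairing (`χ` trivial on `U`). -/
noncomputable def pairHom (hχU : ∀ u ∈ U, χ u = 1) :
    Rep.coind U.subtype (Rep.trivial k U k)
      ⟶ (Rep.coind U.subtype (Rep.trivial k U k)).dualTwist χ :=
  Rep.ofHom (ρ := Representation.coind U.subtype (Rep.trivial k U k).ρ)
    (σ := (Rep.coind U.subtype (Rep.trivial k U k)).ρ.dual.twist χ)
    (LinearMap.intertwiningMap_of_isIntertwiningMap _ _ (pairLin χ U)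
      (fun h y => by
        refine LinearMap.ext fun x => ?_
        show pairLin χ U ((Rep.coind U.subtype (Rep.trivial k U k)).ρ h y) x
          = (χ h : k) * pairLin χ U y ((Rep.coind U.subtype (Rep.trivial k U k)).ρ h⁻¹ x)
        rw [← pairLin_ρ χ U hχU h, ← Module.End.mul_apply, ← map_mul, mul_inv_cancel, map_one]
        rfl))

theorem pairHom_apply (hχU : ∀ u ∈ U, χ u = 1)
    (x y : Rep.coind U.subtype (Rep.trivial k U k)) :
    ((pairHom χ U hχU).hom y : Module.Dual k (Rep.coind U.subtype (Rep.trivial k U k))) x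
      = cosetSum U (pairFun χ U x y) :=
  rfl

open Classical in
/-- The indicator function of the coset `U g₀`, an element of `coind_U^G k`. -/
noncomputable def indicator (g₀ : G) : Rep.coind U.subtype (Rep.trivial k U k) :=
  ⟨fun g => if g * g₀⁻¹ ∈ U then 1 else 0, fun u g => by
    show (if (u : G) * g * g₀⁻¹ ∈ U then (1 : k) else 0) = if g * g₀⁻¹ ∈ U then 1 else 0
    rw [mul_assoc, Subgroup.mul_mem_cancel_left U u.2]⟩

omit [U.FiniteIndex] in
open Classical in
theorem indicator_apply (g₀ g : G) :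
    (indicator (k := k) U g₀).1 g = if g * g₀⁻¹ ∈ U then 1 else 0 :=
  rfl

theorem pairHom_injective (hχU : ∀ u ∈ U, χ u = 1) :
    Function.Injective (pairHom χ U hχU).hom := by
  classical
  have key : Function.Injective (pairHom χ U hχU).hom.toLinearMap := by
    rw [← LinearMap.ker_eq_bot, LinearMap.ker_eq_bot']
    intro y hy
    refine Subtype.ext (funext fun g₀ => ?_)
    have h1 : cosetSum U (pairFun χ U (indicator U g₀) y) = 0 := by
      rw [← pairHom_apply χ U hχU]
      exact congrArg (fun φ : Module.Dual k (Rep.coind U.subtype (Rep.trivial k U k)) =>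
        φ (indicator U g₀)) hy
    rw [cosetSum_eq_single U (pairFun_mul_right χ U hχU _ y) g₀⁻¹] at h1
    · unfold pairFun at h1
      rw [inv_inv, indicator_apply, mul_inv_cancel, if_pos (Subgroup.one_mem U), one_mul] at h1
      exact (mul_eq_zero.mp h1).resolve_left (Units.ne_zero _)
    · intro g hg
      unfold pairFun
      have h2 : g⁻¹ * g₀⁻¹ ∉ U := by
        intro h3
        apply hg
        rw [QuotientGroup.eq]
        exact h3
      rw [indicator_apply, if_neg h2, zero_mul, mul_zero]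
  exact key

theorem pairHom_bijective (hχU : ∀ u ∈ U, χ u = 1) :
    Function.Bijective (pairHom χ U hχU).hom := by
  have hfin : Module.Finite k (Rep.coind U.subtype (Rep.trivial k U k)) :=
    Devissage.finite_coind U _
  refine ⟨pairHom_injective χ U hχU, ?_⟩
  have h1 : Module.finrank k (Rep.coind U.subtype (Rep.trivial k U k))
      = Module.finrank k (Module.Dual k (Rep.coind U.subtype (Rep.trivial k U k))) :=
    Subspace.dual_finrank_eq.symm
  exact (LinearMap.injective_iff_surjective_of_finrank_eq_finrank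
    (f := (pairHom χ U hχU).hom.toLinearMap) h1).mp (pairHom_injective χ U hχU)

/-- **Self-duality of the permutation modules up to the twist**: for `U ≤ G` of finite index on
which `χ` is trivial, `coind_U^G k ≅ (coind_U^G k).dualTwist χ`. -/
noncomputable def pairIso (hχU : ∀ u ∈ U, χ u = 1) :
    Rep.coind U.subtype (Rep.trivial k U k)
      ≅ (Rep.coind U.subtype (Rep.trivial k U k)).dualTwist χ :=
  Rep.mkIso (ρ := Representation.coind U.subtype (Rep.trivial k U k).ρ)
    (σ := (Rep.coind U.subtype (Rep.trivial k U k)).ρ.dual.twist χ)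
    (Representation.Equiv.mk
      (LinearEquiv.ofBijective (pairHom χ U hχU).hom.toLinearMap (pairHom_bijective χ U hχU))
      (fun g => (pairHom χ U hχU).hom.isIntertwining' g))

theorem pairIso_hom (hχU : ∀ u ∈ U, χ u = 1) : (pairIso χ U hχU).hom = pairHom χ U hχU :=
  Rep.hom_ext (Representation.IntertwiningMap.ext (LinearMap.ext fun _ => rfl))

end BaseIso

end Fermat.Agent.PT.DualTwistFunctor
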