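import Fermat.Prelude.Def_GroupCohomology_ContinuousUnramified
import Fermat.Agent.ESJ.Rep.Cyclo

/-!
# PT (S55/S56): the Tate-twisted dual `M*(1)` is smooth and unramified outside `S`

* `cycloChar_eq_one_of_forall_fix`, `exists_level_cycloChar`: the mod-`p` cyclotomic character of
  the Prelude is trivial on `G_{ℚ(ζ_p)}`.
* `cycloChar_inertia`: it is trivial on inertia at every `q ≠ p`.
* `exists_level_of_smooth`: a finite-dimensional smooth representation is trivial on `G_F` for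
  one finite level `F`.
* `dualTwist_smooth`, `dualTwist_unramified`: the hypotheses `hsm`, `hMur` of S55 pass from `M`
  to `M.dualTwist (cycloChar p)` (for `hMur`: when `p ∈ S`).
-/

set_option autoImplicit false

open CategoryTheory Module groupCohomology ExtCitation

namespace Fermat.Agent.PT.DualTwist

local notation "Qb" => AlgebraicClosure ℚ
local notation "GQ" => (AlgebraicClosure ℚ ≃ₐ[ℚ] AlgebraicClosure ℚ)

variable (p : ℕ) [Fact p.Prime]

/-! ### The mod-`p` cyclotomic character -/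

theorem cycloExp_spec' (σ : GQ) (ζ : Qb) (hζ : ζ ^ p = 1) : σ ζ = ζ ^ (cycloExp p σ) := by
  have : NeZero p := ⟨(Fact.out : p.Prime).ne_zero⟩
  have hζ0 : ζ ≠ 0 := by
    rintro rfl
    rw [zero_pow (Fact.out : p.Prime).ne_zero] at hζ
    exact zero_ne_one hζ
  have ht : Units.mk0 ζ hζ0 ∈ rootsOfUnity p Qb := by
    rw [mem_rootsOfUnity]
    ext
    simpa using hζ
  have h := modularCyclotomicCharacter.spec Qb (card_rootsOfUnity_eq_self p) (σ : Qb ≃+* Qb) ht
  exact h

theorem exists_primitiveRoot : ∃ ζ : Qb, IsPrimitiveRoot ζ p := by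
  have hp : p.Prime := Fact.out
  haveI : NeZero ((p : ℕ) : Qb) := ⟨by exact_mod_cast hp.ne_zero⟩
  exact HasEnoughRootsOfUnity.exists_primitiveRoot Qb p

/-- `cycloChar p σ = 1` as soon as `σ` fixes one primitive `p`-th root of unity. -/
theorem cycloChar_eq_one_of_fix (σ : GQ) {ζ : Qb} (hζ : IsPrimitiveRoot ζ p) (h : σ ζ = ζ) :
    cycloChar p σ = 1 := by
  have hp : p.Prime := Fact.out
  haveI : NeZero p := ⟨hp.ne_zero⟩
  apply Units.ext
  rw [coe_cycloChar, Units.val_one]
  have h1 := cycloExp_spec' p σ ζ hζ.pow_eq_one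
  rw [h] at h1
  have h2 : ζ ^ (cycloExp p σ) = ζ ^ 1 := by rw [pow_one]; exact h1.symm
  have hlt : cycloExp p σ < p := by
    rw [← val_cycloChar]
    exact ZMod.val_lt _
  have h3 : cycloExp p σ = 1 := hζ.pow_inj hlt hp.one_lt h2
  rw [h3, Nat.cast_one]

/-- A finite level on which the cyclotomic character is trivial. -/
theorem exists_level_cycloChar :
    ∃ F : IntermediateField ℚ Qb, FiniteDimensional ℚ F ∧
      ∀ s ∈ F.fixingSubgroup, cycloChar p s = 1 := by
  have hp : p.Prime := Fact.out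
  obtain ⟨ζ, hζ⟩ := exists_primitiveRoot p
  have hζint : IsIntegral ℤ ζ := hζ.isIntegral hp.pos
  refine ⟨IntermediateField.adjoin ℚ {ζ},
    IntermediateField.adjoin.finiteDimensional hζint.tower_top, fun s hs => ?_⟩
  exact cycloChar_eq_one_of_fix p s hζ
    ((IntermediateField.mem_fixingSubgroup_iff _ _).1 hs ζ
      (IntermediateField.mem_adjoin_simple_self ℚ ζ))

/-- The mod-`p` cyclotomic character is trivial on inertia at `q ≠ p`. -/
theorem cycloChar_inertia {q : ℕ} (hq : q.Prime) (hqp : q ≠ p) (A : ValuationSubring Qb)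
    (hA : A.LiesOverPrime q) (σ : GQ) (hσ : σ ∈ A.inertiaSubgroupIn ℚ) : cycloChar p σ = 1 := by
  have hp : p.Prime := Fact.out
  obtain ⟨ζ, hζ⟩ := exists_primitiveRoot p
  have hζint : IsIntegral ℤ ζ := hζ.isIntegral hp.pos
  have hζA : ζ ∈ A := Fermat.Agent.Lib.ValuationIntegral.mem_of_isIntegral_int A hζint
  have h1 := (Fermat.Agent.S05.Inertia.mem_and_sub_mem_nonunits A σ hσ).2 ζ hζA
  rw [cycloExp_spec' p σ ζ hζ.pow_eq_one] at h1
  have hζp : ζ ^ p ^ 1 = 1 := by rw [pow_one]; exact hζ.pow_eq_one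
  have h2 : ζ ^ (cycloExp p σ) = ζ ^ 1 :=
    Fermat.Agent.ESJ.Rep.Cyclo.pow_eq_pow_of_sub_mem_nonunits A hq hp hqp hA hζp _ 1
      (by rw [pow_one]; exact h1)
  refine cycloChar_eq_one_of_fix p σ hζ ?_
  rw [cycloExp_spec' p σ ζ hζ.pow_eq_one, h2, pow_one]

/-! ### Smoothness and ramification of the twisted dual -/

section Rep

variable {p}
variable (M : Rep (ZMod p) GQ)

/-- A finite-dimensional smooth representation is trivial on `G_F` for a single finite `F`. -/
theorem exists_level_of_smooth [FiniteDimensional (ZMod p) M]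
    (hsm : ∀ m : M, ∃ F : IntermediateField ℚ Qb, FiniteDimensional ℚ F ∧
      ∀ s ∈ F.fixingSubgroup, M.ρ s m = m) :
    ∃ F : IntermediateField ℚ Qb, FiniteDimensional ℚ F ∧
      ∀ s ∈ F.fixingSubgroup, M.ρ s = 1 := by
  classical
  let b := Module.finBasis (ZMod p) M
  choose F hF hfix using fun i => hsm (b i)
  haveI : ∀ i, FiniteDimensional ℚ (F i) := hF
  refine ⟨⨆ i, F i, IntermediateField.finiteDimensional_iSup_of_finite, fun s hs => ?_⟩
  apply b.ext
  intro i
  have hsi : s ∈ (F i).fixingSubgroup :=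
    IntermediateField.fixingSubgroup_antitone (le_iSup F i) hs
  rw [hfix i s hsi]
  rfl

/-- `hsm` passes to the twisted dual. -/
theorem dualTwist_smooth [FiniteDimensional (ZMod p) M]
    (hsm : ∀ m : M, ∃ F : IntermediateField ℚ Qb, FiniteDimensional ℚ F ∧
      ∀ s ∈ F.fixingSubgroup, M.ρ s m = m) :
    ∀ m : M.dualTwist (cycloChar p), ∃ F : IntermediateField ℚ Qb, FiniteDimensional ℚ F ∧
      ∀ s ∈ F.fixingSubgroup, (M.dualTwist (cycloChar p)).ρ s m = m := by
  obtain ⟨F₁, hF₁, h₁⟩ := exists_level_of_smooth M hsm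
  obtain ⟨F₂, hF₂, h₂⟩ := exists_level_cycloChar p
  intro m
  haveI := hF₁
  haveI := hF₂
  refine ⟨F₁ ⊔ F₂, IntermediateField.finiteDimensional_sup F₁ F₂, fun s hs => ?_⟩
  have hs1 : s⁻¹ ∈ F₁.fixingSubgroup :=
    inv_mem (IntermediateField.fixingSubgroup_antitone le_sup_left hs)
  have hs2 : s ∈ F₂.fixingSubgroup := IntermediateField.fixingSubgroup_antitone le_sup_right hs
  rw [Rep.dualTwist_ρ_apply, h₂ s hs2, h₁ s⁻¹ hs1, Units.val_one, one_smul]
  rfl

/-- `hMur` passes to the twisted dual when `p ∈ S`. -/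
theorem dualTwist_unramified (S : Finset Nat.Primes) (hpS : pPrime p ∈ S)
    (hMur : ∀ q : Nat.Primes, q ∉ S → ∀ A : ValuationSubring Qb,
      A.LiesOverPrime (q : ℕ) → ∀ g ∈ A.inertiaSubgroupIn ℚ, M.ρ g = 1) :
    ∀ q : Nat.Primes, q ∉ S → ∀ A : ValuationSubring Qb,
      A.LiesOverPrime (q : ℕ) → ∀ g ∈ A.inertiaSubgroupIn ℚ,
        (M.dualTwist (cycloChar p)).ρ g = 1 := by
  intro q hq A hA g hg
  have hqp : (q : ℕ) ≠ p := by
    intro h
    apply hq
    have : q = pPrime p := Subtype.ext h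
    rw [this]
    exact hpS
  have h1 : M.ρ g⁻¹ = 1 := hMur q hq A hA g⁻¹ (inv_mem hg)
  have h2 : cycloChar p g = 1 := cycloChar_inertia p q.2 hqp A hA g hg
  apply LinearMap.ext
  intro f
  rw [Rep.dualTwist_ρ_apply, h1, h2, Units.val_one, one_smul]
  rfl

end Rep

end Fermat.Agent.PT.DualTwist
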