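import Fermat.Agent.PT.OutInst
import Fermat.Agent.PT.Base.GWOut
import Fermat.Agent.PT.Base.FormalInst

/-!
# PT → TW: the unconditional Greenberg–Wiles package

Companion of `PT/OutInst.lean` (`ptOut : PTOut p S`).  For an odd prime `p` and a finite set
`S ∋ p` of primes:

* `chi_CU`, `base_datum` — the two global statements (F1), (F2) on the base fields;
* `countHyp p S hp2 hpS : CountHyp (datum S) (ZMod p) (cycloChar p)`;
* `exists_gwHyp p S hp2 hpS` — the Greenberg–Wiles package `LocDatum.GWHyp` of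
  `PT/Coh/GWPerf.lean` for `datum S` (its consequences `gw_formula`, `cupV11_left_injective`,
  `resv_eq_zero_of_mem_SelDual`, `gw_ineq` then hold without hypotheses on `(p, S)`).
-/

set_option autoImplicit false

open CategoryTheory Module groupCohomology ExtCitation
open Fermat.Agent.PT Fermat.Agent.PT.Bridge Fermat.Agent.PT.Base

namespace Fermat.Agent.PT.GWInst

local notation "Qb" => AlgebraicClosure ℚ
local notation "GQ" => (AlgebraicClosure ℚ ≃ₐ[ℚ] AlgebraicClosure ℚ)

variable (p : ℕ) [Fact p.Prime] (S : Finset Nat.Primes)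

/-- **(F1)**, unconditional: for every base field `K`, `H^n(G_K; 𝔽_p)` (`n ≤ 2`) is finite and
`2·χ₂(G_K; 𝔽_p) = -[G_ℚ : G_K]`. -/
theorem chi_CU (hp2 : p ≠ 2) (hpS : pPrime p ∈ S) (K : IntermediateField ℚ Qb)
    (hK : IsBaseField p S K) :
    (∀ n ≤ 2, Module.Finite (ZMod p) ((CU p S K.fixingSubgroup).H n)) ∧
      2 * Cx.chi (CU p S K.fixingSubgroup) 2 = -(K.fixingSubgroup.index : ℤ) :=
  Mackey.chi_CU_of_baseInputs p S hpS (Base.baseInputs p S hp2 hpS) K hK

/-- **(F2)** = the engine's `(base)` for `Bridge.datum S`, unconditional. -/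
theorem base_datum (hp2 : p ≠ 2) (hpS : pPrime p ∈ S) :
    ∀ N₀ ∈ (datum S).L.lev, ∃ N, ∃ hN : N ∈ (datum S).L.lev, N ≤ N₀ ∧
      finrank (ZMod p) ((datum S).Hc (Shapiro.permRep N (ZMod p))
        (Shapiro.permRep_smooth (datum S).L N (ZMod p) ⟨N, hN, le_rfl⟩) 3) = 1 ∧
      2 * Cx.chi ((datum S).C (Shapiro.permRep N (ZMod p))
        (Shapiro.permRep_smooth (datum S).L N (ZMod p) ⟨N, hN, le_rfl⟩)) 2 =
        ∑ v, Cx.chi ((datum S).Cv (Shapiro.permRep N (ZMod p))
          (Shapiro.permRep_smooth (datum S).L N (ZMod p) ⟨N, hN, le_rfl⟩) v) 2 :=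
  Mackey.base_datum_of_baseInputs p S hpS (Base.baseInputs p S hp2 hpS)

/-- The counting hypotheses of the engine for `datum S`, unconditional. -/
theorem countHyp (hp2 : p ≠ 2) (hpS : pPrime p ∈ S) :
    LocDatum.CountHyp (datum S) (ZMod p) (cycloChar p) :=
  (engineOut p S hp2 hpS).count

/-- **The Greenberg–Wiles package for `datum S`**, unconditional. -/
theorem exists_gwHyp (hp2 : p ≠ 2) (hpS : pPrime p ∈ S) :
    ∃ tr : (datum S).Hc (chiRep (cycloChar p)) (isSmooth_T p S hpS) 3 →ₗ[ZMod p] ZMod p,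
      LocDatum.GWHyp (datum S) (cycloChar p) (isSmooth_T p S hpS) tr :=
  GWOut.exists_gwHyp_of_baseInputs S hpS (Base.baseInputs p S hp2 hpS) (chi_CU p S hp2 hpS)
    (base_datum p S hp2 hpS)

end Fermat.Agent.PT.GWInst
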