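/-
PT: the end products of the Poitou–Tate engine, bundled for consumers (TW).

* `LocDatum.EngineOut 𝔇 k χ hτ` : for an abstract datum, a character `χ` and `T = k(χ)`:
  the counting hypotheses `CountHyp`, the vanishing of the defect `Ẽ` on all finite smooth
  representations, and a trace `tr : H³_c(T) → k` for which `alpha³` is bijective on all finite
  smooth representations and the local invariant maps `trV v : H²_v(T) → k` are injective;
* `LocDatum.engineOut_of_base` : `EngineOut` from the nine base statements of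
  `LocDatum.finrank_sha_eq_of_base`;
* `PTOut p S` : the bundle for `𝔇 = Bridge.datum S`, `k = 𝔽_p`, `χ = cycloChar p`, together with
  the arithmetic base inputs `Base.BaseInputs p S`.
-/
import Mathlib
import Fermat.Agent.PT.Coh.EngineTop
import Fermat.Agent.PT.Coh.GW
import Fermat.Agent.PT.Base.Interfaces

set_option autoImplicit false

namespace Fermat.Agent.PT

namespace LocDatum

open Module

variable {G : Type} [Group G] (𝔇 : LocDatum G)
variable {k : Type} [Field k]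

/-- The end products of the formal engine for `(𝔇, k, χ)` and `T = k(χ)` (a representation `τ`
on `k`). -/
structure EngineOut (𝔇 : LocDatum G) (k : Type) [Field k] (χ : G →* kˣ)
    {τ : Representation k G k} (hτ : 𝔇.IsSmooth τ) : Prop where
  /-- the counting hypotheses -/
  count : CountHyp 𝔇 k χ
  /-- the defect `Ẽ` vanishes on all finite smooth representations -/
  et : ∀ {M : Type} [AddCommGroup M] [Module k M] [Module.Finite k M]
    (ρ : Representation k G M) (hρ : 𝔇.IsSmooth ρ) (hρ' : 𝔇.IsSmooth (dualTw χ ρ)),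
    𝔇.Et χ ρ hρ hρ' = 0
  /-- a trace with `alpha³` bijective and injective local invariant maps -/
  tr : ∃ tr : 𝔇.Hc τ hτ 3 →ₗ[k] k,
    (∀ (E : Type) [AddCommGroup E] [Module k E] [Module.Finite k E]
      (σ : Representation k G E) (hσ : 𝔇.IsSmooth σ),
      Function.Bijective ((Rex.ccFun k 𝔇).alpha 3 hσ hτ tr)) ∧
    ∀ v, Function.Injective (𝔇.trV hτ tr v)

/-- **The end products of the formal engine from the nine base statements.** -/
theorem engineOut_of_base [Nonempty 𝔇.ι] (χ : G →* kˣ) {τ : Representation k G k}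
    (hτχ : ∀ g (x : k), τ g x = (χ g : k) * x) (hτ : 𝔇.IsSmooth τ)
    (hχ : ∃ N ∈ 𝔇.L.lev, ∀ s ∈ N, χ s = 1)
    (fin : ∀ {M : Type} [AddCommGroup M] [Module k M] [Module.Finite k M]
      (ρ : Representation k G M) (hρ : 𝔇.IsSmooth ρ) (n : ℕ), n ≤ 2 →
        Module.Finite k (𝔇.H ρ hρ n))
    (finv : ∀ {M : Type} [AddCommGroup M] [Module k M] [Module.Finite k M]
      (ρ : Representation k G M) (hρ : 𝔇.IsSmooth ρ) (v : 𝔇.ι) (n : ℕ), n ≤ 2 →
        Module.Finite k (𝔇.Hv ρ hρ v n))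
    (cd : ∀ {M : Type} [AddCommGroup M] [Module k M] [Module.Finite k M]
      (ρ : Representation k G M) (hρ : 𝔇.IsSmooth ρ), Subsingleton (𝔇.H ρ hρ 3))
    (cdv : ∀ {M : Type} [AddCommGroup M] [Module k M] [Module.Finite k M]
      (ρ : Representation k G M) (hρ : 𝔇.IsSmooth ρ) (v : 𝔇.ι), Subsingleton (𝔇.Hv ρ hρ v 3))
    (cdL : ∀ (v : 𝔇.ι) (M : Type) [AddCommGroup M] [Module k M] [Module.Finite k M]
      (ρ : Representation k (𝔇.D v) M) (hρ : (𝔇.Lv v).IsSmooth ρ),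
      Subsingleton (((𝔇.Lv v).cx ρ hρ).H 3))
    (hT2 : ∀ v, Nontrivial (𝔇.Hv τ hτ v 2))
    (noLine : ∀ (v₀ : 𝔇.ι) (x : 𝔇.H τ hτ 2),
      (∀ v, v ≠ v₀ → 𝔇.locH τ hτ 2 x v = 0) → 𝔇.locH τ hτ 2 x v₀ = 0)
    (base : ∀ N₀ ∈ 𝔇.L.lev, ∃ N, ∃ hN : N ∈ 𝔇.L.lev, N ≤ N₀ ∧
      finrank k (𝔇.Hc (Shapiro.permRep N k)
        (Shapiro.permRep_smooth 𝔇.L N k ⟨N, hN, le_rfl⟩) 3) = 1 ∧
      2 * Cx.chi (𝔇.C (Shapiro.permRep N k)
        (Shapiro.permRep_smooth 𝔇.L N k ⟨N, hN, le_rfl⟩)) 2 =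
        ∑ v, Cx.chi (𝔇.Cv (Shapiro.permRep N k)
          (Shapiro.permRep_smooth 𝔇.L N k ⟨N, hN, le_rfl⟩) v) 2)
    (basev : ∀ v, ∀ N₀ ∈ (𝔇.Lv v).lev, ∃ N, ∃ hN : N ∈ (𝔇.Lv v).lev, N ≤ N₀ ∧
      finrank k (((𝔇.Lv v).cx (Shapiro.permRep N k)
        (Shapiro.permRep_smooth (𝔇.Lv v) N k ⟨N, hN, le_rfl⟩)).H 2) = 1) :
    𝔇.EngineOut k χ hτ := by
  have base3 : ∀ N₀ ∈ 𝔇.L.lev, ∃ N, ∃ hN : N ∈ 𝔇.L.lev, N ≤ N₀ ∧
      finrank k (𝔇.Hc (Shapiro.permRep N k)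
        (Shapiro.permRep_smooth 𝔇.L N k ⟨N, hN, le_rfl⟩) 3) = 1 := fun N₀ hN₀ => by
    obtain ⟨N, hN, hle, h3, -⟩ := base N₀ hN₀
    exact ⟨N, hN, hle, h3⟩
  have hCount : CountHyp 𝔇 k χ :=
    𝔇.countHyp_of_dims χ hτχ hτ hχ fin finv cd cdv cdL hT2 noLine base3 basev
  refine ⟨hCount, ?_, ?_⟩
  · intro M _ _ _ ρ hρ hρ'
    obtain ⟨Nχ, hNχ, hNχ1⟩ := hχ
    have hχ₂ : ∀ N₀ ∈ 𝔇.L.lev, ∃ N ∈ 𝔇.L.lev, N ≤ N₀ ∧ (∀ s ∈ N, χ s = 1) ∧
        ∀ hX : 𝔇.IsSmooth (Shapiro.permRep N k),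
          2 * Cx.chi (𝔇.C (Shapiro.permRep N k) hX) 2 =
            ∑ v, Cx.chi (𝔇.Cv (Shapiro.permRep N k) hX v) 2 := fun N₀ hN₀ => by
      obtain ⟨N₁, hN₁, hN₁le⟩ := 𝔇.L.inter N₀ hN₀ Nχ hNχ
      obtain ⟨N, hN, hle, -, h2⟩ := base N₁ hN₁
      exact ⟨N, hN, hle.trans (hN₁le.trans inf_le_left),
        fun s hs => hNχ1 s ((hle.trans (hN₁le.trans inf_le_right)) hs), fun hX => h2⟩
    obtain ⟨P, _, _, _, σ, hσ, hσ', i, hinj, hi, hP⟩ :=
      EngineEmb.hemb_of_perm χ hCount (EngineEmb.hbase_of_chi χ hCount hχ₂) ρ hρ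
    exact hCount.Et_eq_zero_of_injective hρ hσ hρ' hσ' i hi hinj hP
  · have hG : ∀ (M : Type) [AddCommGroup M] [Module k M] [Module.Finite k M]
        (ρ : Representation k G M) (hρ : 𝔇.IsSmooth ρ), Subsingleton (𝔇.H ρ hρ 3) :=
      fun M _ _ _ ρ hρ => cd ρ hρ
    have hv : ∀ (M : Type) [AddCommGroup M] [Module k M] [Module.Finite k M]
        (ρ : Representation k G M) (hρ : 𝔇.IsSmooth ρ) (v : 𝔇.ι),
        Subsingleton (𝔇.Hv ρ hρ v 3) := fun M _ _ _ ρ hρ v => cdv ρ hρ v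
    have hnt : Nontrivial (𝔇.Hc τ hτ 3) := 𝔇.nontrivial_Hc_three hτ hT2 noLine
    obtain ⟨tr, htr, hbij⟩ := Rex.exists_tr_alpha3_bijective 𝔇 hτ hG hv base3
    refine ⟨tr, hbij, fun v => ?_⟩
    classical
    refine (injective_iff_map_eq_zero _).mpr fun t ht => ?_
    have h1 := 𝔇.htau_of_noLine hτ tr htr noLine v (Pi.single v t)
      (fun u hu => Pi.single_eq_of_ne hu _) ?_
    · rwa [Pi.single_eq_same] at h1
    · rw [LocDatum.trV_apply] at ht
      convert ht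

end LocDatum

open ExtCitation in
/-- **The end products of the Poitou–Tate engine for `(ℚ, S)`, `k = 𝔽_p`, `χ = χ_cyc`.** -/
structure PTOut (p : ℕ) [Fact p.Prime] (S : Finset Nat.Primes) : Prop where
  /-- `p ∈ S` -/
  hpS : pPrime p ∈ S
  /-- the end products of the formal engine -/
  engine : (Bridge.datum S).EngineOut (ZMod p) (cycloChar p) (Base.isSmooth_T p S hpS)
  /-- the arithmetic base inputs -/
  base : Base.BaseInputs p S hpS

end Fermat.Agent.PT
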