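import Fermat.Agent.PT.Out
import Fermat.Agent.PT.Base.GWOut
import Fermat.Agent.PT.Base.FormalInst
import Fermat.Agent.PT.Base.B1
import Fermat.Agent.PT.Base.B5
import Fermat.Agent.PT.Base.Places
import Fermat.Agent.PT.G.HasseGeHyp
import Fermat.Agent.PT.G.G3Le
import Fermat.Agent.PT.G.KumB2
import Fermat.Agent.PT.G.B4Asm
import Fermat.Agent.PT.Br.B3Done

/-!
# PT: the end products, unconditionally

For every odd prime `p` and every finite set of primes `S ∋ p`:

* `baseInputsAll` : the arithmetic base inputs `Base.BaseInputs p S` (all seven are theorems);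
* `ptOutAll` : the bundle `PTOut p S` of `PT/Out.lean`;
* `PTOut.exists_gwHyp`, `exists_gwHypAll` : the Greenberg–Wiles package `LocDatum.GWHyp` of
  `Coh/GWPerf.lean` for `Bridge.datum S`, `k = 𝔽_p`, `χ = cycloChar p`, `τ = chiRep χ`.
-/

set_option autoImplicit false

open CategoryTheory Module groupCohomology ExtCitation
open Fermat.Agent.PT Fermat.Agent.PT.Bridge Fermat.Agent.PT.Base

namespace Fermat.Agent.PT

local notation "Qb" => AlgebraicClosure ℚ
local notation "GQ" => (AlgebraicClosure ℚ ≃ₐ[ℚ] AlgebraicClosure ℚ)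

variable (p : ℕ) [Fact p.Prime] (S : Finset Nat.Primes)

/-- **All arithmetic base inputs**, for `p` odd and `p ∈ S`. -/
theorem baseInputsAll (hp2 : p ≠ 2) (hpS : pPrime p ∈ S) : BaseInputs p S hpS where
  b1 := b1_of hp2 hpS (placesHyp p S) (HasseGe.g3GeHyp hpS) (G.g3Le p S hp2 hpS)
  b2 := Kummer.b2 p S
  b3 := Br.Inst.b3_holds p hp2 S
  b3T := Br.Inst.b3T_holds p hp2 S hpS
  b4 := G.b4 p S hp2 hpS
  b5 := Base.b5 p S hp2 hpS
  b6 := b6_of hp2 hpS (HasseGe.g3GeHyp hpS) (G.g3Le p S hp2 hpS)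

/-- **The Greenberg–Wiles package for `datum S`**, for `p` odd and `p ∈ S`. -/
theorem exists_gwHypAll (hp2 : p ≠ 2) (hpS : pPrime p ∈ S) :
    ∃ tr : (datum S).Hc (chiRep (cycloChar p)) (isSmooth_T p S hpS) 3 →ₗ[ZMod p] ZMod p,
      LocDatum.GWHyp (datum S) (cycloChar p) (isSmooth_T p S hpS) tr :=
  GWOut.exists_gwHyp_of_baseInputs S hpS (baseInputsAll p S hp2 hpS)
    (Mackey.chi_CU_of_baseInputs p S hpS (baseInputsAll p S hp2 hpS))
    (Mackey.base_datum_of_baseInputs p S hpS (baseInputsAll p S hp2 hpS))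

/-- **The end products of the Poitou–Tate engine**, for `p` odd and `p ∈ S`. -/
theorem ptOutAll (hp2 : p ≠ 2) (hpS : pPrime p ∈ S) : PTOut p S := by
  obtain ⟨tr, H⟩ := exists_gwHypAll p S hp2 hpS
  exact
    { hpS := hpS
      engine :=
        { count := H.count
          et := fun ρ hρ hρ' => H.hEt _ ρ hρ hρ'
          tr := ⟨tr, H.halpha, fun v =>
            (injective_iff_map_eq_zero _).mpr fun t ht => H.htrV v t ht⟩ }
      base := baseInputsAll p S hp2 hpS }

variable {p S}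

/-- the Greenberg–Wiles package from `PTOut` -/
theorem PTOut.exists_gwHyp (h : PTOut p S) :
    ∃ tr : (datum S).Hc (chiRep (cycloChar p)) (isSmooth_T p S h.hpS) 3 →ₗ[ZMod p] ZMod p,
      LocDatum.GWHyp (datum S) (cycloChar p) (isSmooth_T p S h.hpS) tr := by
  obtain ⟨tr, hbij, hinj⟩ := h.engine.tr
  refine ⟨tr, { hτχ := fun _ _ => rfl, count := h.engine.count, halpha := hbij,
                htrV := fun v t ht => hinj v (ht.trans (map_zero _).symm),
                hEt := fun M _ _ _ ρ hρ hρ' => h.engine.et ρ hρ hρ', halphaV := fun v => ?_ }⟩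
  have := Concrete.hT2 p S h.hpS h.base.b3T v
  obtain ⟨trv, -, hb⟩ := Rex.exists_tr_alpha2_bijective ((datum S).Lv v)
    ((datum S).isSmooth_resRep (isSmooth_T p S h.hpS) v)
    (fun M _ _ _ ρ hρ => cdL_of_b23 p S h.base.b2 h.base.b3 v M ρ hρ)
    (Concrete.basev p S h.base.b3 v)
  exact ⟨trv, hb⟩

end Fermat.Agent.PT
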