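import Fermat.Agent.PT.Out
import Fermat.Agent.PT.Base.Inputs
import Fermat.Agent.PT.G.B4Asm

/-!
# PT: the end products of the Poitou–Tate engine are theorems

* `Base.baseInputs` : the arithmetic base inputs `BaseInputs p S` (unconditional, `p` odd, `p ∈ S`);
* `engineOut` : `EngineOut` for `𝔇 = Bridge.datum S`, `k = 𝔽_p`, `χ = cycloChar p`;
* `ptOut` : `PTOut p S` for every odd `p` and every `S ∋ p` — the hypothesis bundle consumed by
  the TW-GW / (EC) layers.
-/

set_option autoImplicit false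

open CategoryTheory Module groupCohomology ExtCitation
open Fermat.Agent.PT Fermat.Agent.PT.Bridge Fermat.Agent.PT.Base

namespace Fermat.Agent.PT

local notation "Qb" => AlgebraicClosure ℚ
local notation "GQ" => (AlgebraicClosure ℚ ≃ₐ[ℚ] AlgebraicClosure ℚ)

variable (p : ℕ) [Fact p.Prime] (S : Finset Nat.Primes)

/-- **The arithmetic base inputs** `(B1)`–`(B6)`, `(B3T)` for `(p, S)`, `p` odd, `p ∈ S`. -/
theorem Base.baseInputs (hp2 : p ≠ 2) (hpS : pPrime p ∈ S) : BaseInputs p S hpS :=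
  baseInputs_of_b4 S hp2 hpS (G.b4 p S hp2 hpS)

/-- **The end products of the formal engine** for `𝔇 = Bridge.datum S`, `k = 𝔽_p`,
`χ = cycloChar p` (`p` odd, `p ∈ S`). -/
theorem engineOut (hp2 : p ≠ 2) (hpS : pPrime p ∈ S) :
    (Bridge.datum S).EngineOut (ZMod p) (cycloChar p) (Base.isSmooth_T p S hpS) := by
  have H : BaseInputs p S hpS := Base.baseInputs p S hp2 hpS
  have hF1 : ∀ K : IntermediateField ℚ Qb, IsBaseField p S K →
      (∀ n ≤ 2, Module.Finite (ZMod p) ((CU p S K.fixingSubgroup).H n)) ∧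
        2 * Cx.chi (CU p S K.fixingSubgroup) 2 = -(K.fixingSubgroup.index : ℤ) :=
    fun K hK => chi_CU_of_inputs hpS H K hK
  haveI : Nonempty (datum S).ι := Final.nonempty_ι S hpS
  exact (datum S).engineOut_of_base (cycloChar p) (τ := chiRep (cycloChar p))
    (fun _ _ => rfl) (isSmooth_T p S hpS) (Final.hχ_datum S hpS)
    (fun ρ hρ n hn => fin_of_chi p S hpS hF1 ρ hρ n hn)
    (fun ρ hρ v n hn => finv_of_b23 p S H.b2 H.b3 ρ hρ v n hn)
    (fun ρ hρ => cd_of_chi p S hpS hF1 ρ hρ)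
    (fun ρ hρ v => cdv_of_b23 p S H.b2 H.b3 ρ hρ v)
    (fun v M _ _ _ ρ hρ => cdL_of_b23 p S H.b2 H.b3 v M ρ hρ)
    (fun v => Concrete.hT2 p S hpS H.b3T v)
    H.b4
    (base_of_inputs hpS H)
    (fun v => Concrete.basev p S H.b3 v)

/-- **`PTOut p S` is a theorem** for every odd prime `p` and every finite set `S ∋ p`. -/
theorem ptOut (hp2 : p ≠ 2) (hpS : pPrime p ∈ S) : PTOut p S where
  hpS := hpS
  engine := engineOut p S hp2 hpS
  base := Base.baseInputs p S hp2 hpS

end Fermat.Agent.PT
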