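import Fermat.Agent.PT.DevissageGQ

/-!
# PT layer F (F-REX): the presentation principle

Pure representation theory (no cohomology).  `G` is any group, `N` a normal subgroup of finite
index, `k` a field.  Let `P`, `Q` be properties of `k[G]`-modules (think of a natural transformation
`η` between right exact functors: `P M` = "`η_M` is bijective", `Q M` = "`η_M` is surjective").  If

* `P` holds for the free module `X_N = coind_N^G k`, for zero modules, and is stable under finite
  direct sums (biproducts),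
* `P M → Q M`, and `Q` passes to quotients,
* for every short exact sequence `0 → R → F → M → 0`:  `Q R → P F → P M`,

then `P` holds for every finite `k[G]`-module on which `N` acts trivially (`presentation`).
No Sylow subgroups and no filtrations are used: `M` is a quotient of the free module
`coind_N^G res_N M ≅ X_N ^ dim M`.

* `kerRep`, `kerι`, `kerι_injective`, `kerι_exact` : the kernel of a morphism of representations;
* `ofCoindRes_surjective` : the counit `coind_N^G res_N M → M` is surjective;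
* `free_of_base` : `P (coind_N^G W)` for every finite trivial `N`-module `W`;
* `presentation` : the principle;
* `presentation_GQ` : its form for `S`-representations of `G_ℚ` (`IsSRep`), with base modules
  `coind_{G_L}^{G_ℚ} 𝔽_p`, `L/ℚ` finite Galois, unramified outside `S`, containing `μ_p`.
-/

set_option autoImplicit false

open CategoryTheory

namespace Fermat.Agent.PT.Pres

section Kernel

variable {k : Type} [CommRing k] {G : Type} [Group G]

/-- The kernel of a morphism of representations, as a representation. -/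
noncomputable abbrev kerRep {A B : Rep.{0} k G} (g : A ⟶ B) : Rep.{0} k G :=
  Rep.subrepresentation A (LinearMap.ker g.hom.toLinearMap) (fun h x hx => by
    rw [Submodule.mem_comap, LinearMap.mem_ker]
    rw [LinearMap.mem_ker] at hx
    change g.hom (A.ρ h x) = 0
    rw [Rep.hom_comm_apply]
    change B.ρ h (g.hom.toLinearMap x) = 0
    rw [hx, map_zero])

/-- The inclusion of the kernel. -/
noncomputable abbrev kerι {A B : Rep.{0} k G} (g : A ⟶ B) : kerRep g ⟶ A :=
  Rep.subtype A _ _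

theorem kerι_apply {A B : Rep.{0} k G} (g : A ⟶ B) (x : kerRep g) :
    (kerι g).hom x = (x : A) := rfl

theorem kerι_injective {A B : Rep.{0} k G} (g : A ⟶ B) : Function.Injective (kerι g).hom :=
  fun _ _ h => Subtype.ext h

theorem kerι_exact {A B : Rep.{0} k G} (g : A ⟶ B) : Function.Exact (kerι g).hom g.hom := by
  intro y
  constructor
  · intro hy
    exact ⟨⟨y, LinearMap.mem_ker.mpr hy⟩, rfl⟩
  · rintro ⟨x, rfl⟩
    exact LinearMap.mem_ker.mp x.2

theorem kerRep_finite [IsNoetherianRing k] {A B : Rep.{0} k G} (g : A ⟶ B) [Module.Finite k A] :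
    Module.Finite k (kerRep g) :=
  Module.Finite.of_injective (LinearMap.ker g.hom.toLinearMap).subtype
    (Submodule.subtype_injective _)

theorem kerRep_trivial {A B : Rep.{0} k G} (g : A ⟶ B) (N : Subgroup G)
    (hA : ∀ n ∈ N, A.ρ n = 1) : ∀ n ∈ N, (kerRep g).ρ n = 1 := by
  intro n hn
  ext x
  change A.ρ n (x : A) = (x : A)
  rw [hA n hn]
  rfl

end Kernel

section Counit

variable {k : Type} [CommRing k] {G : Type} [Group G] (N : Subgroup G) (M : Rep.{0} k G)

open Fermat.Agent.PT.Devissage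

open Classical in
/-- The element of `coind_N^G res_N M` supported on `N` with value `m` at `1`. -/
noncomputable def deltaCoind (m : M) : Rep.coind N.subtype (Rep.res N.subtype M) :=
  ⟨fun g => if g ∈ N then M.ρ g m else 0, fun u g => by
    by_cases hg : g ∈ N
    · have hug : N.subtype u * g ∈ N := N.mul_mem u.2 hg
      change (if N.subtype u * g ∈ N then M.ρ (N.subtype u * g) m else 0) =
        M.ρ (N.subtype u) (if g ∈ N then M.ρ g m else 0)
      rw [if_pos hug, if_pos hg, map_mul]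
      rfl
    · have hug : N.subtype u * g ∉ N := fun h => hg ((N.mul_mem_cancel_left u.2).mp h)
      change (if N.subtype u * g ∈ N then M.ρ (N.subtype u * g) m else 0) =
        M.ρ (N.subtype u) (if g ∈ N then M.ρ g m else 0)
      rw [if_neg hug, if_neg hg, map_zero]⟩

theorem deltaCoind_apply_of_mem (m : M) {g : G} (hg : g ∈ N) :
    (deltaCoind N M m).1 g = M.ρ g m := if_pos hg

theorem deltaCoind_apply_of_notMem (m : M) {g : G} (hg : g ∉ N) :
    (deltaCoind N M m).1 g = 0 := if_neg hg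

variable [N.FiniteIndex]

/-- The counit `coind_N^G res_N M → M` (helper77's `ofCoindRes` with constant `1`) is
surjective. -/
theorem ofCoindRes_surjective : Function.Surjective (ofCoindRes N M 1).hom := by
  classical
  intro m
  refine ⟨deltaCoind N M m, ?_⟩
  let _ : Fintype (G ⧸ N) := Fintype.ofFinite _
  change (1 : k) • ∑ q : G ⧸ N, avgFun N M (deltaCoind N M m) q = m
  rw [one_smul]
  have h1 : ∀ q : G ⧸ N, avgFun N M (deltaCoind N M m) q =
      if q = ((1 : G) : G ⧸ N) then m else 0 := by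
    intro q
    induction q using QuotientGroup.induction_on with
    | _ g =>
      rw [avgFun_mk]
      by_cases hg : g ∈ N
      · have hq : (g : G ⧸ N) = ((1 : G) : G ⧸ N) := by
          rw [QuotientGroup.eq]
          simpa using hg
        rw [if_pos hq, deltaCoind_apply_of_mem N M m (N.inv_mem hg), ← Module.End.mul_apply,
          ← map_mul, mul_inv_cancel, map_one, Module.End.one_apply]
      · have hq : ¬ (g : G ⧸ N) = ((1 : G) : G ⧸ N) := by
          rw [QuotientGroup.eq]
          simpa using hg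
        rw [if_neg hq, deltaCoind_apply_of_notMem N M m (fun h => hg (by simpa using N.inv_mem h)),
          map_zero]
  rw [Finset.sum_congr rfl fun q _ => h1 q, Finset.sum_ite_eq' Finset.univ ((1 : G) : G ⧸ N),
    if_pos (Finset.mem_univ _)]

end Counit

section Free

variable {k : Type} [Field k] {G : Type} [Group G] (N : Subgroup G)

open Fermat.Agent.PT.Devissage

/-- `coind_N^G` of a linear map between trivial `N`-modules. -/
noncomputable def cT {V W : Type} [AddCommGroup V] [Module k V] [AddCommGroup W] [Module k W]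
    (f : V →ₗ[k] W) :
    Rep.coind N.subtype (Rep.trivial k N V) ⟶ Rep.coind N.subtype (Rep.trivial k N W) :=
  Rep.coindMap N.subtype (Rep.ofHom (ρ := Representation.trivial k N V)
    (σ := Representation.trivial k N W) ⟨f, fun _ => rfl⟩)

variable {N}

theorem cT_apply {V W : Type} [AddCommGroup V] [Module k V] [AddCommGroup W] [Module k W]
    (f : V →ₗ[k] W) (x : Rep.coind N.subtype (Rep.trivial k N V)) (g : G) :
    ((cT N f).hom x).1 g = f (x.1 g) := rfl

theorem cT_comp {V W X : Type} [AddCommGroup V] [Module k V] [AddCommGroup W] [Module k W]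
    [AddCommGroup X] [Module k X] (f : V →ₗ[k] W) (g : W →ₗ[k] X) :
    cT N f ≫ cT N g = cT N (g ∘ₗ f) := by
  ext x
  rfl

theorem cT_id {V : Type} [AddCommGroup V] [Module k V] :
    cT N (LinearMap.id : V →ₗ[k] V) = 𝟙 _ := by
  ext x
  rfl

theorem cT_zero {V W : Type} [AddCommGroup V] [Module k V] [AddCommGroup W] [Module k W] :
    cT N (0 : V →ₗ[k] W) = 0 := by
  ext x
  rfl

theorem cT_add {V W : Type} [AddCommGroup V] [Module k V] [AddCommGroup W] [Module k W]
    (f g : V →ₗ[k] W) : cT N (f + g) = cT N f + cT N g := by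
  ext x
  rfl

variable (N)

/-- **Free modules.** If `P` holds for `X_N = coind_N^G k` and for zero modules and is stable
under biproducts, then it holds for `coind_N^G V` for every finite-dimensional trivial
`N`-module `V`. -/
theorem free_of_base [N.Normal] [N.FiniteIndex] (P : Rep.{0} k G → Prop)
    (h_zero : ∀ A : Rep.{0} k G, Subsingleton A → P A)
    (h_sum : ∀ (A B C : Rep.{0} k G) (i₁ : A ⟶ B) (p₁ : B ⟶ A) (i₂ : C ⟶ B) (p₂ : B ⟶ C),
        Module.Finite k A → Module.Finite k B → Module.Finite k C →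
        (∀ n ∈ N, A.ρ n = 1) → (∀ n ∈ N, B.ρ n = 1) → (∀ n ∈ N, C.ρ n = 1) →
        i₁ ≫ p₁ = 𝟙 A → i₂ ≫ p₂ = 𝟙 C → i₁ ≫ p₂ = 0 → i₂ ≫ p₁ = 0 →
        p₁ ≫ i₁ + p₂ ≫ i₂ = 𝟙 B → P A → P C → P B)
    (h_base : P (Rep.coind N.subtype (Rep.trivial k N k))) :
    ∀ (n : ℕ) (V : Type) [AddCommGroup V] [Module k V] [Module.Finite k V],
      Module.finrank k V = n → P (Rep.coind N.subtype (Rep.trivial k N V)) := by
  intro n
  induction n with
  | zero =>
    intro V _ _ _ hV
    have hsub : Subsingleton V := Module.finrank_zero_iff.mp hV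
    exact h_zero _ ⟨fun x y => Subtype.ext (funext fun g => Subsingleton.elim _ _)⟩
  | succ n ih =>
    intro V _ _ _ hV
    have hnt : Nontrivial V := Module.nontrivial_of_finrank_pos (R := k) (by omega)
    obtain ⟨w, hw⟩ := exists_ne (0 : V)
    let i₁ : k →ₗ[k] V := LinearMap.toSpanSingleton k V w
    have hi₁ : LinearMap.ker i₁ = ⊥ := LinearMap.ker_toSpanSingleton k hw
    obtain ⟨p₁, hp₁⟩ := LinearMap.exists_leftInverse_of_injective i₁ hi₁
    let V₁ : Submodule k V := LinearMap.ker p₁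
    let i₂ : V₁ →ₗ[k] V := V₁.subtype
    have hp₁' : ∀ c : k, p₁ (i₁ c) = c := fun c => LinearMap.congr_fun hp₁ c
    let p₂ : V →ₗ[k] V₁ := (LinearMap.id - i₁ ∘ₗ p₁).codRestrict V₁ (fun v => by
      change p₁ (v - i₁ (p₁ v)) = 0
      rw [map_sub, hp₁', sub_self])
    have h11 : p₁ ∘ₗ i₁ = LinearMap.id := hp₁
    have h22 : p₂ ∘ₗ i₂ = LinearMap.id := by
      ext v
      change (v : V) - i₁ (p₁ (v : V)) = (v : V)
      have : p₁ (v : V) = 0 := v.2
      rw [this, map_zero, sub_zero]
    have h12 : p₂ ∘ₗ i₁ = 0 := by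
      apply LinearMap.ext
      intro c
      apply Subtype.ext
      change i₁ c - i₁ (p₁ (i₁ c)) = 0
      rw [hp₁', sub_self]
    have h21 : p₁ ∘ₗ i₂ = 0 := by
      apply LinearMap.ext
      intro v
      exact v.2
    have hsum : i₁ ∘ₗ p₁ + i₂ ∘ₗ p₂ = LinearMap.id := by
      apply LinearMap.ext
      intro v
      change i₁ (p₁ v) + (v - i₁ (p₁ v)) = v
      abel
    have hp₁surj : Function.Surjective p₁ := fun c => ⟨i₁ c, hp₁' c⟩
    have hV₁ : Module.finrank k V₁ = n := by
      have h1 := LinearMap.finrank_range_add_finrank_ker p₁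
      rw [LinearMap.range_eq_top.mpr hp₁surj, finrank_top, Module.finrank_self, hV] at h1
      change 1 + Module.finrank k V₁ = n + 1 at h1
      omega
    have hfin : ∀ (X : Type) [AddCommGroup X] [Module k X] [Module.Finite k X],
        Module.Finite k (Rep.coind N.subtype (Rep.trivial k N X)) := fun X _ _ _ =>
      finite_coind N (Rep.trivial k N X)
    have htriv : ∀ (X : Type) [AddCommGroup X] [Module k X],
        ∀ m ∈ N, (Rep.coind N.subtype (Rep.trivial k N X)).ρ m = 1 := fun X _ _ =>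
      coind_trivial_of_normal N N le_rfl (Rep.trivial k N X) (fun _ _ => rfl)
    refine h_sum _ _ _ (cT N i₁) (cT N p₁) (cT N i₂) (cT N p₂) (hfin k) (hfin V) (hfin V₁)
      (htriv k) (htriv V) (htriv V₁) ?_ ?_ ?_ ?_ ?_ h_base (ih V₁ hV₁)
    · rw [cT_comp, h11, cT_id]
    · rw [cT_comp, h22, cT_id]
    · rw [cT_comp, h12, cT_zero]
    · rw [cT_comp, h21, cT_zero]
    · rw [cT_comp, cT_comp, ← cT_add, hsum, cT_id]

end Free

section Main

variable {k : Type} [Field k] {G : Type} [Group G]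

open Fermat.Agent.PT.Devissage

/-- The identity on elements, as a morphism `trivial → res_N M` when `N` acts trivially on `M`. -/
noncomputable def trivToRes (N : Subgroup G) (M : Rep.{0} k G) (hM : ∀ n ∈ N, M.ρ n = 1) :
    Rep.trivial k N M ⟶ Rep.res N.subtype M :=
  Rep.ofHom (ρ := Representation.trivial k N M) (σ := (Rep.res N.subtype M).ρ)
    ⟨LinearMap.id, fun u => by
      ext m
      change m = M.ρ (N.subtype u) m
      have h := hM (N.subtype u) u.2
      rw [h]
      rfl⟩

theorem trivToRes_apply (N : Subgroup G) (M : Rep.{0} k G) (hM : ∀ n ∈ N, M.ρ n = 1) (m : M) :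
    (trivToRes N M hM).hom m = m := rfl

/-- Every finite module with trivial `N`-action is a quotient of a free module `coind_N^G V`
(`V` trivial), for which `P` holds as soon as it holds for `X_N`. -/
theorem exists_free_cover (N : Subgroup G) [N.Normal] [N.FiniteIndex] (P : Rep.{0} k G → Prop)
    (h_zero : ∀ A : Rep.{0} k G, Subsingleton A → P A)
    (h_sum : ∀ (A B C : Rep.{0} k G) (i₁ : A ⟶ B) (p₁ : B ⟶ A) (i₂ : C ⟶ B) (p₂ : B ⟶ C),
        Module.Finite k A → Module.Finite k B → Module.Finite k C →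
        (∀ n ∈ N, A.ρ n = 1) → (∀ n ∈ N, B.ρ n = 1) → (∀ n ∈ N, C.ρ n = 1) →
        i₁ ≫ p₁ = 𝟙 A → i₂ ≫ p₂ = 𝟙 C → i₁ ≫ p₂ = 0 → i₂ ≫ p₁ = 0 →
        p₁ ≫ i₁ + p₂ ≫ i₂ = 𝟙 B → P A → P C → P B)
    (h_base : P (Rep.coind N.subtype (Rep.trivial k N k)))
    (X : Rep.{0} k G) [Module.Finite k X] (hX : ∀ n ∈ N, X.ρ n = 1) :
    ∃ (F : Rep.{0} k G) (g : F ⟶ X), Module.Finite k F ∧ (∀ n ∈ N, F.ρ n = 1) ∧
      Function.Surjective g.hom ∧ P F := by
  refine ⟨Rep.coind N.subtype (Rep.trivial k N X),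
    Rep.coindMap N.subtype (trivToRes N X hX) ≫ ofCoindRes N X 1,
    finite_coind N (Rep.trivial k N X),
    coind_trivial_of_normal N N le_rfl (Rep.trivial k N X) (fun _ _ => rfl), ?_,
    free_of_base N P h_zero h_sum h_base (Module.finrank k X) X rfl⟩
  have h1 : Function.Surjective (Rep.coindMap N.subtype (trivToRes N X hX)).hom :=
    coindMap_surjective N (trivToRes N X hX) (fun m => ⟨m, rfl⟩)
  have h2 := ofCoindRes_surjective N X
  intro x
  obtain ⟨y, hy⟩ := h2 x
  obtain ⟨z, hz⟩ := h1 y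
  refine ⟨z, ?_⟩
  rw [Rep.hom_comp]
  change (ofCoindRes N X 1).hom ((Rep.coindMap N.subtype (trivToRes N X hX)).hom z) = x
  rw [hz, hy]

/-- **The presentation principle.**  `P M` = "`η_M` bijective", `Q M` = "`η_M` surjective" for a
natural transformation `η` of right exact functors: if `P` holds on `X_N = coind_N^G k`, then it
holds on every finite `k[G]`-module with trivial `N`-action. -/
theorem presentation (N : Subgroup G) [N.Normal] [N.FiniteIndex] (P Q : Rep.{0} k G → Prop)
    (h_zero : ∀ A : Rep.{0} k G, Subsingleton A → P A)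
    (h_sum : ∀ (A B C : Rep.{0} k G) (i₁ : A ⟶ B) (p₁ : B ⟶ A) (i₂ : C ⟶ B) (p₂ : B ⟶ C),
        Module.Finite k A → Module.Finite k B → Module.Finite k C →
        (∀ n ∈ N, A.ρ n = 1) → (∀ n ∈ N, B.ρ n = 1) → (∀ n ∈ N, C.ρ n = 1) →
        i₁ ≫ p₁ = 𝟙 A → i₂ ≫ p₂ = 𝟙 C → i₁ ≫ p₂ = 0 → i₂ ≫ p₁ = 0 →
        p₁ ≫ i₁ + p₂ ≫ i₂ = 𝟙 B → P A → P C → P B)
    (h_base : P (Rep.coind N.subtype (Rep.trivial k N k)))
    (h_PQ : ∀ A : Rep.{0} k G, Module.Finite k A → (∀ n ∈ N, A.ρ n = 1) → P A → Q A)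
    (h_quot : ∀ (F M : Rep.{0} k G) (g : F ⟶ M), Module.Finite k F → Module.Finite k M →
        (∀ n ∈ N, F.ρ n = 1) → (∀ n ∈ N, M.ρ n = 1) → Function.Surjective g.hom → Q F → Q M)
    (h_coker : ∀ (R F M : Rep.{0} k G) (f : R ⟶ F) (g : F ⟶ M),
        Module.Finite k R → Module.Finite k F → Module.Finite k M →
        (∀ n ∈ N, R.ρ n = 1) → (∀ n ∈ N, F.ρ n = 1) → (∀ n ∈ N, M.ρ n = 1) →
        Function.Injective f.hom → Function.Exact f.hom g.hom → Function.Surjective g.hom →
        Q R → P F → P M)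
    (M : Rep.{0} k G) [Module.Finite k M] (hM : ∀ n ∈ N, M.ρ n = 1) : P M := by
  have hQ : ∀ (X : Rep.{0} k G) [Module.Finite k X], (∀ n ∈ N, X.ρ n = 1) → Q X := by
    intro X _ hX
    obtain ⟨F, g, hF, hFN, hg, hPF⟩ := exists_free_cover N P h_zero h_sum h_base X hX
    exact h_quot F X g hF inferInstance hFN hX hg (h_PQ F hF hFN hPF)
  obtain ⟨F, g, hF, hFN, hg, hPF⟩ := exists_free_cover N P h_zero h_sum h_base M hM
  have hRfin : Module.Finite k (kerRep g) := kerRep_finite g
  exact h_coker (kerRep g) F M (kerι g) g hRfin hF inferInstance (kerRep_trivial g N hFN) hFN hM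
    (kerι_injective g) (kerι_exact g) hg (hQ (kerRep g) (kerRep_trivial g N hFN)) hPF

/-- Variant of `presentation` for a property `Q` alone ("`η_M` surjective"): it holds everywhere as
soon as it holds on the free modules (here: as soon as `P` does). -/
theorem quotient_principle (N : Subgroup G) [N.Normal] [N.FiniteIndex] (P Q : Rep.{0} k G → Prop)
    (h_zero : ∀ A : Rep.{0} k G, Subsingleton A → P A)
    (h_sum : ∀ (A B C : Rep.{0} k G) (i₁ : A ⟶ B) (p₁ : B ⟶ A) (i₂ : C ⟶ B) (p₂ : B ⟶ C),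
        Module.Finite k A → Module.Finite k B → Module.Finite k C →
        (∀ n ∈ N, A.ρ n = 1) → (∀ n ∈ N, B.ρ n = 1) → (∀ n ∈ N, C.ρ n = 1) →
        i₁ ≫ p₁ = 𝟙 A → i₂ ≫ p₂ = 𝟙 C → i₁ ≫ p₂ = 0 → i₂ ≫ p₁ = 0 →
        p₁ ≫ i₁ + p₂ ≫ i₂ = 𝟙 B → P A → P C → P B)
    (h_base : P (Rep.coind N.subtype (Rep.trivial k N k)))
    (h_PQ : ∀ A : Rep.{0} k G, Module.Finite k A → (∀ n ∈ N, A.ρ n = 1) → P A → Q A)
    (h_quot : ∀ (F M : Rep.{0} k G) (g : F ⟶ M), Module.Finite k F → Module.Finite k M →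
        (∀ n ∈ N, F.ρ n = 1) → (∀ n ∈ N, M.ρ n = 1) → Function.Surjective g.hom → Q F → Q M)
    (M : Rep.{0} k G) [Module.Finite k M] (hM : ∀ n ∈ N, M.ρ n = 1) : Q M := by
  obtain ⟨F, g, hF, hFN, hg, hPF⟩ := exists_free_cover N P h_zero h_sum h_base M hM
  exact h_quot F M g hF inferInstance hFN hM hg (h_PQ F hF hFN hPF)

end Main

section Rational

open ExtCitation Fermat.Agent.PT.Levels Fermat.Agent.PT.DevissageGQ

local notation "Qb" => AlgebraicClosure ℚ
local notation "GQ" => (AlgebraicClosure ℚ ≃ₐ[ℚ] AlgebraicClosure ℚ)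

variable (p : ℕ) [Fact p.Prime] (S : Finset Nat.Primes)

/-- **The presentation principle for `S`-representations of `G_ℚ`** (`p ∈ S`).  The base modules
are the free modules `coind_{G_L}^{G_ℚ} 𝔽_p` for `L/ℚ` finite GALOIS, unramified outside `S`,
containing `μ_p` (i.e. the cyclotomic character is trivial on `G_L`). -/
theorem presentation_GQ (hpS : pPrime p ∈ S) (P Q : Rep.{0} (ZMod p) GQ → Prop)
    (h_zero : ∀ A : Rep.{0} (ZMod p) GQ, Subsingleton A → P A)
    (h_sum : ∀ (A B C : Rep.{0} (ZMod p) GQ) (i₁ : A ⟶ B) (p₁ : B ⟶ A) (i₂ : C ⟶ B) (p₂ : B ⟶ C),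
        IsSRep p S A → IsSRep p S B → IsSRep p S C →
        i₁ ≫ p₁ = 𝟙 A → i₂ ≫ p₂ = 𝟙 C → i₁ ≫ p₂ = 0 → i₂ ≫ p₁ = 0 →
        p₁ ≫ i₁ + p₂ ≫ i₂ = 𝟙 B → P A → P C → P B)
    (h_base : ∀ L : IntermediateField ℚ Qb, L.IsUnramifiedOutside S → Normal ℚ L →
      (∀ s ∈ L.fixingSubgroup, cycloChar p s = 1) →
      P (Rep.coind L.fixingSubgroup.subtype (Rep.trivial (ZMod p) L.fixingSubgroup (ZMod p))))
    (h_PQ : ∀ A : Rep.{0} (ZMod p) GQ, IsSRep p S A → P A → Q A)
    (h_quot : ∀ (F M : Rep.{0} (ZMod p) GQ) (g : F ⟶ M), IsSRep p S F → IsSRep p S M →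
        Function.Surjective g.hom → Q F → Q M)
    (h_coker : ∀ (R F M : Rep.{0} (ZMod p) GQ) (f : R ⟶ F) (g : F ⟶ M),
        IsSRep p S R → IsSRep p S F → IsSRep p S M →
        Function.Injective f.hom → Function.Exact f.hom g.hom → Function.Surjective g.hom →
        Q R → P F → P M)
    (M : Rep.{0} (ZMod p) GQ) (hM : IsSRep p S M) : P M := by
  obtain ⟨ζ, hζ⟩ := exists_primitiveRoot_Qbar p
  have hζS := isUnramifiedOutside_adjoin_primitiveRoot p S hpS hζ
  obtain ⟨L, hle, hL, hLn, hMN⟩ := hM.exists_normal_level p S hζS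
  have hMfin := hM.1
  have hLfin := hL.1
  have hNn : (L.fixingSubgroup).Normal := fixingSubgroup_normal L
  have hNfi : (L.fixingSubgroup).FiniteIndex := finiteIndex_fixingSubgroup L
  have hχN : ∀ s ∈ L.fixingSubgroup, cycloChar p s = 1 := fun s hs =>
    cycloChar_eq_one_of_mem_fixingSubgroup p hζ (IntermediateField.fixingSubgroup_antitone hle hs)
  exact presentation (k := ZMod p) L.fixingSubgroup P Q h_zero
    (fun A B C i₁ p₁ i₂ p₂ hA hB hC hAN hBN hCN =>
      h_sum A B C i₁ p₁ i₂ p₂ ⟨hA, L, hL, hAN⟩ ⟨hB, L, hL, hBN⟩ ⟨hC, L, hL, hCN⟩)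
    (h_base L hL hLn hχN)
    (fun A hA hAN => h_PQ A ⟨hA, L, hL, hAN⟩)
    (fun F M g hF hM hFN hMN => h_quot F M g ⟨hF, L, hL, hFN⟩ ⟨hM, L, hL, hMN⟩)
    (fun R F M f g hR hF hM hRN hFN hMN =>
      h_coker R F M f g ⟨hR, L, hL, hRN⟩ ⟨hF, L, hL, hFN⟩ ⟨hM, L, hL, hMN⟩)
    M hMN

end Rational

end Fermat.Agent.PT.Pres
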