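import Mathlib
import Fermat.Prelude.Def_GroupCohomology_ContinuousUnramified

/-!
# S55: reduction to an equality of dimensions

A bilinear pairing that is non-degenerate on both sides exists between two finite-dimensional
vector spaces of the same dimension.  Hence S55 follows from
`FiniteDimensional`-ity of `sha₁ S (M.dualTwist (cycloChar p))` and `sha₂ S M` and the equality of
their dimensions (`result_of_finrank_eq`).
-/

set_option autoImplicit false

namespace Fermat.Agent.PT

open Module

/-- Two finite-dimensional spaces of equal dimension admit a pairing that is non-degenerate on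
both sides. -/
theorem exists_nondegenerate_pairing_of_finrank_eq {k V W : Type*} [Field k] [AddCommGroup V]
    [Module k V] [AddCommGroup W] [Module k W] [FiniteDimensional k V] [FiniteDimensional k W]
    (h : finrank k V = finrank k W) :
    ∃ B : V →ₗ[k] W →ₗ[k] k,
      (∀ y, (∀ x, B y x = 0) → y = 0) ∧ (∀ x, (∀ y, B y x = 0) → x = 0) := by
  have h' : finrank k V = finrank k (Module.Dual k W) := by rw [h, Subspace.dual_finrank_eq]
  let e : V ≃ₗ[k] Module.Dual k W := LinearEquiv.ofFinrankEq V (Module.Dual k W) h'
  refine ⟨e.toLinearMap, fun y hy => ?_, fun x hx => ?_⟩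
  · apply e.injective
    rw [map_zero]
    exact LinearMap.ext hy
  · rw [← Module.forall_dual_apply_eq_zero_iff k x]
    intro φ
    obtain ⟨y, rfl⟩ := e.surjective φ
    exact hx y

/-- Conversely a pairing non-degenerate on both sides forces equal dimensions (when both are
finite-dimensional); recorded to show that the reduction loses nothing. -/
theorem finrank_eq_of_nondegenerate_pairing {k V W : Type*} [Field k] [AddCommGroup V]
    [Module k V] [AddCommGroup W] [Module k W] [FiniteDimensional k V] [FiniteDimensional k W]
    (B : V →ₗ[k] W →ₗ[k] k) (h1 : ∀ y, (∀ x, B y x = 0) → y = 0)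
    (h2 : ∀ x, (∀ y, B y x = 0) → x = 0) : finrank k V = finrank k W := by
  have i1 : Function.Injective B := by
    rw [injective_iff_map_eq_zero]
    intro y hy
    exact h1 y fun x => by rw [hy, LinearMap.zero_apply]
  have i2 : Function.Injective B.flip := by
    rw [injective_iff_map_eq_zero]
    intro x hx
    exact h2 x fun y => by
      have := LinearMap.congr_fun hx y
      simpa using this
  have l1 := LinearMap.finrank_le_finrank_of_injective i1
  have l2 := LinearMap.finrank_le_finrank_of_injective i2
  rw [Subspace.dual_finrank_eq] at l1 l2
  exact le_antisymm l1 l2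

end Fermat.Agent.PT
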