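import Mathlib

/-!
# PT layer F: the linear algebra behind (S-E)  ("`α¹` is injective for all modules")

Pure linear algebra over a field `k`; no cohomology.  The intended instantiation (blueprint v1 +
report #1515 (S-E)):

* `P = ∏_v H⁰(D_v; C)`, `H0 = H⁰(G; C)`, `diag` the restriction, `H2 = H²(G; C')`,
  `loc : H² (G; C') → ∏_v H²(D_v; C')`, and `B φ y = tr (ι_T (φ_v ∪ res_v y)_v)` the value of the
  pairing `H¹_c(C) × H²(G; C') → H³_c(T) → k` on `ι(φ)`.
* `mem_range_of_forall_eq_zero` ("W-perfectness"): if `B φ · = 0` then `φ` is global.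
  Hypotheses: `B` kills global `φ`; `B · y = 0 ↔ loc y = 0` (local duality + injectivity of the
  local components of `ι_T`); and the dimension inequality
  `Σ_v h⁰_v(C) ≤ h⁰(C) + rank loc²(C')`  (from `(e3)`, `(ev)` and `H³(G; C') = 0`).
* `exists_pairing_ne_zero`: the effacement step: a class `z ≠ 0` of `H¹_c(X)` pairs non-trivially
  with some class of `H²(G; X')`.
* `finrank_le_of_forall_exists_ne_zero`: hence `h¹_c(X) ≤ h²(X')`.
-/

set_option autoImplicit false

open Module

namespace Fermat.Agent.PT.SE

variable {k : Type*} [Field k]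

/-- The two maps attached to a bilinear form have the same rank. -/
theorem finrank_range_flip {V W : Type*} [AddCommGroup V] [Module k V] [AddCommGroup W]
    [Module k W] [FiniteDimensional k V] [FiniteDimensional k W] (B : V →ₗ[k] W →ₗ[k] k) :
    finrank k (LinearMap.range B.flip) = finrank k (LinearMap.range B) := by
  have h1 : B.flip = (LinearMap.dualMap B) ∘ₗ (Module.Dual.eval k W) := by
    ext y φ
    rfl
  have h2 : LinearMap.range B.flip = LinearMap.range (LinearMap.dualMap B) := by
    rw [h1, LinearMap.range_comp]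
    have : LinearMap.range (Module.Dual.eval k W) = ⊤ :=
      LinearMap.range_eq_top.mpr (Module.evalEquiv k W).surjective
    rw [this, Submodule.map_top]
  rw [h2]
  exact LinearMap.finrank_range_dualMap_eq_finrank_range B

/-- **W-perfectness.**  See the file header. -/
theorem mem_range_of_forall_eq_zero {P H0 H2 P2 : Type*} [AddCommGroup P] [Module k P]
    [AddCommGroup H0] [Module k H0] [AddCommGroup H2] [Module k H2] [AddCommGroup P2]
    [Module k P2] [FiniteDimensional k P] [FiniteDimensional k H0] [FiniteDimensional k H2]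
    (diag : H0 →ₗ[k] P) (hdiag : Function.Injective diag) (loc : H2 →ₗ[k] P2)
    (B : P →ₗ[k] H2 →ₗ[k] k) (hB0 : ∀ a y, B (diag a) y = 0)
    (hBr : ∀ y, (∀ φ, B φ y = 0) ↔ loc y = 0)
    (hdim : finrank k P ≤ finrank k H0 + finrank k (LinearMap.range loc))
    (φ : P) (hφ : ∀ y, B φ y = 0) : φ ∈ LinearMap.range diag := by
  have hle : LinearMap.range diag ≤ LinearMap.ker B := by
    rintro _ ⟨a, rfl⟩
    rw [LinearMap.mem_ker]
    ext y
    exact hB0 a y
  have hker : LinearMap.ker B.flip = LinearMap.ker loc := by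
    ext y
    rw [LinearMap.mem_ker, LinearMap.mem_ker, ← hBr y]
    constructor
    · intro h φ
      have := LinearMap.congr_fun h φ
      simpa using this
    · intro h
      ext φ
      exact h φ
  have h1 := LinearMap.finrank_range_add_finrank_ker B.flip
  have h2 := LinearMap.finrank_range_add_finrank_ker loc
  have h3 := LinearMap.finrank_range_add_finrank_ker B
  have h4 := finrank_range_flip B
  have h5 : finrank k (LinearMap.range diag) = finrank k H0 :=
    LinearMap.finrank_range_of_inj hdiag
  rw [hker] at h1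
  have h6 : finrank k (LinearMap.ker B) ≤ finrank k (LinearMap.range diag) := by
    omega
  have h7 : LinearMap.range diag = LinearMap.ker B :=
    Submodule.eq_of_le_of_finrank_le hle h6
  rw [h7, LinearMap.mem_ker]
  ext y
  exact hφ y

/-- The "right kernel" hypothesis of `mem_range_of_forall_eq_zero` from componentwise facts:
each local component `H²(D_v; T) → H³_c(T) → k` is injective (`hinj`) and the local `(0,2)`
pairings have trivial right kernel (`hdual`). -/
theorem forall_eq_zero_iff_eq_zero {ι : Type*} [DecidableEq ι] {H0v H2v H2Tv : ι → Type*}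
    [∀ v, AddCommGroup (H0v v)] [∀ v, Module k (H0v v)] [∀ v, AddCommGroup (H2v v)]
    [∀ v, Module k (H2v v)] [∀ v, AddCommGroup (H2Tv v)] [∀ v, Module k (H2Tv v)]
    (τ : (∀ v, H2Tv v) →ₗ[k] k) (cupv : ∀ v, H0v v →ₗ[k] H2v v →ₗ[k] H2Tv v)
    (hinj : ∀ v (t : H2Tv v), τ (Pi.single v t) = 0 → t = 0)
    (hdual : ∀ v (x : H2v v), (∀ φ : H0v v, cupv v φ x = 0) → x = 0) (x : ∀ v, H2v v) :
    (∀ φ : ∀ v, H0v v, τ (fun v => cupv v (φ v) (x v)) = 0) ↔ x = 0 := by
  constructor
  · intro h
    funext v
    refine hdual v (x v) fun φv => hinj v _ ?_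
    have h1 := h (Pi.single v φv)
    have h2 : (fun w => cupv w ((Pi.single v φv : ∀ v, H0v v) w) (x w))
        = Pi.single v (cupv v φv (x v)) := by
      funext w
      by_cases hw : w = v
      · subst hw
        simp
      · rw [Pi.single_eq_of_ne hw, Pi.single_eq_of_ne hw, map_zero, LinearMap.zero_apply]
    rwa [h2] at h1
  · rintro rfl φ
    have : (fun v => cupv v (φ v) ((0 : ∀ v, H2v v) v)) = 0 := by
      funext v
      simp
    rw [this, map_zero]

/-- **Effacement step of (S-E).**  `eX : H¹_c(X) → H¹_c(C)` injective (left exactness of `H¹_c`),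
`ι`, `π` the cone sequence of `C`, the image of `z` dies in `H¹(G; C)`, the pairings are natural,
and the pairing of `C` is non-degenerate on the image of `ι` (W-perfectness).  Then `z ≠ 0` pairs
non-trivially with some class. -/
theorem exists_pairing_ne_zero {V₁ V₁C H1C P H2X H2C T : Type*} [AddCommGroup V₁] [Module k V₁]
    [AddCommGroup V₁C] [Module k V₁C] [AddCommGroup H1C] [Module k H1C] [AddCommGroup P]
    [Module k P] [AddCommGroup H2X] [Module k H2X] [AddCommGroup H2C] [Module k H2C]
    [AddCommGroup T] [Module k T]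
    (eX : V₁ →ₗ[k] V₁C) (heX : Function.Injective eX) (ι : P →ₗ[k] V₁C) (π : V₁C →ₗ[k] H1C)
    (hex : Function.Exact ι π) (pairX : V₁ →ₗ[k] H2X →ₗ[k] T) (pairC : V₁C →ₗ[k] H2C →ₗ[k] T)
    (e' : H2C →ₗ[k] H2X) (hnat : ∀ z y, pairC (eX z) y = pairX z (e' y))
    (hW : ∀ φ : P, ι φ ≠ 0 → ∃ y, pairC (ι φ) y ≠ 0)
    (z : V₁) (hz : z ≠ 0) (heff : π (eX z) = 0) : ∃ y, pairX z y ≠ 0 := by
  obtain ⟨φ, hφ⟩ := (hex (eX z)).mp heff
  have hne : ι φ ≠ 0 := by
    rw [hφ]
    exact fun h => hz (heX (h.trans (map_zero eX).symm))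
  obtain ⟨y, hy⟩ := hW φ hne
  refine ⟨e' y, ?_⟩
  rw [← hnat, ← hφ]
  exact hy

/-- A pairing with trivial left kernel (with values in a space of dimension `≤ 1`) bounds the
dimension of the left factor. -/
theorem finrank_le_of_forall_exists_ne_zero {V W T : Type*} [AddCommGroup V] [Module k V]
    [AddCommGroup W] [Module k W] [AddCommGroup T] [Module k T] [FiniteDimensional k W]
    (tr : T →ₗ[k] k) (pair : V →ₗ[k] W →ₗ[k] T) (h : ∀ z : V, z ≠ 0 → ∃ y, tr (pair z y) ≠ 0) :
    FiniteDimensional k V ∧ finrank k V ≤ finrank k W := by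
  let f : V →ₗ[k] Module.Dual k W :=
    { toFun := fun z => tr ∘ₗ pair z
      map_add' := fun z z' => by ext y; simp
      map_smul' := fun c z => by ext y; simp }
  have hf : Function.Injective f := by
    rw [injective_iff_map_eq_zero]
    intro z hz
    by_contra hne
    obtain ⟨y, hy⟩ := h z hne
    exact hy (LinearMap.congr_fun hz y)
  have hfin : FiniteDimensional k V := FiniteDimensional.of_injective f hf
  refine ⟨hfin, ?_⟩
  have := LinearMap.finrank_le_finrank_of_injective hf
  rwa [Subspace.dual_finrank_eq] at this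

/-- Variant of `finrank_le_of_forall_exists_ne_zero` without the trace: `T` of dimension `≤ 1`,
given as an injective functional is not needed if the pairing itself separates. -/
theorem finrank_le_of_forall_exists_ne_zero' {V W T : Type*} [AddCommGroup V] [Module k V]
    [AddCommGroup W] [Module k W] [AddCommGroup T] [Module k T] [FiniteDimensional k W]
    (tr : T →ₗ[k] k) (htr : Function.Injective tr) (pair : V →ₗ[k] W →ₗ[k] T)
    (h : ∀ z : V, z ≠ 0 → ∃ y, pair z y ≠ 0) :
    FiniteDimensional k V ∧ finrank k V ≤ finrank k W :=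
  finrank_le_of_forall_exists_ne_zero tr pair fun z hz => by
    obtain ⟨y, hy⟩ := h z hz
    exact ⟨y, fun h0 => hy (htr (h0.trans (map_zero tr).symm))⟩

end Fermat.Agent.PT.SE
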