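import Fermat.Prelude.Def_GroupCohomology_ContinuousUnramified

/-!
# PT (S55): `Ш¹` and `Ш²` in explicit cochain terms

Unfolding of the Prelude definitions `groupCohomology.sha₁`, `groupCohomology.sha₂`:

* `mem_sha₁_iff` : a class of `H¹(G_ℚ, A)` lies in `Ш¹_S(A)` iff it is represented by a
  level-constant (for a level unramified outside `S`) cocycle `c` such that, for every
  `v ∈ {∞} ∪ S`, the restriction `c ∘ loc_v` is a coboundary.
* `continuousH2Sπ_mem_sha₂_iff` : the class of a level-constant `2`-cocycle `z` lies in `Ш²_S(M)`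
  iff, for every `v`, `z ∘ (loc_v × loc_v)` is the coboundary of a level-constant `1`-cochain of
  the local group.
-/

set_option autoImplicit false

open CategoryTheory Module groupCohomology ExtCitation

namespace Fermat.Agent.PT

local notation "GQ" => (AlgebraicClosure ℚ ≃ₐ[ℚ] AlgebraicClosure ℚ)

section Sha1

variable (S : Finset Nat.Primes) {K : Type} [Field K] (A : Rep K GQ)

theorem mapCocycles₁_id_apply {H : Type} [Group H] (f : H →* GQ) (c : cocycles₁ A) (g : H) :
    ((mapCocycles₁ f (𝟙 (Rep.res f A))).hom c : H → A) g = c (f g) :=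
  rfl

/-- The localisation of the class of a cocycle `c` at `v` vanishes iff `c ∘ loc_v` is a
coboundary. -/
theorem locRes_H1π_eq_zero_iff {ι : Type} {Γv : ι → Type} [∀ v, Group (Γv v)]
    (loc : ∀ v, Γv v →* GQ) (c : cocycles₁ A) (v : ι) :
    (locRes loc A v).hom ((H1π A).hom c) = 0 ↔
      ∃ m : A, ∀ g : Γv v, c (loc v g) = A.ρ (loc v g) m - m := by
  have h1 : (locRes loc A v).hom ((H1π A).hom c) =
      (H1π (Rep.res (loc v) A)).hom
        ((mapCocycles₁ (loc v) (𝟙 (Rep.res (loc v) A))).hom c) :=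
    H1π_comp_map_apply (loc v) (𝟙 (Rep.res (loc v) A)) c
  rw [h1]
  erw [H1π_eq_zero_iff]
  constructor
  · rintro ⟨m, hm⟩
    refine ⟨m, fun g => ?_⟩
    have h2 := congrFun hm g
    rw [mapCocycles₁_id_apply, d₀₁_hom_apply] at h2
    exact h2.symm
  · rintro ⟨m, hm⟩
    refine ⟨m, funext fun g => ?_⟩
    rw [mapCocycles₁_id_apply, d₀₁_hom_apply]
    exact (hm g).symm

/-- **`Ш¹` in cochain terms.** -/
theorem mem_sha₁_iff (x : H1 A) :
    x ∈ sha₁ S A ↔ ∃ c : cocycles₁ A, IsLevelConstantS₁ S c ∧ (H1π A).hom c = x ∧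
      ∀ v : extArithIndex S, ∃ m : A, ∀ g : extArithLocalGroups S v,
        c (extArithLoc S v g) = A.ρ (extArithLoc S v g) m - m := by
  constructor
  · rintro ⟨hx1, hx2⟩
    obtain ⟨c, hc, rfl⟩ := (mem_continuousH1S_iff S A x).1 hx1
    refine ⟨c, hc, rfl, fun v => ?_⟩
    have h := congrFun (LinearMap.mem_ker.mp hx2) v
    rw [locTotal_apply] at h
    exact (locRes_H1π_eq_zero_iff A (extArithLoc S) c v).mp h
  · rintro ⟨c, hc, rfl, hloc⟩
    refine ⟨(mem_continuousH1S_iff S A _).2 ⟨c, hc, rfl⟩, ?_⟩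
    show locTotal (extArithLoc S) A ((H1π A).hom c) = 0
    funext v
    rw [locTotal_apply]
    exact (locRes_H1π_eq_zero_iff A (extArithLoc S) c v).mpr (hloc v)

end Sha1

section Sha2

variable (S : Finset Nat.Primes) {k : Type} [CommRing k] (M : Rep k GQ)

/-- The localisation along `f : H → G_ℚ` of the class of a level-constant `2`-cocycle `z`
vanishes iff `z ∘ (f × f)` is the coboundary of an `f`-level-constant `1`-cochain. -/
theorem locRes₂S_π_eq_zero_iff {H : Type} [Group H] (f : H →* GQ) (z : levelCocyclesS₂ S M) :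
    locRes₂S S M f (continuousH2Sπ S M z) = 0 ↔
      ∃ y : H → M, IsLevelConstant₁ f y ∧ ∀ g h : H,
        (z : GQ × GQ → M) (f g, f h) = M.ρ (f g) (y h) - y (g * h) + y g := by
  have h1 : locRes₂S S M f (continuousH2Sπ S M z) =
      continuousH2π f (Rep.res f M)
        (levelCocycles₂Map (rH := MonoidHom.id _) (rG := f) f (fun _ => rfl)
          (LinearMap.id : M →ₗ[k] Rep.res f M) (fun _ _ => rfl)
          (levelCocyclesS₂ToLevelCocycles₂ S M z)) := rfl
  rw [h1, continuousH2π_eq_zero_iff, mem_levelCoboundaries₂_iff]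
  constructor
  · rintro ⟨y, hy, hyz⟩
    refine ⟨y, hy, fun g h => ?_⟩
    have h2 := congrFun hyz (g, h)
    rw [d₁₂_hom_apply] at h2
    exact h2.symm
  · rintro ⟨y, hy, hyz⟩
    refine ⟨y, hy, funext fun ⟨g, h⟩ => ?_⟩
    rw [d₁₂_hom_apply]
    exact (hyz g h).symm

/-- **`Ш²` in cochain terms.** -/
theorem continuousH2Sπ_mem_sha₂_iff (z : levelCocyclesS₂ S M) :
    continuousH2Sπ S M z ∈ sha₂ S M ↔
      ∀ v : extArithIndex S, ∃ y : extArithLocalGroups S v → M,
        IsLevelConstant₁ (extArithLoc S v) y ∧ ∀ g h : extArithLocalGroups S v,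
          (z : GQ × GQ → M) (extArithLoc S v g, extArithLoc S v h)
            = M.ρ (extArithLoc S v g) (y h) - y (g * h) + y g := by
  rw [sha₂, LinearMap.mem_ker]
  constructor
  · intro h v
    have h2 := congrFun h v
    rw [locTotal₂S_apply] at h2
    exact (locRes₂S_π_eq_zero_iff S M (extArithLoc S v) z).mp h2
  · intro h
    funext v
    rw [locTotal₂S_apply]
    exact (locRes₂S_π_eq_zero_iff S M (extArithLoc S v) z).mpr (h v)

/-- Every class of `H²_S(M)` is the class of a level-constant cocycle. -/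
theorem continuousH2Sπ_surjective : Function.Surjective (continuousH2Sπ S M) :=
  Submodule.mkQ_surjective _

/-- The class of a level-constant `2`-cocycle vanishes iff it is the coboundary of a
level-constant `1`-cochain. -/
theorem continuousH2Sπ_eq_zero_iff' (z : levelCocyclesS₂ S M) :
    continuousH2Sπ S M z = 0 ↔
      ∃ y : GQ → M, IsLevelConstantS₁ S y ∧ ∀ g h : GQ,
        (z : GQ × GQ → M) (g, h) = M.ρ g (y h) - y (g * h) + y g := by
  rw [continuousH2Sπ_eq_zero_iff, mem_levelCoboundariesS₂_iff]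
  constructor
  · rintro ⟨y, hy, hyz⟩
    refine ⟨y, hy, fun g h => ?_⟩
    have h2 := congrFun hyz (g, h)
    rw [d₁₂_hom_apply] at h2
    exact h2.symm
  · rintro ⟨y, hy, hyz⟩
    refine ⟨y, hy, funext fun ⟨g, h⟩ => ?_⟩
    rw [d₁₂_hom_apply]
    exact (hyz g h).symm

end Sha2

end Fermat.Agent.PT
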